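import Mathlib

set_option autoImplicit false

/-!
# S16 (B-coset): classification of `Γ₀(N) \ SL(2, ℤ)` and the norm / trace to level one

* abstract core: a "classifier" `c : SL(2, ℤ) → X` for a subgroup `Γ` (surjective, with
  `c γ = c γ' ↔ γ * γ'⁻¹ ∈ Γ`) gives a bijection of Mathlib's index set
  `𝒮ℒ ⧸ (Γ.map (mapGL ℝ)).subgroupOf 𝒮ℒ` (used by `ModularForm.norm`, `ModularForm.trace`) with `X`,
  and turns the norm / trace into an explicit product / sum over `X`;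
* `Γ₀(p)`, `p` prime: `X = Option (ZMod p)`, classifier = bottom row `(c : d) ↦ d / c`;
* `Γ₀(r p)`, `r ≠ p` primes: `X = Option (ZMod r) × Option (ZMod p)` (CRT).
-/

namespace Fermat.Agent.S16K

open Matrix MatrixGroups CongruenceSubgroup UpperHalfPlane ModularForm
open Matrix.SpecialLinearGroup (mapGL)

/-- A classifier of the right cosets `Γ \ SL(2, ℤ)`. -/
structure s16k_IsCls {X : Type*} (Γ : Subgroup SL(2, ℤ)) (c : SL(2, ℤ) → X) : Prop where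
  surj : Function.Surjective c
  eq_iff : ∀ γ γ' : SL(2, ℤ), c γ = c γ' ↔ γ * γ'⁻¹ ∈ Γ

section abstract

variable {X : Type*} {Γ : Subgroup SL(2, ℤ)} {c : SL(2, ℤ) → X}

theorem s16k_IsCls.left_inv (h : s16k_IsCls Γ c) {g : SL(2, ℤ)} (hg : g ∈ Γ) (γ : SL(2, ℤ)) :
    c (g * γ) = c γ := by
  rw [h.eq_iff]
  simpa using hg

theorem s16k_mapGL_mem_iff (Γ : Subgroup SL(2, ℤ)) (γ : SL(2, ℤ)) :
    (mapGL ℝ γ : GL (Fin 2) ℝ) ∈ Γ.map (mapGL ℝ) ↔ γ ∈ Γ :=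
  Subgroup.mem_map_iff_mem Matrix.SpecialLinearGroup.mapGL_injective

/-- The element of `𝒮ℒ` attached to `γ`. -/
noncomputable def s16k_toSL (γ : SL(2, ℤ)) : (𝒮ℒ : Subgroup (GL (Fin 2) ℝ)) :=
  ⟨mapGL ℝ γ, γ, rfl⟩

theorem s16k_toSL_surj : Function.Surjective s16k_toSL := by
  rintro ⟨_, γ, rfl⟩
  exact ⟨γ, rfl⟩

theorem s16k_toSL_mul (γ γ' : SL(2, ℤ)) : s16k_toSL (γ * γ') = s16k_toSL γ * s16k_toSL γ' := by
  apply Subtype.ext
  simp [s16k_toSL]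

theorem s16k_toSL_inv (γ : SL(2, ℤ)) : s16k_toSL γ⁻¹ = (s16k_toSL γ)⁻¹ := by
  apply Subtype.ext
  simp [s16k_toSL]

theorem s16k_toSL_mem_iff (Γ : Subgroup SL(2, ℤ)) (γ : SL(2, ℤ)) :
    s16k_toSL γ ∈ (Γ.map (mapGL ℝ)).subgroupOf 𝒮ℒ ↔ γ ∈ Γ := by
  rw [Subgroup.mem_subgroupOf]
  exact s16k_mapGL_mem_iff Γ γ

/-- The map `X → 𝒮ℒ ⧸ Γ` sending the class of `γ` to the left coset of `γ⁻¹`. -/
noncomputable def s16k_toQuot (h : s16k_IsCls Γ c) (x : X) :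
    (𝒮ℒ : Subgroup (GL (Fin 2) ℝ)) ⧸ (Γ.map (mapGL ℝ)).subgroupOf 𝒮ℒ :=
  QuotientGroup.mk (s16k_toSL (Classical.choose (h.surj x))⁻¹)

theorem s16k_toQuot_eq (h : s16k_IsCls Γ c) (γ : SL(2, ℤ)) :
    s16k_toQuot h (c γ) = QuotientGroup.mk (s16k_toSL γ⁻¹) := by
  unfold s16k_toQuot
  rw [QuotientGroup.eq, ← s16k_toSL_inv, ← s16k_toSL_mul, s16k_toSL_mem_iff, inv_inv,
    ← h.eq_iff]
  exact Classical.choose_spec (h.surj (c γ))

theorem s16k_toQuot_bijective (h : s16k_IsCls Γ c) : Function.Bijective (s16k_toQuot h) := by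
  constructor
  · intro x y hxy
    obtain ⟨γ, rfl⟩ := h.surj x
    obtain ⟨γ', rfl⟩ := h.surj y
    rw [s16k_toQuot_eq, s16k_toQuot_eq, QuotientGroup.eq, ← s16k_toSL_inv, ← s16k_toSL_mul,
      s16k_toSL_mem_iff, inv_inv] at hxy
    exact (h.eq_iff _ _).2 hxy
  · intro q
    induction q using QuotientGroup.induction_on with
    | _ g =>
      obtain ⟨γ, rfl⟩ := s16k_toSL_surj g
      refine ⟨c γ⁻¹, ?_⟩
      rw [s16k_toQuot_eq, inv_inv]

/-- The bijection between the classifying set and Mathlib's index set of the norm / trace. -/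
noncomputable def s16k_equiv (h : s16k_IsCls Γ c) :
    X ≃ (𝒮ℒ : Subgroup (GL (Fin 2) ℝ)) ⧸ (Γ.map (mapGL ℝ)).subgroupOf 𝒮ℒ :=
  Equiv.ofBijective _ (s16k_toQuot_bijective h)

theorem s16k_equiv_apply (h : s16k_IsCls Γ c) (γ : SL(2, ℤ)) :
    s16k_equiv h (c γ) = QuotientGroup.mk (s16k_toSL γ⁻¹) :=
  s16k_toQuot_eq h γ

theorem s16k_card (h : s16k_IsCls Γ c) :
    Nat.card ((𝒮ℒ : Subgroup (GL (Fin 2) ℝ)) ⧸ (Γ.map (mapGL ℝ)).subgroupOf 𝒮ℒ) = Nat.card X :=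
  (Nat.card_congr (s16k_equiv h)).symm

end abstract

section normtrace

variable {X : Type*} {Γ : Subgroup SL(2, ℤ)} {c : SL(2, ℤ) → X} {k : ℤ}

theorem s16k_quotientFunc_equiv (h : s16k_IsCls Γ c) {F' : Type*} [FunLike F' ℍ ℂ]
    [SlashInvariantFormClass F' (Γ.map (mapGL ℝ)) k] (f : F') (γ : SL(2, ℤ)) :
    SlashInvariantForm.quotientFunc f (s16k_equiv h (c γ)) = (f : ℍ → ℂ) ∣[k] γ := by
  rw [s16k_equiv_apply]
  change (f : ℍ → ℂ) ∣[k] (s16k_toSL γ⁻¹).val⁻¹ = _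
  rw [ModularForm.SL_slash]
  congr 1
  simp only [s16k_toSL, map_inv, inv_inv]
  rfl

variable [Fintype X]

theorem s16k_isFiniteRelIndex (h : s16k_IsCls Γ c) :
    (Γ.map (mapGL ℝ)).IsFiniteRelIndex 𝒮ℒ := by
  constructor
  rw [Subgroup.relIndex, Subgroup.index, s16k_card h, Nat.card_eq_fintype_card]
  have : Nonempty X := ⟨c 1⟩
  exact Fintype.card_ne_zero

theorem s16k_norm_eq_prod (h : s16k_IsCls Γ c) [(Γ.map (mapGL ℝ)).IsFiniteRelIndex 𝒮ℒ]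
    (f : ModularForm (Γ.map (mapGL ℝ)) k) (F : X → ℍ → ℂ)
    (hF : ∀ γ : SL(2, ℤ), (f : ℍ → ℂ) ∣[k] γ = F (c γ)) :
    (ModularForm.norm 𝒮ℒ f : ℍ → ℂ) = ∏ x, F x := by
  rw [ModularForm.coe_norm]
  let := Fintype.ofFinite ((𝒮ℒ : Subgroup (GL (Fin 2) ℝ)) ⧸ (Γ.map (mapGL ℝ)).subgroupOf 𝒮ℒ)
  change ∏ q, SlashInvariantForm.quotientFunc f q = _
  rw [← (s16k_equiv h).prod_comp]
  refine Finset.prod_congr rfl fun x _ => ?_
  obtain ⟨γ, rfl⟩ := h.surj x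
  rw [s16k_quotientFunc_equiv h f γ, hF]

theorem s16k_trace_eq_sum (h : s16k_IsCls Γ c) [(Γ.map (mapGL ℝ)).IsFiniteRelIndex 𝒮ℒ]
    (f : ModularForm (Γ.map (mapGL ℝ)) k) (F : X → ℍ → ℂ)
    (hF : ∀ γ : SL(2, ℤ), (f : ℍ → ℂ) ∣[k] γ = F (c γ)) :
    (ModularForm.trace 𝒮ℒ f : ℍ → ℂ) = ∑ x, F x := by
  rw [ModularForm.coe_trace]
  let := Fintype.ofFinite ((𝒮ℒ : Subgroup (GL (Fin 2) ℝ)) ⧸ (Γ.map (mapGL ℝ)).subgroupOf 𝒮ℒ)
  change ∑ q, SlashInvariantForm.quotientFunc f q = _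
  rw [← (s16k_equiv h).sum_comp]
  refine Finset.sum_congr rfl fun x _ => ?_
  obtain ⟨γ, rfl⟩ := h.surj x
  rw [s16k_quotientFunc_equiv h f γ, hF]

end normtrace

section prime

/-- The classifier of `Γ₀(p) \ SL(2, ℤ)` by the bottom row `(c, d)`: `none` if `p ∣ c`,
`some (d / c)` otherwise. -/
noncomputable def s16k_cls (p : ℕ) (γ : SL(2, ℤ)) : Option (ZMod p) :=
  if ((γ 1 0 : ℤ) : ZMod p) = 0 then none
  else some (((γ 1 1 : ℤ) : ZMod p) * ((γ 1 0 : ℤ) : ZMod p)⁻¹)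

theorem s16k_cls_eq_none_iff (p : ℕ) (γ : SL(2, ℤ)) : s16k_cls p γ = none ↔ γ ∈ Gamma0 p := by
  rw [Gamma0_mem]
  unfold s16k_cls
  split_ifs with h <;> simp [h]

theorem s16k_cls_of_ne (p : ℕ) (γ : SL(2, ℤ)) (h : ((γ 1 0 : ℤ) : ZMod p) ≠ 0) :
    s16k_cls p γ = some (((γ 1 1 : ℤ) : ZMod p) * ((γ 1 0 : ℤ) : ZMod p)⁻¹) := by
  unfold s16k_cls
  rw [if_neg h]

theorem s16k_cls_of_eq (p : ℕ) (γ : SL(2, ℤ)) (h : ((γ 1 0 : ℤ) : ZMod p) = 0) :
    s16k_cls p γ = none := by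
  unfold s16k_cls
  rw [if_pos h]

/-- An element of `SL(2, ℤ)` with prescribed coprime bottom row. -/
theorem s16k_exists_row {c d : ℤ} (h : IsCoprime c d) :
    ∃ γ : SL(2, ℤ), γ 1 0 = c ∧ γ 1 1 = d := by
  obtain ⟨a, b, hab⟩ := h
  refine ⟨⟨!![b, -a; c, d], ?_⟩, rfl, rfl⟩
  rw [Matrix.det_fin_two_of]
  linear_combination hab

theorem s16k_mul_inv_10 (γ γ' : SL(2, ℤ)) :
    (γ * γ'⁻¹) 1 0 = γ 1 0 * γ' 1 1 - γ 1 1 * γ' 1 0 := by
  rw [Matrix.SpecialLinearGroup.coe_mul, Matrix.SpecialLinearGroup.coe_inv,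
    Matrix.adjugate_fin_two, Matrix.mul_apply, Fin.sum_univ_two]
  simp
  ring

theorem s16k_det_zmod (p : ℕ) (γ : SL(2, ℤ)) :
    ((γ 0 0 : ℤ) : ZMod p) * ((γ 1 1 : ℤ) : ZMod p)
      - ((γ 0 1 : ℤ) : ZMod p) * ((γ 1 0 : ℤ) : ZMod p) = 1 := by
  have h := Matrix.SpecialLinearGroup.det_coe γ
  rw [Matrix.det_fin_two] at h
  have h2 := congrArg (fun z : ℤ => (z : ZMod p)) h
  simpa using h2

variable (p : ℕ) [Fact p.Prime]

theorem s16k_cls_isCls : s16k_IsCls (Gamma0 p) (s16k_cls p) := by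
  refine ⟨?_, ?_⟩
  · rintro (_ | j)
    · exact ⟨1, (s16k_cls_eq_none_iff p 1).2 (one_mem _)⟩
    · obtain ⟨j', rfl⟩ := ZMod.intCast_surjective j
      obtain ⟨γ, h0, h1⟩ := s16k_exists_row (c := 1) (d := j') isCoprime_one_left
      refine ⟨γ, ?_⟩
      rw [s16k_cls_of_ne p γ (by rw [h0]; simp), h0, h1]
      simp
  · intro γ γ'
    rw [Gamma0_mem, s16k_mul_inv_10]
    have hd := s16k_det_zmod p γ
    have hd' := s16k_det_zmod p γ'
    push_cast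
    by_cases h : ((γ 1 0 : ℤ) : ZMod p) = 0 <;> by_cases h' : ((γ' 1 0 : ℤ) : ZMod p) = 0
    · rw [s16k_cls_of_eq p γ h, s16k_cls_of_eq p γ' h', h, h']
      simp
    · rw [s16k_cls_of_eq p γ h, s16k_cls_of_ne p γ' h', h]
      have h11 : ((γ 1 1 : ℤ) : ZMod p) ≠ 0 := by
        intro h11
        rw [h, h11] at hd
        simp at hd
      simp [h11, h']
    · rw [s16k_cls_of_ne p γ h, s16k_cls_of_eq p γ' h', h']
      have h11 : ((γ' 1 1 : ℤ) : ZMod p) ≠ 0 := by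
        intro h11
        rw [h', h11] at hd'
        simp at hd'
      simp [h11, h]
    · rw [s16k_cls_of_ne p γ h, s16k_cls_of_ne p γ' h', Option.some_inj, ← div_eq_mul_inv,
        ← div_eq_mul_inv, div_eq_div_iff h h', sub_eq_zero]
      constructor
      · intro e
        linear_combination -e
      · intro e
        linear_combination -e

theorem s16k_cls_ST (n : ℤ) :
    s16k_cls p (ModularGroup.S * ModularGroup.T ^ n) = some (n : ZMod p) := by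
  have h0 : (ModularGroup.S * ModularGroup.T ^ n) 1 0 = 1 := by
    rw [Matrix.SpecialLinearGroup.coe_mul, ModularGroup.coe_T_zpow, ModularGroup.coe_S]
    simp [Matrix.mul_apply, Fin.sum_univ_two]
  have h1 : (ModularGroup.S * ModularGroup.T ^ n) 1 1 = n := by
    rw [Matrix.SpecialLinearGroup.coe_mul, ModularGroup.coe_T_zpow, ModularGroup.coe_S]
    simp [Matrix.mul_apply, Fin.sum_univ_two]
  rw [s16k_cls_of_ne p _ (by rw [h0]; simp), h0, h1]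
  simp

theorem s16k_cls_eq_some_iff (γ : SL(2, ℤ)) (n : ℤ) :
    s16k_cls p γ = some (n : ZMod p) ↔
      ∃ g ∈ Gamma0 p, γ = g * (ModularGroup.S * ModularGroup.T ^ n) := by
  rw [← s16k_cls_ST p n, (s16k_cls_isCls p).eq_iff]
  constructor
  · intro h
    exact ⟨_, h, by group⟩
  · rintro ⟨g, hg, rfl⟩
    rwa [mul_inv_cancel_right]

theorem s16k_cls_mul_left {g : SL(2, ℤ)} (hg : g ∈ Gamma0 p) (γ : SL(2, ℤ)) :
    s16k_cls p (g * γ) = s16k_cls p γ :=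
  (s16k_cls_isCls p).left_inv hg γ

theorem s16k_card_prime :
    Nat.card ((𝒮ℒ : Subgroup (GL (Fin 2) ℝ)) ⧸ ((Gamma0 p).map (mapGL ℝ)).subgroupOf 𝒮ℒ)
      = p + 1 := by
  rw [s16k_card (s16k_cls_isCls p), Nat.card_eq_fintype_card, Fintype.card_option, ZMod.card]

/-- The norm to level one of a form on `Γ₀(p)`, as an explicit product. -/
theorem s16k_norm_prime {k : ℤ} [((Gamma0 p).map (mapGL ℝ)).IsFiniteRelIndex 𝒮ℒ]
    (f : ModularForm ((Gamma0 p).map (mapGL ℝ)) k) (F : Option (ZMod p) → ℍ → ℂ)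
    (hF : ∀ γ : SL(2, ℤ), (f : ℍ → ℂ) ∣[k] γ = F (s16k_cls p γ)) :
    (ModularForm.norm 𝒮ℒ f : ℍ → ℂ) = F none * ∏ j : ZMod p, F (some j) := by
  rw [s16k_norm_eq_prod (s16k_cls_isCls p) f F hF, Fintype.prod_option]

/-- The trace to level one of a form on `Γ₀(p)`, as an explicit sum. -/
theorem s16k_trace_prime {k : ℤ} [((Gamma0 p).map (mapGL ℝ)).IsFiniteRelIndex 𝒮ℒ]
    (f : ModularForm ((Gamma0 p).map (mapGL ℝ)) k) (F : Option (ZMod p) → ℍ → ℂ)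
    (hF : ∀ γ : SL(2, ℤ), (f : ℍ → ℂ) ∣[k] γ = F (s16k_cls p γ)) :
    (ModularForm.trace 𝒮ℒ f : ℍ → ℂ) = F none + ∑ j : ZMod p, F (some j) := by
  rw [s16k_trace_eq_sum (s16k_cls_isCls p) f F hF, Fintype.sum_option]

end prime

section twoprimes

theorem s16k_Gamma0_mul_mem_iff {r p : ℕ} (hrp : Nat.Coprime r p) (γ : SL(2, ℤ)) :
    γ ∈ Gamma0 (r * p) ↔ γ ∈ Gamma0 r ∧ γ ∈ Gamma0 p := by
  simp only [Gamma0_mem, ZMod.intCast_zmod_eq_zero_iff_dvd]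
  push_cast
  constructor
  · intro h
    exact ⟨dvd_trans (dvd_mul_right _ _) h, dvd_trans (dvd_mul_left _ _) h⟩
  · rintro ⟨h1, h2⟩
    exact IsCoprime.mul_dvd (Nat.isCoprime_iff_coprime.2 hrp) h1 h2

variable (r p : ℕ) [Fact r.Prime] [Fact p.Prime]

/-- The classifier of `Γ₀(r p) \ SL(2, ℤ)`. -/
noncomputable def s16k_cls2 (γ : SL(2, ℤ)) : Option (ZMod r) × Option (ZMod p) :=
  (s16k_cls r γ, s16k_cls p γ)

theorem s16k_natCast_ne_zero {r p : ℕ} [Fact r.Prime] [Fact p.Prime] (hrp : r ≠ p) :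
    ((r : ℤ) : ZMod p) ≠ 0 := by
  rw [Int.cast_natCast, Ne, ZMod.natCast_eq_zero_iff]
  intro h
  exact hrp ((Nat.prime_dvd_prime_iff_eq (Fact.out : p.Prime) (Fact.out : r.Prime)).1 h).symm

/-- bottom row `(r, p + r j)`: class `(none, some j)`. -/
theorem s16k_exists_none_some {r p : ℕ} [Fact r.Prime] [Fact p.Prime] (hrp : r ≠ p) (j : ZMod p) :
    ∃ γ : SL(2, ℤ), s16k_cls r γ = none ∧ s16k_cls p γ = some j := by
  obtain ⟨j', rfl⟩ := ZMod.intCast_surjective j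
  have hcop : IsCoprime (r : ℤ) (p : ℤ) :=
    Nat.isCoprime_iff_coprime.2 ((Nat.coprime_primes Fact.out Fact.out).2 hrp)
  obtain ⟨γ, h0, h1⟩ := s16k_exists_row (c := (r : ℤ)) (d := (p : ℤ) + r * j')
    (IsCoprime.add_mul_left_right hcop j')
  have hr := s16k_natCast_ne_zero hrp
  refine ⟨γ, s16k_cls_of_eq r γ (by rw [h0]; simp), ?_⟩
  rw [s16k_cls_of_ne p γ (by rw [h0]; exact hr), h0, h1]
  push_cast
  rw [ZMod.natCast_self, zero_add, mul_comm, ← mul_assoc, inv_mul_cancel₀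
    (by simpa using hr), one_mul]

theorem s16k_cls2_isCls (hrp : r ≠ p) : s16k_IsCls (Gamma0 (r * p)) (s16k_cls2 r p) := by
  have hcopN : Nat.Coprime r p := (Nat.coprime_primes Fact.out Fact.out).2 hrp
  refine ⟨?_, ?_⟩
  · rintro ⟨x, y⟩
    rcases x with _ | i <;> rcases y with _ | j
    · exact ⟨1, Prod.ext ((s16k_cls_eq_none_iff r 1).2 (one_mem _))
        ((s16k_cls_eq_none_iff p 1).2 (one_mem _))⟩
    · obtain ⟨γ, h1, h2⟩ := s16k_exists_none_some hrp j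
      exact ⟨γ, Prod.ext h1 h2⟩
    · obtain ⟨γ, h1, h2⟩ := s16k_exists_none_some (Ne.symm hrp) i
      exact ⟨γ, Prod.ext h2 h1⟩
    · obtain ⟨i', rfl⟩ := ZMod.intCast_surjective i
      obtain ⟨j', rfl⟩ := ZMod.intCast_surjective j
      obtain ⟨u, v, huv⟩ : IsCoprime (r : ℤ) (p : ℤ) := Nat.isCoprime_iff_coprime.2 hcopN
      obtain ⟨γ, h0, h1⟩ := s16k_exists_row (c := 1) (d := i' * (v * p) + j' * (u * r))
        isCoprime_one_left
      refine ⟨γ, Prod.ext ?_ ?_⟩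
      · change s16k_cls r γ = _
        rw [s16k_cls_of_ne r γ (by rw [h0]; simp), h0, h1]
        have e : ((v * p : ℤ) : ZMod r) = 1 := by
          have := congrArg (fun z : ℤ => (z : ZMod r)) huv
          simpa using this
        push_cast at e ⊢
        rw [e]
        simp
      · change s16k_cls p γ = _
        rw [s16k_cls_of_ne p γ (by rw [h0]; simp), h0, h1]
        have e : ((u * r : ℤ) : ZMod p) = 1 := by
          have := congrArg (fun z : ℤ => (z : ZMod p)) huv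
          simpa using this
        push_cast at e ⊢
        rw [e]
        simp
  · intro γ γ'
    rw [s16k_Gamma0_mul_mem_iff hcopN, ← (s16k_cls_isCls r).eq_iff, ← (s16k_cls_isCls p).eq_iff]
    exact Prod.ext_iff

theorem s16k_cls2_mul_left (hrp : r ≠ p) {g : SL(2, ℤ)} (hg : g ∈ Gamma0 (r * p))
    (γ : SL(2, ℤ)) : s16k_cls2 r p (g * γ) = s16k_cls2 r p γ :=
  (s16k_cls2_isCls r p hrp).left_inv hg γ

theorem s16k_card_two (hrp : r ≠ p) :
    Nat.card ((𝒮ℒ : Subgroup (GL (Fin 2) ℝ)) ⧸ ((Gamma0 (r * p)).map (mapGL ℝ)).subgroupOf 𝒮ℒ)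
      = (r + 1) * (p + 1) := by
  rw [s16k_card (s16k_cls2_isCls r p hrp), Nat.card_eq_fintype_card, Fintype.card_prod,
    Fintype.card_option, Fintype.card_option, ZMod.card, ZMod.card]

/-- The norm to level one of a form on `Γ₀(r p)`, as an explicit product over the four types of
cosets. -/
theorem s16k_norm_two (hrp : r ≠ p) {k : ℤ}
    [((Gamma0 (r * p)).map (mapGL ℝ)).IsFiniteRelIndex 𝒮ℒ]
    (f : ModularForm ((Gamma0 (r * p)).map (mapGL ℝ)) k)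
    (F : Option (ZMod r) × Option (ZMod p) → ℍ → ℂ)
    (hF : ∀ γ : SL(2, ℤ), (f : ℍ → ℂ) ∣[k] γ = F (s16k_cls2 r p γ)) :
    (ModularForm.norm 𝒮ℒ f : ℍ → ℂ) =
      F (none, none) * (∏ j : ZMod p, F (none, some j)) * (∏ i : ZMod r, F (some i, none))
        * ∏ i : ZMod r, ∏ j : ZMod p, F (some i, some j) := by
  rw [s16k_norm_eq_prod (s16k_cls2_isCls r p hrp) f F hF, Fintype.prod_prod_type,
    Fintype.prod_option, Fintype.prod_option]
  simp only [Fintype.prod_option, Finset.prod_mul_distrib]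
  ring

/-- The trace to level one of a form on `Γ₀(r p)`, as an explicit sum. -/
theorem s16k_trace_two (hrp : r ≠ p) {k : ℤ}
    [((Gamma0 (r * p)).map (mapGL ℝ)).IsFiniteRelIndex 𝒮ℒ]
    (f : ModularForm ((Gamma0 (r * p)).map (mapGL ℝ)) k)
    (F : Option (ZMod r) × Option (ZMod p) → ℍ → ℂ)
    (hF : ∀ γ : SL(2, ℤ), (f : ℍ → ℂ) ∣[k] γ = F (s16k_cls2 r p γ)) :
    (ModularForm.trace 𝒮ℒ f : ℍ → ℂ) =
      F (none, none) + (∑ j : ZMod p, F (none, some j)) + (∑ i : ZMod r, F (some i, none))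
        + ∑ i : ZMod r, ∑ j : ZMod p, F (some i, some j) := by
  rw [s16k_trace_eq_sum (s16k_cls2_isCls r p hrp) f F hF, Fintype.sum_prod_type,
    Fintype.sum_option, Fintype.sum_option]
  simp only [Fintype.sum_option, Finset.sum_add_distrib]
  ring

end twoprimes

end Fermat.Agent.S16K
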