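import Mathlib
import Fermat.Agent.S16.Contracts
import Fermat.Agent.S16.Up.CosetProd
import Fermat.Agent.S16.Eis.Contract
import Fermat.Agent.S16.Dual.Arith

set_option autoImplicit false

/-!
# S16 (B7): `ContractA p` for `p ∈ {2, 3}`

A weight-2 form on `Γ₀(p)`, `p < 5`, with vanishing constant term is zero: its norm to level one
has weight `2 (p + 1) < 12` and vanishes at `i∞`, hence is zero by the level-one Sturm bound.
So `M₂(Γ₀(p)) = ℂ E` and `ContractA p` follows.
-/

namespace Fermat.Agent.S16SP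

open Matrix MatrixGroups CongruenceSubgroup UpperHalfPlane ModularForm ModularFormClass
open Matrix.SpecialLinearGroup (mapGL)
open Fermat.Agent.S16K

variable (p : ℕ) [Fact p.Prime]

instance s16sp_finRel : ((Gamma0 p).map (mapGL ℝ)).IsFiniteRelIndex 𝒮ℒ :=
  s16k_isFiniteRelIndex (s16k_cls_isCls p)

omit [Fact p.Prime] in
theorem s16sp_hΓ : (1 : ℝ) ∈ ((Gamma0 p).map (mapGL ℝ)).strictPeriods :=
  CongruenceSubgroup.one_mem_strictPeriods_Gamma0 p

omit [Fact p.Prime] in
/-- a weight-2 form on `Γ₀(p)` with `a₀ = 0` is zero at `i∞` -/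
theorem s16sp_isZeroAtImInfty (F : ModularForm ((Gamma0 p).map (mapGL ℝ)) 2)
    (h0 : qCoeff F 0 = 0) : IsZeroAtImInfty F := by
  have hanal := ModularFormClass.analyticAt_cuspFunction_zero F one_pos (s16sp_hΓ p)
  have hper := SlashInvariantFormClass.periodic_comp_ofComplex F (s16sp_hΓ p)
  have hv : valueAtInfty F = 0 := by
    rw [← qExpansion_coeff_zero one_pos hanal hper]
    exact h0
  simp_rw [IsZeroAtImInfty, Filter.ZeroAtFilter, ← hv, ← cuspFunction_apply_zero one_pos hanal hper]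
  exact (hanal.continuousAt.tendsto.comp (qParam_tendsto_atImInfty one_pos)).congr
    (fun τ ↦ SlashInvariantFormClass.eq_cuspFunction F τ (s16sp_hΓ p) one_ne_zero)


/-- the index set of Mathlib's norm -/
abbrev s16sp_Q (p : ℕ) : Type :=
  (𝒮ℒ : Subgroup (GL (Fin 2) ℝ)) ⧸ ((Gamma0 p).map (mapGL ℝ)).subgroupOf 𝒮ℒ

/-- every translate appearing in the norm is bounded at `i∞` -/
theorem s16sp_bdd (F : ModularForm ((Gamma0 p).map (mapGL ℝ)) 2) (q : s16sp_Q p) :
    IsBoundedAtImInfty (SlashInvariantForm.quotientFunc F q) := by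
  induction q using Quotient.inductionOn with
  | h r =>
    obtain ⟨r, hr⟩ := r
    have hc : IsCusp OnePoint.infty (𝒮ℒ : Subgroup (GL (Fin 2) ℝ)) :=
      Subgroup.isCusp_of_mem_strictPeriods one_pos one_mem_strictPeriods_SL
    have h1 := (ModularForm.translate F r⁻¹).bdd_at_cusps' (c := OnePoint.infty)
      (by simpa using hc.of_isFiniteRelIndex_conj (𝒢 := (Gamma0 p).map (mapGL ℝ)) hr) 1 (by simp)
    rw [SlashAction.slash_one] at h1
    exact h1

theorem s16sp_prod_isZero (F : ModularForm ((Gamma0 p).map (mapGL ℝ)) 2)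
    (hF : IsZeroAtImInfty F) [Fintype (s16sp_Q p)] :
    IsZeroAtImInfty (∏ q : s16sp_Q p, SlashInvariantForm.quotientFunc F q) := by
  classical
  have key : (∏ q : s16sp_Q p, SlashInvariantForm.quotientFunc F q) =
      SlashInvariantForm.quotientFunc F (⟦1⟧ : s16sp_Q p) *
        ∏ q ∈ Finset.univ.erase (⟦1⟧ : s16sp_Q p), SlashInvariantForm.quotientFunc F q :=
    (Finset.mul_prod_erase Finset.univ (SlashInvariantForm.quotientFunc F)
      (Finset.mem_univ (⟦1⟧ : s16sp_Q p))).symm
  rw [key]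
  have h1 : SlashInvariantForm.quotientFunc F (⟦1⟧ : s16sp_Q p) = F := by
    rw [SlashInvariantForm.quotientFunc_mk]
    simp
  rw [h1]
  have h2 : IsBoundedAtImInfty
      (∏ q ∈ Finset.univ.erase (⟦1⟧ : s16sp_Q p), SlashInvariantForm.quotientFunc F q) := by
    have : ∀ s : Finset (s16sp_Q p),
        IsBoundedAtImInfty (∏ q ∈ s, SlashInvariantForm.quotientFunc F q) := by
      intro s
      induction s using Finset.induction_on with
      | empty =>
        simp only [Finset.prod_empty]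
        exact Filter.const_boundedAtFilter _ (1 : ℂ)
      | insert a s ha ih =>
        rw [Finset.prod_insert ha]
        exact (s16sp_bdd p F a).mul ih
    exact this _
  exact hF.mul_boundedAtFilter h2

/-- the norm to level one of a form vanishing at `i∞` vanishes at `i∞` -/
theorem s16sp_norm_isZero (F : ModularForm ((Gamma0 p).map (mapGL ℝ)) 2)
    (hF : IsZeroAtImInfty F) : IsZeroAtImInfty (ModularForm.norm 𝒮ℒ F) := by
  rw [ModularForm.coe_norm]
  let := Fintype.ofFinite (s16sp_Q p)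
  exact s16sp_prod_isZero p F hF


/-- **(B7), core**: for `p < 5` a weight-2 form on `Γ₀(p)` with `a₀ = 0` vanishes. -/
theorem s16sp_eq_zero (hp : p < 5) (F : ModularForm ((Gamma0 p).map (mapGL ℝ)) 2)
    (h0 : qCoeff F 0 = 0) : F = 0 := by
  have hz := s16sp_norm_isZero p F (s16sp_isZeroAtImInfty p F h0)
  have hN : ModularForm.norm 𝒮ℒ F = 0 := by
    apply sturm_bound_levelOne
    have hcard : Nat.card (s16sp_Q p) = p + 1 := s16k_card_prime p
    have hk : ((2 : ℤ) * (Nat.card (s16sp_Q p) : ℤ)).toNat / 12 = 0 := by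
      rw [hcard]
      have : ((2 : ℤ) * ((p + 1 : ℕ) : ℤ)).toNat = 2 * (p + 1) := by
        have : (2 : ℤ) * ((p + 1 : ℕ) : ℤ) = ((2 * (p + 1) : ℕ) : ℤ) := by push_cast; ring
        rw [this, Int.toNat_natCast]
      rw [this]
      omega
    rw [hk]
    have hc0 : (qExpansion 1 (ModularForm.norm 𝒮ℒ F)).coeff 0 = 0 := by
      rw [qExpansion_coeff_zero one_pos
        (ModularFormClass.analyticAt_cuspFunction_zero _ one_pos one_mem_strictPeriods_SL)
        (SlashInvariantFormClass.periodic_comp_ofComplex _ one_mem_strictPeriods_SL)]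
      exact hz.valueAtInfty_eq_zero
    have : (1 : ℕ∞) ≤ (qExpansion 1 (ModularForm.norm 𝒮ℒ F)).order :=
      PowerSeries.one_le_order_iff_constCoeff_eq_zero.mpr (by simpa using hc0)
    exact lt_of_lt_of_le (by norm_num) this
  have := (ModularForm.norm_eq_zero_iff (ℋ := 𝒮ℒ) F).mp hN
  exact DFunLike.coe_injective this


/-- **(B7)**: `ContractA p` for `p ∈ {2, 3}`. -/
theorem s16sp_contractA (hp : p < 5) : Fermat.Agent.S16x.ContractA p := by
  intro H r h0 hint
  obtain ⟨E, hE0, hEk⟩ := Fermat.Agent.S16.Eis.s16e_contractEIS p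
  have hpp : p.Prime := Fact.out
  have hp1 : ((p : ℂ) - 1) ≠ 0 := by
    have : (p : ℂ) ≠ 1 := by exact_mod_cast hpp.one_lt.ne'
    exact sub_ne_zero.mpr this
  obtain ⟨F, hF⟩ : ∃ F : ModularForm ((Gamma0 p).map (mapGL ℝ)) 2,
      F = H - ((24 : ℂ) * (r : ℂ) / ((p : ℂ) - 1)) • E := ⟨_, rfl⟩
  have hq : ∀ n, qCoeff F n = qCoeff H n - ((24 : ℂ) * (r : ℂ) / ((p : ℂ) - 1)) * qCoeff E n := by
    intro n
    simp only [qCoeff]
    rw [hF, FunLike.coe_sub, ModularForm.qExpansion_sub one_pos (s16sp_hΓ p) H _,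
      FunLike.coe_smul, ModularForm.qExpansion_smul one_pos (s16sp_hΓ p) _ E]
    simp
  have hF0 : qCoeff F 0 = 0 := by
    rw [hq, h0, hE0]
    field_simp
    ring
  have hFz := s16sp_eq_zero p hp F hF0
  obtain ⟨a, ha⟩ := hint 1 one_pos
  have h1 := hq 1
  rw [hFz] at h1
  have hz1 : qCoeff (⇑(0 : ModularForm ((Gamma0 p).map (mapGL ℝ)) 2)) 1 = 0 := by
    simp [qCoeff, UpperHalfPlane.qExpansion_zero]
  rw [hz1, ha, hEk 1 one_pos, Fermat.Agent.S16x.s16a_sigmaP_one p hpp] at h1
  -- `a = 24 r / (p - 1)`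
  have hgcd : (Nat.gcd (p - 1) 12 : ℚ) = (p : ℚ) - 1 := by
    have : p = 2 ∨ p = 3 := by
      have h2 := hpp.two_le
      interval_cases p
      · left; rfl
      · right; rfl
      · exact absurd hpp (by decide)
    rcases this with rfl | rfl <;> norm_num
  refine ⟨a, ?_⟩
  rw [hgcd]
  have hc : ((r : ℚ) : ℂ) = ((a * (((p : ℚ) - 1) / 24) : ℚ) : ℂ) := by
    push_cast
    have h2 : (a : ℂ) = (24 : ℂ) * (r : ℂ) / ((p : ℂ) - 1) := by
      have := h1
      simp only [Int.cast_one, mul_one] at this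
      linear_combination -this
    rw [h2]
    field_simp
  exact_mod_cast hc

end Fermat.Agent.S16SP
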