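import Fermat.Agent.S16.Contracts
import Fermat.Prelude.Thm_CongruenceSubgroup_one_mem_strictPeriods_Gamma0

/-!
# S16 stream [B]: the UP contract `ContractA p` from the five "no `G ≡ 1 mod ℓ^e`" lemmas

`s16ar_UP p l e` : there is no `G ∈ M₂(Γ₀(p))` with `a₀(G) = 1` and `a_n(G) ∈ ℓ^e ℤ_(ℓ)` for all
`n ≥ 1` (membership in `ℓ^e ℤ_(ℓ)` spelled out: `∃ a : ℤ, ∃ s : ℕ, ¬ ℓ ∣ s ∧ s * x = ℓ^e * a`).

`s16ar_contractA_of_UP` : for a prime `p ≥ 5`, the lemmas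
`(ℓ ≥ 5, e = 1)`, `(ℓ = 3, e = 1, p ≡ 1 mod 3)`, `(ℓ = 3, e = 2, p ≡ 2 mod 3)`,
`(ℓ = 2, e = 2, p ≡ 1 mod 4)`, `(ℓ = 2, e = 3, p ≡ 3 mod 4)` imply `ContractA p`.
-/

set_option autoImplicit false

open UpperHalfPlane ModularFormClass CongruenceSubgroup

namespace Fermat.Agent.S16AR

open Fermat.Agent.S16x

/-- `x ∈ ℓ^e ℤ_(ℓ)` for a complex number `x`. -/
def s16ar_Zl (l e : ℕ) (x : ℂ) : Prop :=
  ∃ (a : ℤ) (s : ℕ), ¬ l ∣ s ∧ (s : ℂ) * x = (l : ℂ) ^ e * a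

/-- Shape of an UP lemma: no `G` of weight 2 on `Γ₀(p)` with `a₀ = 1`, `a_n ∈ ℓ^e ℤ_(ℓ)` (`n ≥ 1`). -/
def s16ar_UP (p l e : ℕ) : Prop :=
  ∀ G : ModularForm (Gamma0 p) 2, (qExpansion 1 G).coeff 0 = 1 →
    (∀ n : ℕ, 1 ≤ n → s16ar_Zl l e ((qExpansion 1 G).coeff n)) → False

lemma s16ar_qExp_smul {p : ℕ} (c : ℂ) (H : ModularForm (Gamma0 p) 2) (n : ℕ) :
    (qExpansion 1 (⇑(c • H) : ℍ → ℂ)).coeff n = c * (qExpansion 1 H).coeff n := by
  have h1 : (⇑(c • H) : ℍ → ℂ) = c • ⇑H := rfl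
  rw [h1, ModularForm.qExpansion_smul one_pos (CongruenceSubgroup.one_mem_strictPeriods_Gamma0 p) c H]
  simp

/-- arithmetic core: `D = 24 / gcd (p-1) 12` and the exponent `e(ℓ,p)`. -/
lemma s16ar_gcd_cases {p : ℕ} (hp : p.Prime) (hp5 : 5 ≤ p) :
    (p % 12 = 1 ∧ Nat.gcd (p - 1) 12 = 12) ∨ (p % 12 = 5 ∧ Nat.gcd (p - 1) 12 = 4) ∨
    (p % 12 = 7 ∧ Nat.gcd (p - 1) 12 = 6) ∨ (p % 12 = 11 ∧ Nat.gcd (p - 1) 12 = 2) := by
  have h2 : ¬ 2 ∣ p := fun h => by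
    have := (Nat.prime_dvd_prime_iff_eq Nat.prime_two hp).mp h
    omega
  have h3 : ¬ 3 ∣ p := fun h => by
    have := (Nat.prime_dvd_prime_iff_eq Nat.prime_three hp).mp h
    omega
  have hg : Nat.gcd (p - 1) 12 = Nat.gcd ((p - 1) % 12) 12 := by
    rw [Nat.gcd_comm, Nat.gcd_rec, Nat.gcd_comm]
  have hmod : p % 12 = 1 ∨ p % 12 = 5 ∨ p % 12 = 7 ∨ p % 12 = 11 := by omega
  rcases hmod with h | h | h | h
  · left; refine ⟨h, ?_⟩
    have : (p - 1) % 12 = 0 := by omega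
    rw [hg, this]; rfl
  · right; left; refine ⟨h, ?_⟩
    have : (p - 1) % 12 = 4 := by omega
    rw [hg, this]; rfl
  · right; right; left; refine ⟨h, ?_⟩
    have : (p - 1) % 12 = 6 := by omega
    rw [hg, this]; rfl
  · right; right; right; refine ⟨h, ?_⟩
    have : (p - 1) % 12 = 10 := by omega
    rw [hg, this]; rfl


/-- Core step: if a prime `l` divides the denominator of `t = D r` and `l^e ∣ D * den t`, then
`G := r⁻¹ • H` contradicts the UP lemma for `(l, e)`. -/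
lemma s16ar_core {p : ℕ} (l e D : ℕ) (H : ModularForm (Gamma0 p) 2) (r : ℚ)
    (h0 : (qExpansion 1 H).coeff 0 = (r : ℂ))
    (hint : ∀ k : ℕ, 0 < k → ∃ a : ℤ, (qExpansion 1 H).coeff k = (a : ℂ))
    (hD0 : D ≠ 0) (hlt : l ∣ ((D : ℚ) * r).den) (hl : l.Prime)
    (hDe : l ^ e ∣ D * ((D : ℚ) * r).den) (hUP : s16ar_UP p l e) : False := by
  set t : ℚ := (D : ℚ) * r with ht
  have hDq : (D : ℚ) ≠ 0 := by exact_mod_cast hD0
  have hr : r ≠ 0 := by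
    rintro rfl
    have : t = 0 := by rw [ht]; ring
    rw [this] at hlt
    simp at hlt
    exact hl.one_lt.ne' hlt
  have htnum : t.num ≠ 0 := by
    rw [Rat.num_ne_zero]
    exact mul_ne_zero hDq hr
  have hcop : ¬ l ∣ t.num.natAbs := by
    intro hdiv
    have h1 : l ∣ Nat.gcd t.num.natAbs t.den := Nat.dvd_gcd hdiv hlt
    rw [t.reduced] at h1
    exact hl.one_lt.ne' (Nat.dvd_one.mp h1)
  have hkey : (t.num : ℚ) * r⁻¹ = (D : ℚ) * (t.den : ℚ) := by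
    have h1 : (t.num : ℚ) = t * t.den := (Rat.mul_den_eq_num t).symm
    rw [h1, ht]
    field_simp
  obtain ⟨M, hM⟩ := hDe
  apply hUP ((r⁻¹ : ℂ) • H)
  · rw [s16ar_qExp_smul, h0]
    have : (r : ℂ) ≠ 0 := by exact_mod_cast hr
    field_simp
  · intro n hn
    obtain ⟨a, ha⟩ := hint n hn
    rw [s16ar_qExp_smul, ha]
    rcases Int.natAbs_eq t.num with hs | hs
    · refine ⟨(M : ℤ) * a, t.num.natAbs, hcop, ?_⟩
      have hq : ((t.num.natAbs : ℕ) : ℚ) * (r⁻¹ * (a : ℚ)) = (l : ℚ) ^ e * (((M : ℤ) * a : ℤ) : ℚ) := by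
        have h2 : ((t.num.natAbs : ℕ) : ℚ) = (t.num : ℚ) := by
          conv_rhs => rw [hs]
          simp
        have h3 : ((D : ℚ) * (t.den : ℚ)) = (l : ℚ) ^ e * (M : ℚ) := by exact_mod_cast hM
        rw [h2, ← mul_assoc, hkey, h3]
        push_cast
        ring
      exact_mod_cast hq
    · refine ⟨-((M : ℤ) * a), t.num.natAbs, hcop, ?_⟩
      have hq : ((t.num.natAbs : ℕ) : ℚ) * (r⁻¹ * (a : ℚ)) =
          (l : ℚ) ^ e * ((-((M : ℤ) * a) : ℤ) : ℚ) := by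
        have h2 : ((t.num.natAbs : ℕ) : ℚ) = -(t.num : ℚ) := by
          conv_rhs => rw [hs]
          simp
        have h3 : ((D : ℚ) * (t.den : ℚ)) = (l : ℚ) ^ e * (M : ℚ) := by exact_mod_cast hM
        rw [h2, neg_mul, ← mul_assoc, hkey, h3]
        push_cast
        ring
      exact_mod_cast hq


/-- **UP glue**: for a prime `p ≥ 5`, `ContractA p` follows from the five UP lemmas. -/
theorem s16ar_contractA_of_UP (p : ℕ) [hp : Fact p.Prime] (hp5 : 5 ≤ p)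
    (h5 : ∀ l : ℕ, l.Prime → 5 ≤ l → s16ar_UP p l 1)
    (h3a : p % 3 = 1 → s16ar_UP p 3 1) (h3b : p % 3 = 2 → s16ar_UP p 3 2)
    (h2a : p % 4 = 1 → s16ar_UP p 2 2) (h2b : p % 4 = 3 → s16ar_UP p 2 3) :
    ContractA p := by
  intro H r h0 hint
  change (qExpansion 1 H).coeff 0 = (r : ℂ) at h0
  have hint' : ∀ k : ℕ, 0 < k → ∃ a : ℤ, (qExpansion 1 H).coeff k = (a : ℂ) := hint
  -- `D = 24 / gcd (p-1) 12`
  obtain ⟨D, hD0, hDd, hcase⟩ : ∃ D : ℕ, D ≠ 0 ∧ ((Nat.gcd (p - 1) 12 : ℚ) / 24 = 1 / (D : ℚ)) ∧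
      ((p % 12 = 1 ∧ D = 2) ∨ (p % 12 = 5 ∧ D = 6) ∨ (p % 12 = 7 ∧ D = 4) ∨
        (p % 12 = 11 ∧ D = 12)) := by
    rcases s16ar_gcd_cases hp.out hp5 with ⟨h, hg⟩ | ⟨h, hg⟩ | ⟨h, hg⟩ | ⟨h, hg⟩
    · exact ⟨2, by norm_num, by rw [hg]; norm_num, Or.inl ⟨h, rfl⟩⟩
    · exact ⟨6, by norm_num, by rw [hg]; norm_num, Or.inr (Or.inl ⟨h, rfl⟩)⟩
    · exact ⟨4, by norm_num, by rw [hg]; norm_num, Or.inr (Or.inr (Or.inl ⟨h, rfl⟩))⟩
    · exact ⟨12, by norm_num, by rw [hg]; norm_num, Or.inr (Or.inr (Or.inr ⟨h, rfl⟩))⟩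
  have hDq : (D : ℚ) ≠ 0 := by exact_mod_cast hD0
  by_cases hden : ((D : ℚ) * r).den = 1
  · refine ⟨((D : ℚ) * r).num, ?_⟩
    have h1 : (((D : ℚ) * r).num : ℚ) = (D : ℚ) * r := by
      have := Rat.mul_den_eq_num ((D : ℚ) * r)
      rw [hden] at this
      simpa using this.symm
    rw [hDd, h1]
    field_simp
  · exfalso
    obtain ⟨l, hl, hlt⟩ := Nat.exists_prime_and_dvd hden
    have core := fun e hDe hUP => s16ar_core (p := p) l e D H r h0 hint' hD0 hlt hl hDe hUP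
    -- `l^e ∣ D * den` from `l ∣ den` and `l^(e-1) ∣ D`
    have hdvd : ∀ e : ℕ, l ^ e ∣ D → l ^ (e + 1) ∣ D * ((D : ℚ) * r).den := by
      intro e he
      rw [pow_succ]
      exact mul_dvd_mul he hlt
    by_cases hl2 : l = 2
    · subst hl2
      rcases hcase with ⟨h, rfl⟩ | ⟨h, rfl⟩ | ⟨h, rfl⟩ | ⟨h, rfl⟩
      · exact core 2 (hdvd 1 (by norm_num)) (h2a (by omega))
      · exact core 2 (hdvd 1 (by norm_num)) (h2a (by omega))
      · exact core 3 (hdvd 2 (by norm_num)) (h2b (by omega))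
      · exact core 3 (hdvd 2 (by norm_num)) (h2b (by omega))
    by_cases hl3 : l = 3
    · subst hl3
      rcases hcase with ⟨h, rfl⟩ | ⟨h, rfl⟩ | ⟨h, rfl⟩ | ⟨h, rfl⟩
      · exact core 1 (hdvd 0 (by norm_num)) (h3a (by omega))
      · exact core 2 (hdvd 1 (by norm_num)) (h3b (by omega))
      · exact core 1 (hdvd 0 (by norm_num)) (h3a (by omega))
      · exact core 2 (hdvd 1 (by norm_num)) (h3b (by omega))
    · have hl5 : 5 ≤ l := by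
        have h2 := hl.two_le
        by_contra hcon
        have : l = 4 := by omega
        subst this
        exact absurd hl (by norm_num)
      exact core 1 (hdvd 0 (by simp)) (h5 l hl hl5)

end Fermat.Agent.S16AR
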