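import Mathlib
import Fermat.Prelude.Def_ModularForm_HeckeOperator
import Fermat.Agent.S16.Up.CosetProd

set_option autoImplicit false

/-!
# S16, stream (B2): the conjugates of a weight-2 form on `Γ₀(p)`

For `p` prime and `G` a weight-2 modular form on `Γ₀(p)`, with `H = U_p G`:
`G ∣ γ = G` for `γ ∈ Γ₀(p)` and `G ∣ γ = -(H ∣ [[1,j],[0,p]])` for some `j < p` otherwise.
-/

open UpperHalfPlane ModularForm MatrixGroups CongruenceSubgroup Matrix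
open Matrix.SpecialLinearGroup (mapGL)
open scoped Pointwise
open Fermat.Agent.S16K

namespace Fermat.Agent.S16

noncomputable section

/-- Slash by a nonzero scalar multiple in weight 2 -/
theorem s16c_slash_smul_ne (f : ℍ → ℂ) (g g' : GL (Fin 2) ℝ) (c : ℝ) (hc : c ≠ 0)
    (hg : 0 < (g.det : ℝ))
    (h : (g' : Matrix (Fin 2) (Fin 2) ℝ) = c • (g : Matrix (Fin 2) (Fin 2) ℝ)) :
    f ∣[(2 : ℤ)] g' = f ∣[(2 : ℤ)] g := by
  have hdet' : (g'.det : ℝ) = c ^ 2 * (g.det : ℝ) := by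
    rw [Matrix.GeneralLinearGroup.val_det_apply, Matrix.GeneralLinearGroup.val_det_apply, h,
      Matrix.det_smul]
    simp
  have hc2 : 0 < c ^ 2 := by positivity
  have hg' : 0 < (g'.det : ℝ) := by rw [hdet']; positivity
  have hσ : UpperHalfPlane.σ g = .refl ℝ ℂ := by rw [UpperHalfPlane.σ, if_pos hg]
  have hσ' : UpperHalfPlane.σ g' = .refl ℝ ℂ := by rw [UpperHalfPlane.σ, if_pos hg']
  have h00 : (g' : Matrix (Fin 2) (Fin 2) ℝ) 0 0 = c * (g : Matrix (Fin 2) (Fin 2) ℝ) 0 0 := by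
    rw [h]; simp
  have h01 : (g' : Matrix (Fin 2) (Fin 2) ℝ) 0 1 = c * (g : Matrix (Fin 2) (Fin 2) ℝ) 0 1 := by
    rw [h]; simp
  have h10 : (g' : Matrix (Fin 2) (Fin 2) ℝ) 1 0 = c * (g : Matrix (Fin 2) (Fin 2) ℝ) 1 0 := by
    rw [h]; simp
  have h11 : (g' : Matrix (Fin 2) (Fin 2) ℝ) 1 1 = c * (g : Matrix (Fin 2) (Fin 2) ℝ) 1 1 := by
    rw [h]; simp
  have hc' : (c : ℂ) ≠ 0 := by exact_mod_cast hc
  ext τ
  have hden : denom g' τ = (c : ℂ) * denom g τ := by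
    simp only [UpperHalfPlane.denom, h10, h11]; push_cast; ring
  have hnum : num g' τ = (c : ℂ) * num g τ := by
    simp only [UpperHalfPlane.num, h00, h01]; push_cast; ring
  have hsm : g' • τ = g • τ := by
    apply UpperHalfPlane.ext
    rw [UpperHalfPlane.coe_smul_of_det_pos hg', UpperHalfPlane.coe_smul_of_det_pos hg, hden, hnum,
      mul_div_mul_left _ _ hc']
  rw [slash_apply, slash_apply, hσ, hσ', hsm, hden, hdet']
  have hd0 : denom g τ ≠ 0 := UpperHalfPlane.denom_ne_zero g τ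
  simp only [ContinuousAlgEquiv.refl_apply]
  rw [abs_of_pos (by positivity), abs_of_pos hg]
  push_cast
  rw [mul_zpow]
  field_simp

/-- The Fricke matrix `[[0,-1],[p,0]]`. -/
def s16c_W (p : ℕ) [NeZero p] : GL (Fin 2) ℝ :=
  Matrix.GeneralLinearGroup.mkOfDetNeZero !![0, -1; (p : ℝ), 0]
    (by rw [Matrix.det_fin_two_of]; simp [NeZero.ne p])

theorem s16c_W_val (p : ℕ) [NeZero p] :
    ((s16c_W p : GL (Fin 2) ℝ) : Matrix (Fin 2) (Fin 2) ℝ) = !![0, -1; (p : ℝ), 0] := rfl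

theorem s16c_W_det (p : ℕ) [NeZero p] : ((s16c_W p).det : ℝ) = p := by
  rw [Matrix.GeneralLinearGroup.val_det_apply, s16c_W_val, Matrix.det_fin_two_of]
  ring

/-- The matrix `S T^j = [[0,-1],[1,j]]`. -/
def s16c_ST (j : ℤ) : SL(2, ℤ) :=
  ⟨!![0, -1; 1, j], by rw [Matrix.det_fin_two_of]; ring⟩

theorem s16c_ST_val (j : ℤ) : ((s16c_ST j : SL(2, ℤ)) : Matrix (Fin 2) (Fin 2) ℤ) = !![0, -1; 1, j] :=
  rfl

theorem s16c_coe_GL_apply (γ : SL(2, ℤ)) (a b : Fin 2) :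
    ((γ : GL (Fin 2) ℝ) : Matrix (Fin 2) (Fin 2) ℝ) a b = ((γ a b : ℤ) : ℝ) := rfl

theorem s16c_coe_GL_det (γ : SL(2, ℤ)) : ((γ : GL (Fin 2) ℝ).det : ℝ) = 1 := by
  rw [Matrix.GeneralLinearGroup.val_det_apply]
  exact (Matrix.SpecialLinearGroup.map (Int.castRingHom ℝ) γ).2

theorem s16c_ST_det_pos (j : ℤ) : 0 < (((s16c_ST j : SL(2, ℤ)) : GL (Fin 2) ℝ).det : ℝ) := by
  rw [s16c_coe_GL_det]; exact one_pos

/-- `W_p · [[1,j],[0,p]] = p · S T^j`. -/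
theorem s16c_W_mul_heckeMatrix (p : ℕ) [NeZero p] (j : ℕ) :
    ((s16c_W p * ModularForm.heckeMatrix p j : GL (Fin 2) ℝ) : Matrix (Fin 2) (Fin 2) ℝ) =
      (p : ℝ) • (((s16c_ST j : SL(2, ℤ)) : GL (Fin 2) ℝ) : Matrix (Fin 2) (Fin 2) ℝ) := by
  rw [Matrix.GeneralLinearGroup.coe_mul, s16c_W_val, ModularForm.val_heckeMatrix (NeZero.ne p)]
  ext a b
  rw [Matrix.smul_apply, s16c_coe_GL_apply]
  fin_cases a <;> fin_cases b <;> simp [s16c_ST, Matrix.mul_apply, Fin.sum_univ_two]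

/-- `(F ∣ W_p) ∣ [[1,j],[0,p]] = F ∣ S T^j` in weight 2. -/
theorem s16c_slash_W_heckeMatrix (p : ℕ) [NeZero p] (j : ℕ) (F : ℍ → ℂ) :
    (F ∣[(2 : ℤ)] s16c_W p) ∣[(2 : ℤ)] ModularForm.heckeMatrix p j =
      F ∣[(2 : ℤ)] (s16c_ST j : SL(2, ℤ)) := by
  rw [← SlashAction.slash_mul, ModularForm.SL_slash]
  exact s16c_slash_smul_ne F _ _ (p : ℝ) (by exact_mod_cast NeZero.ne p)
    (s16c_ST_det_pos j) (s16c_W_mul_heckeMatrix p j)

/-- the partner matrix `[[d, -c/p], [-p b, a]]` of `[[a, b], [c, d]] ∈ Γ₀(p)`. -/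
theorem s16c_exists_partner (p : ℕ) [NeZero p] (γ : SL(2, ℤ)) (hγ : γ ∈ Gamma0 p) :
    ∃ δ : SL(2, ℤ), δ ∈ Gamma0 p ∧
      (δ : GL (Fin 2) ℝ) * s16c_W p = s16c_W p * (γ : GL (Fin 2) ℝ) ∧
      s16c_W p * (δ : GL (Fin 2) ℝ) = (γ : GL (Fin 2) ℝ) * s16c_W p := by
  rw [Gamma0_mem] at hγ
  obtain ⟨c', hc'⟩ : (p : ℤ) ∣ γ 1 0 := (ZMod.intCast_zmod_eq_zero_iff_dvd _ _).mp hγ
  have hdet : γ 0 0 * γ 1 1 - γ 0 1 * γ 1 0 = 1 := by
    have := γ.2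
    rw [Matrix.det_fin_two] at this
    exact this
  let δ : SL(2, ℤ) := ⟨!![γ 1 1, -c'; -(p : ℤ) * γ 0 1, γ 0 0], by
    rw [Matrix.det_fin_two_of]
    rw [hc'] at hdet
    linear_combination hdet⟩
  refine ⟨δ, ?_, ?_, ?_⟩
  · rw [Gamma0_mem]
    show (((-(p : ℤ) * γ 0 1 : ℤ)) : ZMod p) = 0
    push_cast
    simp
  · apply Matrix.GeneralLinearGroup.ext
    intro a b
    rw [Matrix.GeneralLinearGroup.coe_mul, Matrix.GeneralLinearGroup.coe_mul, s16c_W_val,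
      Matrix.mul_apply, Matrix.mul_apply, Fin.sum_univ_two, Fin.sum_univ_two]
    simp only [s16c_coe_GL_apply]
    have h10 : ((γ 1 0 : ℤ) : ℝ) = (p : ℝ) * (c' : ℝ) := by rw [hc']; push_cast; ring
    fin_cases a <;> fin_cases b <;> simp [δ, h10] <;> ring
  · apply Matrix.GeneralLinearGroup.ext
    intro a b
    rw [Matrix.GeneralLinearGroup.coe_mul, Matrix.GeneralLinearGroup.coe_mul, s16c_W_val,
      Matrix.mul_apply, Matrix.mul_apply, Fin.sum_univ_two, Fin.sum_univ_two]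
    simp only [s16c_coe_GL_apply]
    have h10 : ((γ 1 0 : ℤ) : ℝ) = (p : ℝ) * (c' : ℝ) := by rw [hc']; push_cast; ring
    fin_cases a <;> fin_cases b <;> simp [δ, h10] <;> ring

/-- `W_p` normalises `Γ₀(p)`. -/
theorem s16c_conj_Gamma0 (p : ℕ) [NeZero p] :
    ((Gamma0 p : Subgroup SL(2, ℤ)) : Subgroup (GL (Fin 2) ℝ)) =
      ConjAct.toConjAct (s16c_W p)⁻¹ • ((Gamma0 p : Subgroup SL(2, ℤ)) : Subgroup (GL (Fin 2) ℝ)) := by
  ext x
  rw [Subgroup.mem_smul_pointwise_iff_exists]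
  constructor
  · rintro ⟨γ, hγ, rfl⟩
    obtain ⟨δ, hδ, h1, h2⟩ := s16c_exists_partner p γ hγ
    refine ⟨mapGL ℝ δ, ⟨δ, hδ, rfl⟩, ?_⟩
    rw [ConjAct.toConjAct_smul, inv_inv]
    show (s16c_W p)⁻¹ * (δ : GL (Fin 2) ℝ) * s16c_W p = (γ : GL (Fin 2) ℝ)
    rw [mul_assoc, h1, ← mul_assoc, inv_mul_cancel, one_mul]
  · rintro ⟨y, ⟨γ, hγ, rfl⟩, rfl⟩
    obtain ⟨δ, hδ, h1, h2⟩ := s16c_exists_partner p γ hγ
    refine ⟨δ, hδ, ?_⟩
    rw [ConjAct.toConjAct_smul, inv_inv]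
    show (δ : GL (Fin 2) ℝ) = (s16c_W p)⁻¹ * (γ : GL (Fin 2) ℝ) * s16c_W p
    rw [mul_assoc, ← h2, ← mul_assoc, inv_mul_cancel, one_mul]

/-- The Fricke transform `G ∣ W_p` as a modular form on `Γ₀(p)`. -/
def s16c_star (p : ℕ) [NeZero p] (G : ModularForm (Gamma0 p) 2) : ModularForm (Gamma0 p) 2 :=
  ModularForm.mcast rfl (ModularForm.translate G (s16c_W p)) (s16c_conj_Gamma0 p)

theorem s16c_star_coe (p : ℕ) [NeZero p] (G : ModularForm (Gamma0 p) 2) :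
    (s16c_star p G : ℍ → ℂ) = (G : ℍ → ℂ) ∣[(2 : ℤ)] s16c_W p := rfl

theorem s16c_ST_eq (n : ℤ) : ModularGroup.S * ModularGroup.T ^ n = s16c_ST n := by
  apply Subtype.ext
  rw [Matrix.SpecialLinearGroup.coe_mul, ModularGroup.coe_T_zpow, ModularGroup.coe_S, s16c_ST_val]
  ext a b
  fin_cases a <;> fin_cases b <;> simp [Matrix.mul_apply, Fin.sum_univ_two]

/-- the conjugates of `F` indexed by the classes -/
def s16c_Phi (p : ℕ) (F : ℍ → ℂ) : Option (ZMod p) → ℍ → ℂ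
  | none => F
  | some j => F ∣[(2 : ℤ)] (s16c_ST (j.val : ℤ))

theorem s16c_slash_eq_Phi (p : ℕ) [Fact p.Prime] (F : ModularForm (Gamma0 p) 2) (γ : SL(2, ℤ)) :
    (F : ℍ → ℂ) ∣[(2 : ℤ)] γ = s16c_Phi p F (s16k_cls p γ) := by
  rcases h : s16k_cls p γ with _ | j
  · rw [s16k_cls_eq_none_iff] at h
    show _ = (F : ℍ → ℂ)
    exact SlashInvariantForm.slash_action_eqn F _ ⟨γ, h, rfl⟩
  · have hj : ((j.val : ℤ) : ZMod p) = j := by
      have : NeZero p := ⟨(Fact.out : p.Prime).ne_zero⟩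
      simp
    rw [← hj, s16k_cls_eq_some_iff] at h
    obtain ⟨g, hg, rfl⟩ := h
    show _ = (F : ℍ → ℂ) ∣[(2 : ℤ)] (s16c_ST (j.val : ℤ))
    rw [s16c_ST_eq]
    rw [show ((g * s16c_ST (j.val : ℤ) : SL(2, ℤ))) = g * s16c_ST (j.val : ℤ) from rfl]
    rw [SlashAction.slash_mul]
    congr 1
    exact SlashInvariantForm.slash_action_eqn F _ ⟨g, hg, rfl⟩

/-- trace to level one vanishes in weight 2 -/
theorem s16c_add_sum_ST (p : ℕ) [Fact p.Prime] (F : ModularForm (Gamma0 p) 2) :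
    (F : ℍ → ℂ) + ∑ j : ZMod p, (F : ℍ → ℂ) ∣[(2 : ℤ)] (s16c_ST (j.val : ℤ)) = 0 := by
  have : ((Gamma0 p).map (mapGL ℝ)).IsFiniteRelIndex 𝒮ℒ := s16k_isFiniteRelIndex (s16k_cls_isCls p)
  have h := s16k_trace_prime p F (s16c_Phi p F) (s16c_slash_eq_Phi p F)
  have h0 : ModularForm.trace 𝒮ℒ F = 0 :=
    rank_zero_iff_forall_zero.mp ModularForm.levelOne_weight_two_rank_zero _
  rw [h0] at h
  exact h.symm

theorem s16c_sum_zmod {M : Type*} [AddCommMonoid M] (p : ℕ) [NeZero p] (φ : ℕ → M) :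
    ∑ j : ZMod p, φ j.val = ∑ j ∈ Finset.range p, φ j := by
  cases p with
  | zero => exact (NeZero.ne 0 rfl).elim
  | succ n => exact Fin.sum_univ_eq_sum_range φ (n + 1)

theorem s16c_slash_W_W (p : ℕ) [NeZero p] (F : ℍ → ℂ) :
    (F ∣[(2 : ℤ)] s16c_W p) ∣[(2 : ℤ)] s16c_W p = F := by
  rw [← SlashAction.slash_mul]
  have h := s16c_slash_smul_ne F 1 (s16c_W p * s16c_W p) (-(p : ℝ))
    (by simpa using NeZero.ne p) (by simp) (by
      rw [Matrix.GeneralLinearGroup.coe_mul, s16c_W_val]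
      ext a b
      fin_cases a <;> fin_cases b <;> simp [Matrix.mul_apply, Fin.sum_univ_two])
  rw [h, SlashAction.slash_one]

/-- `F + U_p (F ∣ W_p) = 0` for `F ∈ M₂(Γ₀(p))`. -/
theorem s16c_add_heckeU_W (p : ℕ) [Fact p.Prime] (F : ModularForm (Gamma0 p) 2) :
    (F : ℍ → ℂ) + ModularForm.heckeU 2 p ((F : ℍ → ℂ) ∣[(2 : ℤ)] s16c_W p) = 0 := by
  have : NeZero p := ⟨(Fact.out : p.Prime).ne_zero⟩
  rw [← s16c_add_sum_ST p F, ModularForm.heckeU_def]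
  congr 1
  rw [← s16c_sum_zmod p (fun j => ((F : ℍ → ℂ) ∣[(2 : ℤ)] s16c_W p) ∣[(2 : ℤ)] ModularForm.heckeMatrix p j)]
  refine Finset.sum_congr rfl fun j _ => ?_
  rw [s16c_slash_W_heckeMatrix]

/-- The Fricke transform of `G ∈ M₂(Γ₀(p))` is `-U_p G`. -/
theorem s16c_slash_W_eq (p : ℕ) [Fact p.Prime] (G : ModularForm (Gamma0 p) 2) :
    (G : ℍ → ℂ) ∣[(2 : ℤ)] s16c_W p = -ModularForm.heckeU 2 p (G : ℍ → ℂ) := by
  have : NeZero p := ⟨(Fact.out : p.Prime).ne_zero⟩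
  have h := s16c_add_heckeU_W p (s16c_star p G)
  rw [s16c_star_coe, s16c_slash_W_W] at h
  exact eq_neg_of_add_eq_zero_left h

/-- **(B2)** the conjugates of `G ∈ M₂(Γ₀(p))`: `G ∣ S T^j = -(U_p G) ∣ [[1,j],[0,p]]`. -/
theorem s16c_slash_ST (p : ℕ) [Fact p.Prime] (G : ModularForm (Gamma0 p) 2) (j : ℕ) :
    (G : ℍ → ℂ) ∣[(2 : ℤ)] (ModularGroup.S * ModularGroup.T ^ (j : ℤ)) =
      -(ModularForm.heckeU 2 p (G : ℍ → ℂ) ∣[(2 : ℤ)] ModularForm.heckeMatrix p j) := by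
  have : NeZero p := ⟨(Fact.out : p.Prime).ne_zero⟩
  rw [s16c_ST_eq, ← s16c_slash_W_heckeMatrix p j, s16c_slash_W_eq, SlashAction.neg_slash]

/-- The conjugates of `G ∈ M₂(Γ₀(p))`, indexed by the classes of `Γ₀(p) \\ SL(2, ℤ)`. -/
def s16c_Conj (p : ℕ) (G : ℍ → ℂ) : Option (ZMod p) → ℍ → ℂ
  | none => G
  | some j => -(ModularForm.heckeU 2 p G ∣[(2 : ℤ)] ModularForm.heckeMatrix p j.val)

/-- **(B2)**, class form: `G ∣ γ = s16c_Conj p G (s16k_cls p γ)` for every `γ : SL(2, ℤ)`. -/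
theorem s16c_slash_eq_Conj (p : ℕ) [Fact p.Prime] (G : ModularForm (Gamma0 p) 2) (γ : SL(2, ℤ)) :
    (G : ℍ → ℂ) ∣[(2 : ℤ)] γ = s16c_Conj p G (s16k_cls p γ) := by
  rw [s16c_slash_eq_Phi]
  rcases s16k_cls p γ with _ | j
  · rfl
  · show (G : ℍ → ℂ) ∣[(2 : ℤ)] (s16c_ST (j.val : ℤ)) = _
    rw [← s16c_ST_eq, s16c_slash_ST]
    rfl

end

end Fermat.Agent.S16
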