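import Mathlib

/-!
# S16 [B] (T) - formal core of the weight-4 trace claims A and B

Pure coefficient sequences, no modular forms.  `a`, `b` are the `q`-coefficients of
`G ∈ M_2(Γ₀(p))` and `H = U_p G`; the two hypotheses `I1`, `I2` are the coefficientwise form of
`G² + p⁻¹ U_p(H²) = (1 + p⁻¹) E₄` and of the same identity with `G`, `H` swapped
(`Tr(G²), Tr(H²) ∈ M_4(SL₂(ℤ)) = ℂ E₄`).

* `s16t_claimA` : `l = 3`, `p ≡ 1 mod 3`, `a n ∈ 3 ℤ_(3)` for `n ≥ 1` is impossible.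
* `s16t_claimB` : `l = 2`, `p ≡ 1 mod 4`, `a n ∈ 4 ℤ_(2)` for `n ≥ 1` is impossible.
-/

set_option autoImplicit false

namespace Fermat.Agent.S16T

open Finset

/-- `x ∈ l^k ℤ_(l)` inside `ℂ` (same body as the `[B]` predicate `s16b_Zl l k x`). -/
def s16t_M (l k : ℕ) (x : ℂ) : Prop :=
  ∃ (c : ℤ) (s : ℕ), ¬ l ∣ s ∧ (s : ℂ) * x = (l : ℂ) ^ k * c

section basic

variable {l : ℕ}

lemma s16t_M_zero (hl : l.Prime) (k : ℕ) : s16t_M l k 0 :=
  ⟨0, 1, hl.not_dvd_one, by simp⟩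

lemma s16t_M_add (hl : l.Prime) {k : ℕ} {x y : ℂ} (hx : s16t_M l k x) (hy : s16t_M l k y) :
    s16t_M l k (x + y) := by
  obtain ⟨c, s, hs, hx⟩ := hx
  obtain ⟨d, t, ht, hy⟩ := hy
  refine ⟨t * c + s * d, s * t, ?_, ?_⟩
  · exact fun h => (hl.dvd_mul.mp h).elim hs ht
  · push_cast
    linear_combination (t : ℂ) * hx + (s : ℂ) * hy

lemma s16t_M_neg {k : ℕ} {x : ℂ} (hx : s16t_M l k x) : s16t_M l k (-x) := by
  obtain ⟨c, s, hs, hx⟩ := hx
  refine ⟨-c, s, hs, ?_⟩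
  push_cast
  linear_combination -hx

lemma s16t_M_sub (hl : l.Prime) {k : ℕ} {x y : ℂ} (hx : s16t_M l k x) (hy : s16t_M l k y) :
    s16t_M l k (x - y) := by
  rw [sub_eq_add_neg]
  exact s16t_M_add hl hx (s16t_M_neg hy)

lemma s16t_M_mul (hl : l.Prime) {j k : ℕ} {x y : ℂ} (hx : s16t_M l j x) (hy : s16t_M l k y) :
    s16t_M l (j + k) (x * y) := by
  obtain ⟨c, s, hs, hx⟩ := hx
  obtain ⟨d, t, ht, hy⟩ := hy
  refine ⟨c * d, s * t, ?_, ?_⟩
  · exact fun h => (hl.dvd_mul.mp h).elim hs ht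
  · push_cast
    rw [pow_add]
    linear_combination ((t : ℂ) * y) * hx + ((l : ℂ) ^ j * c) * hy

lemma s16t_M_int (hl : l.Prime) (m : ℤ) : s16t_M l 0 (m : ℂ) :=
  ⟨m, 1, hl.not_dvd_one, by simp⟩

lemma s16t_M_nat (hl : l.Prime) (m : ℕ) : s16t_M l 0 (m : ℂ) := by
  have := s16t_M_int hl (m : ℤ)
  simpa using this

lemma s16t_M_lpow_mul {k : ℕ} (j : ℕ) {x : ℂ} (hx : s16t_M l k x) :
    s16t_M l (k + j) ((l : ℂ) ^ j * x) := by
  obtain ⟨c, s, hs, hx⟩ := hx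
  refine ⟨c, s, hs, ?_⟩
  rw [pow_add]
  linear_combination ((l : ℂ) ^ j) * hx

lemma s16t_M_mono {k : ℕ} (j : ℕ) {x : ℂ} (hx : s16t_M l (k + j) x) : s16t_M l k x := by
  obtain ⟨c, s, hs, hx⟩ := hx
  refine ⟨(l : ℤ) ^ j * c, s, hs, ?_⟩
  push_cast
  rw [hx, pow_add]
  ring

lemma s16t_M_of_le {j k : ℕ} (h : k ≤ j) {x : ℂ} (hx : s16t_M l j x) : s16t_M l k x := by
  obtain ⟨i, rfl⟩ := Nat.exists_eq_add_of_le h
  exact s16t_M_mono i hx

lemma s16t_M_unit_cancel (hl : l.Prime) {k : ℕ} {t : ℕ} (ht : ¬ l ∣ t) {x : ℂ}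
    (hx : s16t_M l k ((t : ℂ) * x)) : s16t_M l k x := by
  obtain ⟨c, s, hs, hx⟩ := hx
  refine ⟨c, s * t, ?_, ?_⟩
  · exact fun h => (hl.dvd_mul.mp h).elim hs ht
  · push_cast
    linear_combination hx

lemma s16t_M_lcancel (hl : l.Prime) {k : ℕ} (j : ℕ) {x : ℂ}
    (hx : s16t_M l (k + j) ((l : ℂ) ^ j * x)) : s16t_M l k x := by
  obtain ⟨c, s, hs, hx⟩ := hx
  refine ⟨c, s, hs, ?_⟩
  have hl0 : ((l : ℂ) ^ j) ≠ 0 := pow_ne_zero _ (Nat.cast_ne_zero.mpr hl.ne_zero)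
  apply mul_left_cancel₀ hl0
  rw [pow_add] at hx
  linear_combination hx

lemma s16t_M_sum (hl : l.Prime) {k : ℕ} {ι : Type*} (s : Finset ι) (f : ι → ℂ)
    (h : ∀ i ∈ s, s16t_M l k (f i)) : s16t_M l k (∑ i ∈ s, f i) := by
  classical
  induction s using Finset.induction_on with
  | empty => simpa using s16t_M_zero hl k
  | insert i s hi ih =>
    rw [Finset.sum_insert hi]
    exact s16t_M_add hl (h i (Finset.mem_insert_self i s))
      (ih fun j hj => h j (Finset.mem_insert_of_mem hj))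

/-- an integer in `l^k ℤ_(l)` is divisible by `l^k` -/
lemma s16t_M_int_dvd (hl : l.Prime) {k : ℕ} {m : ℤ} (h : s16t_M l k (m : ℂ)) :
    (l : ℤ) ^ k ∣ m := by
  obtain ⟨c, s, hs, hx⟩ := h
  have h1 : (s : ℤ) * m = (l : ℤ) ^ k * c := by exact_mod_cast hx
  have hcop : IsCoprime ((l : ℤ) ^ k) (s : ℤ) := by
    have : Nat.Coprime (l ^ k) s :=
      Nat.Coprime.pow_left k ((Nat.Prime.coprime_iff_not_dvd hl).mpr hs)
    have h2 := Nat.isCoprime_iff_coprime.mpr this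
    simpa using h2
  exact hcop.dvd_of_dvd_mul_left ⟨c, h1⟩

end basic

/-! ### squares of coefficient sequences -/

/-- the `n`-th coefficient of the square of the series with coefficients `a` -/
def s16t_sq (a : ℕ → ℂ) (n : ℕ) : ℂ := ∑ ij ∈ antidiagonal n, a ij.1 * a ij.2

/-- the square with the two boundary terms `a 0 * a n + a n * a 0` removed (when `a 0 = 1`) -/
def s16t_mid (a : ℕ → ℂ) (n : ℕ) : ℂ := s16t_sq a n - 2 * a n

lemma s16t_sq_succ (a : ℕ → ℂ) (m : ℕ) :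
    s16t_sq a (m + 1) =
      a 0 * a (m + 1) + a (m + 1) * a 0 + ∑ k ∈ range m, a (k + 1) * a (m - k) := by
  unfold s16t_sq
  rw [Finset.Nat.sum_antidiagonal_eq_sum_range_succ_mk, Finset.sum_range_succ,
    Finset.sum_range_succ']
  simp only [Nat.sub_zero, Nat.sub_self, Nat.add_sub_add_right]
  ring

lemma s16t_mid_succ (a : ℕ → ℂ) (ha0 : a 0 = 1) (m : ℕ) :
    s16t_mid a (m + 1) = ∑ k ∈ range m, a (k + 1) * a (m - k) := by
  unfold s16t_mid
  rw [s16t_sq_succ, ha0]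
  ring

lemma s16t_mid_mem {l : ℕ} (hl : l.Prime) {e : ℕ} (a : ℕ → ℂ) (ha0 : a 0 = 1)
    (ha : ∀ n, 1 ≤ n → s16t_M l e (a n)) (n : ℕ) (hn : 1 ≤ n) :
    s16t_M l (e + e) (s16t_mid a n) := by
  obtain ⟨m, rfl⟩ := Nat.exists_eq_add_of_le' hn
  rw [s16t_mid_succ a ha0]
  apply s16t_M_sum hl
  intro k hk
  have hk' : k < m := Finset.mem_range.mp hk
  exact s16t_M_mul hl (ha _ (by omega)) (ha _ (by omega))

/-- pairing: a sum symmetric under `k ↦ m - 1 - k` is twice something plus the middle term -/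
lemma s16t_pair (j : ℕ) : ∀ (m : ℕ) (f : ℕ → ℂ), (∀ k, k < m → f (m - 1 - k) = f k) →
    (∀ k, k < m → s16t_M 2 j (f k)) →
    s16t_M 2 (j + 1) ((∑ k ∈ range m, f k) - (if m % 2 = 1 then f ((m - 1) / 2) else 0)) := by
  intro m
  induction m using Nat.twoStepInduction with
  | zero =>
    intro f _ _
    simpa using s16t_M_zero Nat.prime_two (j + 1)
  | one =>
    intro f _ _
    simpa using s16t_M_zero Nat.prime_two (j + 1)
  | more m ih _ =>
    intro f hsym hf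
    have hlast : f (m + 1) = f 0 := by
      have := hsym 0 (by omega)
      simpa using this
    have hg := ih (fun k => f (k + 1))
      (fun k hk => by
        have h1 := hsym (k + 1) (by omega)
        have e1 : m + 2 - 1 - (k + 1) = m - k := by omega
        have e2 : m - 1 - k + 1 = m - k := by omega
        rw [e1] at h1
        show f (m - 1 - k + 1) = f (k + 1)
        rw [e2]; exact h1)
      (fun k hk => hf (k + 1) (by omega))
    have h2 : s16t_M 2 (j + 1) (2 * f 0) := by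
      have := s16t_M_lpow_mul (l := 2) 1 (hf 0 (by omega))
      simpa using this
    rw [Finset.sum_range_succ, Finset.sum_range_succ', hlast]
    have hmod : (m + 2) % 2 = 1 ↔ m % 2 = 1 := by omega
    by_cases hm : m % 2 = 1
    · have e3 : (m + 2 - 1) / 2 = (m - 1) / 2 + 1 := by omega
      rw [if_pos (hmod.mpr hm), e3]
      rw [if_pos hm] at hg
      have := s16t_M_add Nat.prime_two hg h2
      convert this using 1
      ring
    · rw [if_neg (fun h => hm (hmod.mp h))]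
      rw [if_neg hm] at hg
      have := s16t_M_add Nat.prime_two hg h2
      convert this using 1
      ring

lemma s16t_mid_mem_two {e : ℕ} (a : ℕ → ℂ) (ha0 : a 0 = 1)
    (ha : ∀ n, 1 ≤ n → s16t_M 2 e (a n)) (n : ℕ) (hn : 1 ≤ n) :
    s16t_M 2 (e + e + 1) (s16t_mid a n - (if 2 ∣ n then a (n / 2) ^ 2 else 0)) := by
  obtain ⟨m, rfl⟩ := Nat.exists_eq_add_of_le' hn
  rw [s16t_mid_succ a ha0]
  have h := s16t_pair (e + e) m (fun k => a (k + 1) * a (m - k))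
    (fun k hk => by
      have e1 : m - 1 - k + 1 = m - k := by omega
      have e2 : m - (m - 1 - k) = k + 1 := by omega
      show a (m - 1 - k + 1) * a (m - (m - 1 - k)) = a (k + 1) * a (m - k)
      rw [e1, e2, mul_comm])
    (fun k hk => s16t_M_mul Nat.prime_two (ha _ (by omega)) (ha _ (by omega)))
  by_cases hm : m % 2 = 1
  · have hdvd : 2 ∣ m + 1 := by omega
    rw [if_pos hm] at h
    rw [if_pos hdvd]
    have e1 : (m - 1) / 2 + 1 = (m + 1) / 2 := by omega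
    have e2 : m - (m - 1) / 2 = (m + 1) / 2 := by omega
    simp only [e1, e2] at h
    convert h using 2
    ring
  · have hdvd : ¬ 2 ∣ m + 1 := by omega
    rw [if_neg hm] at h
    rw [if_neg hdvd]
    exact h

/-! ### the core identity -/

lemma s16t_core (p : ℕ) (hp0 : p ≠ 0) (a b e4 : ℕ → ℂ) (hab : ∀ n, a n = b (p * n)) (n : ℕ)
    (I1n : s16t_sq a n + (p : ℂ)⁻¹ * s16t_sq b (p * n) = (1 + (p : ℂ)⁻¹) * e4 n) :
    ((p : ℂ) + 1) * (2 * a n - e4 n) = -((p : ℂ) * s16t_mid a n + s16t_mid b (p * n)) := by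
  have hp : (p : ℂ) ≠ 0 := Nat.cast_ne_zero.mpr hp0
  unfold s16t_mid
  rw [← hab n]
  have h2 : (p : ℂ) * s16t_sq a n + s16t_sq b (p * n) = ((p : ℂ) + 1) * e4 n := by
    have := congrArg (fun x => (p : ℂ) * x) I1n
    simp only [mul_add, ← mul_assoc, mul_inv_cancel₀ hp, one_mul, mul_one] at this
    linear_combination this
  linear_combination h2

/-- the key congruence: `l^u ∥ p + 1`, `a n, b n ∈ l^e ℤ_(l)`: `2 a n ≡ e4 n` modulo `l^(2e - u)`. -/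
lemma s16t_key {l : ℕ} (hl : l.Prime) (p : ℕ) (hp0 : p ≠ 0) (u t : ℕ) (hpt : p + 1 = l ^ u * t)
    (hlt : ¬ l ∣ t) (e k : ℕ) (hk : k + u = e + e) (a b e4 : ℕ → ℂ) (ha0 : a 0 = 1)
    (hb0 : b 0 = 1) (ha : ∀ n, 1 ≤ n → s16t_M l e (a n)) (hb : ∀ n, 1 ≤ n → s16t_M l e (b n))
    (hab : ∀ n, a n = b (p * n)) (n : ℕ) (hn : 1 ≤ n)
    (I1n : s16t_sq a n + (p : ℂ)⁻¹ * s16t_sq b (p * n) = (1 + (p : ℂ)⁻¹) * e4 n) :
    s16t_M l k (2 * a n - e4 n) := by
  have hcore := s16t_core p hp0 a b e4 hab n I1n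
  have hpn : 1 ≤ p * n := Nat.one_le_iff_ne_zero.mpr (Nat.mul_ne_zero hp0 (by omega))
  have h1 : s16t_M l (e + e) (-((p : ℂ) * s16t_mid a n + s16t_mid b (p * n))) := by
    apply s16t_M_neg
    apply s16t_M_add hl
    · have := s16t_M_mul hl (s16t_M_nat hl p) (s16t_mid_mem hl a ha0 ha n hn)
      simpa using this
    · exact s16t_mid_mem hl b hb0 hb (p * n) hpn
  rw [← hcore] at h1
  have hp1 : ((p : ℂ) + 1) = (l : ℂ) ^ u * (t : ℂ) := by
    have := congrArg (fun x : ℕ => (x : ℂ)) hpt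
    simpa using this
  rw [hp1, mul_assoc, ← hk] at h1
  exact s16t_M_unit_cancel hl hlt (s16t_M_lcancel hl u h1)

/-! ### arithmetic facts -/

lemma s16t_sigma_one : (ArithmeticFunction.sigma 3 1 : ℕ) = 1 := by
  simp [ArithmeticFunction.sigma_apply]

lemma s16t_sigma_prime {p : ℕ} (hp : p.Prime) : (ArithmeticFunction.sigma 3 p : ℕ) = p ^ 3 + 1 := by
  rw [ArithmeticFunction.sigma_apply, hp.sum_divisors]
  simp

/-- the final contradiction: `2 a_p ≡ 240 σ₃(p)`, `2 b_1 ≡ 240 σ₃(1)`, `b_1 = a_p`. -/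
lemma s16t_final {l : ℕ} (hl : l.Prime) {p : ℕ} (hp : p.Prime) (k : ℕ) (a b e4 : ℕ → ℂ)
    (he : ∀ n, 0 < n → e4 n = 240 * (ArithmeticFunction.sigma 3 n : ℂ))
    (hba : ∀ n, b n = a (p * n))
    (h1 : s16t_M l k (2 * a p - e4 p)) (h2 : s16t_M l k (2 * b 1 - e4 1)) :
    (l : ℤ) ^ k ∣ 240 * (p : ℤ) ^ 3 := by
  have h3 := s16t_M_sub hl h2 h1
  have hb1 : b 1 = a p := by simpa using hba 1
  rw [he 1 one_pos, he p hp.pos, s16t_sigma_one, s16t_sigma_prime hp, hb1] at h3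
  have h4 : s16t_M l k ((240 * (p : ℤ) ^ 3 : ℤ) : ℂ) := by
    convert h3 using 1
    push_cast
    ring
  exact s16t_M_int_dvd hl h4

/-! ### Claim A -/

/-- the right-hand side sequence `240 σ₃(n)` -/
noncomputable def s16t_e4 (n : ℕ) : ℂ := 240 * (ArithmeticFunction.sigma 3 n : ℂ)

/-- **Claim A** (`l = 3`, `p ≡ 1 mod 3`), sequence form.  `s16t_M 3 1 x` unfolds to
`∃ (c : ℤ) (s : ℕ), ¬ 3 ∣ s ∧ (s:ℂ) * x = ((3:ℕ):ℂ) ^ 1 * c`, i.e. it is `s16ar_Zl 3 1 x` by `Iff.rfl`. -/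
theorem s16t_claimA (p : ℕ) (hp : p.Prime) (hp3 : p % 3 = 1) (a b : ℕ → ℂ) (ha0 : a 0 = 1)
    (hb0 : b 0 = 1) (hba : ∀ n, b n = a (p * n)) (hab : ∀ n, a n = b (p * n))
    (I1 : ∀ n, 0 < n → (∑ ij ∈ antidiagonal n, a ij.1 * a ij.2) +
      (p : ℂ)⁻¹ * (∑ ij ∈ antidiagonal (p * n), b ij.1 * b ij.2) =
        (1 + (p : ℂ)⁻¹) * (240 * (ArithmeticFunction.sigma 3 n : ℂ)))
    (I2 : ∀ n, 0 < n → (∑ ij ∈ antidiagonal n, b ij.1 * b ij.2) +
      (p : ℂ)⁻¹ * (∑ ij ∈ antidiagonal (p * n), a ij.1 * a ij.2) =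
        (1 + (p : ℂ)⁻¹) * (240 * (ArithmeticFunction.sigma 3 n : ℂ)))
    (hint : ∀ n, 0 < n → s16t_M 3 1 (a n)) :
    False := by
  have h3 : Nat.Prime 3 := Nat.prime_three
  have he : ∀ n, 0 < n → s16t_e4 n = 240 * (ArithmeticFunction.sigma 3 n : ℂ) := fun _ _ => rfl
  have ha : ∀ n, 1 ≤ n → s16t_M 3 1 (a n) := fun n hn => hint n hn
  have hb : ∀ n, 1 ≤ n → s16t_M 3 1 (b n) := fun n hn => by
    rw [hba n]
    exact ha _ (Nat.one_le_iff_ne_zero.mpr (Nat.mul_ne_zero hp.ne_zero (by omega)))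
  have hpt : p + 1 = 3 ^ 0 * (p + 1) := by simp
  have hlt : ¬ 3 ∣ p + 1 := by omega
  have k1 := s16t_key h3 p hp.ne_zero 0 (p + 1) hpt hlt 1 2 rfl a b s16t_e4 ha0 hb0 ha hb hab p
    hp.one_lt.le (I1 p hp.pos)
  have k2 := s16t_key h3 p hp.ne_zero 0 (p + 1) hpt hlt 1 2 rfl b a s16t_e4 hb0 ha0 hb ha hba 1
    le_rfl (I2 1 one_pos)
  have hdvd := s16t_final h3 hp 2 a b s16t_e4 he hba k1 k2
  have h9 : (9 : ℕ) ∣ 240 * p ^ 3 := by
    have : ((9 : ℕ) : ℤ) ∣ ((240 * p ^ 3 : ℕ) : ℤ) := by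
      push_cast
      norm_num at hdvd ⊢
      exact hdvd
    exact Int.natCast_dvd_natCast.mp this
  have h3' : 3 ∣ 80 * p ^ 3 := by
    have e : 240 * p ^ 3 = 3 * (80 * p ^ 3) := by ring
    rw [e] at h9
    exact (Nat.mul_dvd_mul_iff_left (by norm_num : 0 < 3)).mp (by simpa using h9)
  rcases (Nat.Prime.dvd_mul h3).mp h3' with h | h
  · omega
  · have := h3.dvd_of_dvd_pow h
    omega

/-! ### Claim B -/

/-- **Claim B** (`l = 2`, `p ≡ 1 mod 4`), sequence form.  `s16t_M 2 2 x` is `s16ar_Zl 2 2 x`. -/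
theorem s16t_claimB (p : ℕ) (hp : p.Prime) (hp4 : p % 4 = 1) (a b : ℕ → ℂ) (ha0 : a 0 = 1)
    (hb0 : b 0 = 1) (hba : ∀ n, b n = a (p * n)) (hab : ∀ n, a n = b (p * n))
    (I1 : ∀ n, 0 < n → (∑ ij ∈ antidiagonal n, a ij.1 * a ij.2) +
      (p : ℂ)⁻¹ * (∑ ij ∈ antidiagonal (p * n), b ij.1 * b ij.2) =
        (1 + (p : ℂ)⁻¹) * (240 * (ArithmeticFunction.sigma 3 n : ℂ)))
    (I2 : ∀ n, 0 < n → (∑ ij ∈ antidiagonal n, b ij.1 * b ij.2) +
      (p : ℂ)⁻¹ * (∑ ij ∈ antidiagonal (p * n), a ij.1 * a ij.2) =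
        (1 + (p : ℂ)⁻¹) * (240 * (ArithmeticFunction.sigma 3 n : ℂ)))
    (hint : ∀ n, 0 < n → s16t_M 2 2 (a n)) :
    False := by
  have h2 : Nat.Prime 2 := Nat.prime_two
  have he : ∀ n, 0 < n → s16t_e4 n = 240 * (ArithmeticFunction.sigma 3 n : ℂ) := fun _ _ => rfl
  have hpn : ∀ n, 1 ≤ n → 1 ≤ p * n := fun n hn =>
    Nat.one_le_iff_ne_zero.mpr (Nat.mul_ne_zero hp.ne_zero (by omega))
  have ha : ∀ n, 1 ≤ n → s16t_M 2 2 (a n) := fun n hn => hint n hn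
  have hb : ∀ n, 1 ≤ n → s16t_M 2 2 (b n) := fun n hn => by
    rw [hba n]; exact ha _ (hpn n hn)
  -- p + 1 = 2 * t with t odd
  obtain ⟨t, ht⟩ : ∃ t, p + 1 = 2 ^ 1 * t := ⟨(p + 1) / 2, by omega⟩
  have hlt : ¬ 2 ∣ t := by omega
  have hpodd : ¬ 2 ∣ p := by omega
  -- step 1 : a n ∈ 8 ℤ_(2)
  have step1 : ∀ (a b : ℕ → ℂ), a 0 = 1 → b 0 = 1 → (∀ n, a n = b (p * n)) →
      (∀ n, 1 ≤ n → s16t_M 2 2 (a n)) → (∀ n, 1 ≤ n → s16t_M 2 2 (b n)) →
      (∀ n, 0 < n → s16t_sq a n + (p : ℂ)⁻¹ * s16t_sq b (p * n) =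
        (1 + (p : ℂ)⁻¹) * s16t_e4 n) →
      ∀ n, 1 ≤ n → s16t_M 2 3 (a n) := by
    intro a b ha0 hb0 hab ha hb I1 n hn
    have hcore := s16t_core p hp.ne_zero a b s16t_e4 hab n (I1 n hn)
    set w : ℂ := if 2 ∣ n then a (n / 2) ^ 2 else 0 with hw
    have hwb : (if 2 ∣ p * n then b (p * n / 2) ^ 2 else 0) = w := by
      by_cases h : 2 ∣ n
      · have h' : 2 ∣ p * n := Dvd.dvd.mul_left h p
        rw [hw, if_pos h, if_pos h']
        obtain ⟨i, rfl⟩ := h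
        have e1 : p * (2 * i) / 2 = p * i := by
          rw [show p * (2 * i) = 2 * (p * i) by ring]; simp
        have e2 : 2 * i / 2 = i := by simp
        rw [e1, e2, ← hab i]
      · have h' : ¬ 2 ∣ p * n := fun h'' => (h2.dvd_mul.mp h'').elim hpodd h
        rw [hw, if_neg h, if_neg h']
    have da := s16t_mid_mem_two a ha0 ha n hn
    have db := s16t_mid_mem_two b hb0 hb (p * n) (hpn n hn)
    rw [hwb] at db
    rw [← hw] at da
    have hw4 : s16t_M 2 4 w := by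
      rw [hw]
      split_ifs with h
      · have hn2 : 1 ≤ n / 2 := by
          obtain ⟨i, rfl⟩ := h
          omega
        have := s16t_M_mul h2 (ha _ hn2) (ha _ hn2)
        simpa [sq] using this
      · exact s16t_M_zero h2 4
    -- (p+1) (2 a n - e4 n + w) = -(p δa + δb)
    have h5 : s16t_M 2 5 (((p : ℂ) + 1) * (2 * a n - s16t_e4 n + w)) := by
      have e : ((p : ℂ) + 1) * (2 * a n - s16t_e4 n + w) =
          -((p : ℂ) * (s16t_mid a n - w) + (s16t_mid b (p * n) - w)) := by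
        linear_combination hcore
      rw [e]
      apply s16t_M_neg
      apply s16t_M_add h2
      · have := s16t_M_mul h2 (s16t_M_nat h2 p) da
        simpa using this
      · exact db
    have hp1 : ((p : ℂ) + 1) = (2 : ℂ) ^ 1 * (t : ℂ) := by
      have := congrArg (fun x : ℕ => (x : ℂ)) ht
      simpa using this
    rw [hp1, mul_assoc] at h5
    have h4 : s16t_M 2 4 (2 * a n - s16t_e4 n + w) :=
      s16t_M_unit_cancel h2 hlt (s16t_M_lcancel (l := 2) (k := 4) h2 1 (by exact_mod_cast h5))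
    have he4 : s16t_M 2 4 (s16t_e4 n) := by
      have := s16t_M_lpow_mul (l := 2) (k := 0) 4
        (s16t_M_nat h2 (15 * ArithmeticFunction.sigma 3 n))
      convert this using 1
      unfold s16t_e4
      push_cast
      ring
    have h2a : s16t_M 2 4 ((2 : ℂ) ^ 1 * a n) := by
      have := s16t_M_add h2 (s16t_M_sub h2 h4 hw4) he4
      convert this using 1
      ring
    exact s16t_M_lcancel (l := 2) (k := 3) h2 1 (by exact_mod_cast h2a)
  have ha3 := step1 a b ha0 hb0 hab ha hb I1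
  have hb3 : ∀ n, 1 ≤ n → s16t_M 2 3 (b n) := fun n hn => by
    rw [hba n]; exact ha3 _ (hpn n hn)
  have k1 := s16t_key h2 p hp.ne_zero 1 t ht hlt 3 5 rfl a b s16t_e4 ha0 hb0 ha3 hb3 hab p
    hp.one_lt.le (I1 p hp.pos)
  have k2 := s16t_key h2 p hp.ne_zero 1 t ht hlt 3 5 rfl b a s16t_e4 hb0 ha0 hb3 ha3 hba 1
    le_rfl (I2 1 one_pos)
  have hdvd := s16t_final h2 hp 5 a b s16t_e4 he hba k1 k2
  have h32 : (32 : ℕ) ∣ 240 * p ^ 3 := by
    have : ((32 : ℕ) : ℤ) ∣ ((240 * p ^ 3 : ℕ) : ℤ) := by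
      push_cast
      norm_num at hdvd ⊢
      exact hdvd
    exact Int.natCast_dvd_natCast.mp this
  have h2' : 2 ∣ 15 * p ^ 3 := by
    have e : 240 * p ^ 3 = 16 * (15 * p ^ 3) := by ring
    rw [e, show (32 : ℕ) = 16 * 2 by norm_num] at h32
    exact (Nat.mul_dvd_mul_iff_left (by norm_num : 0 < 16)).mp h32
  rcases (Nat.Prime.dvd_mul h2).mp h2' with h | h
  · omega
  · exact hpodd (h2.dvd_of_dvd_pow h)

/-! ### power-series forms -/

open PowerSeries in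
/-- **Claim A**, power-series form (`g`, `h` the `q`-expansions of `G`, `H = U_p G`). -/
theorem s16t_claimA_ps (p : ℕ) (hp : p.Prime) (hp3 : p % 3 = 1) (g h : PowerSeries ℂ)
    (hg0 : coeff 0 g = 1) (hh0 : coeff 0 h = 1) (hhg : ∀ n, coeff n h = coeff (p * n) g)
    (hgh : ∀ n, coeff n g = coeff (p * n) h)
    (I1 : ∀ n, 0 < n → coeff n (g ^ 2) + (p : ℂ)⁻¹ * coeff (p * n) (h ^ 2) =
        (1 + (p : ℂ)⁻¹) * (240 * (ArithmeticFunction.sigma 3 n : ℂ)))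
    (I2 : ∀ n, 0 < n → coeff n (h ^ 2) + (p : ℂ)⁻¹ * coeff (p * n) (g ^ 2) =
        (1 + (p : ℂ)⁻¹) * (240 * (ArithmeticFunction.sigma 3 n : ℂ)))
    (hint : ∀ n, 0 < n → s16t_M 3 1 (coeff n g)) : False := by
  refine s16t_claimA p hp hp3 (fun n => coeff n g) (fun n => coeff n h) hg0 hh0 hhg hgh ?_ ?_ hint
  · intro n hn
    have := I1 n hn
    simpa only [pow_two, coeff_mul] using this
  · intro n hn
    have := I2 n hn
    simpa only [pow_two, coeff_mul] using this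

open PowerSeries in
/-- **Claim B**, power-series form. -/
theorem s16t_claimB_ps (p : ℕ) (hp : p.Prime) (hp4 : p % 4 = 1) (g h : PowerSeries ℂ)
    (hg0 : coeff 0 g = 1) (hh0 : coeff 0 h = 1) (hhg : ∀ n, coeff n h = coeff (p * n) g)
    (hgh : ∀ n, coeff n g = coeff (p * n) h)
    (I1 : ∀ n, 0 < n → coeff n (g ^ 2) + (p : ℂ)⁻¹ * coeff (p * n) (h ^ 2) =
        (1 + (p : ℂ)⁻¹) * (240 * (ArithmeticFunction.sigma 3 n : ℂ)))
    (I2 : ∀ n, 0 < n → coeff n (h ^ 2) + (p : ℂ)⁻¹ * coeff (p * n) (g ^ 2) =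
        (1 + (p : ℂ)⁻¹) * (240 * (ArithmeticFunction.sigma 3 n : ℂ)))
    (hint : ∀ n, 0 < n → s16t_M 2 2 (coeff n g)) : False := by
  refine s16t_claimB p hp hp4 (fun n => coeff n g) (fun n => coeff n h) hg0 hh0 hhg hgh ?_ ?_ hint
  · intro n hn
    have := I1 n hn
    simpa only [pow_two, coeff_mul] using this
  · intro n hn
    have := I2 n hn
    simpa only [pow_two, coeff_mul] using this

end Fermat.Agent.S16T
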