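import Mathlib
import Fermat.Prelude.Def_ModularForm_HeckeOperatorForms
import Fermat.Prelude.Thm_ModularFormClass_qCoeff_heckeU
import Fermat.Prelude.Thm_CongruenceSubgroup_one_mem_strictPeriods_Gamma0
import Fermat.Agent.S16.Up.CosetProd
import Fermat.Agent.S16.LevelOne.IntCoeff

set_option autoImplicit false

/-!
# S16 (T-id): the level-one trace identities in weights 2 and 4

For `G H : ModularForm (Γ₀(p)) 2` with `G ∣ S T^j = -(H ∣ heckeMatrix p j)` (the shape of (B2)):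

* `Tr G = 0` gives `G = U_p H`;
* `Tr (G²) = G² + p⁻¹ U_p (H²)` is a multiple of `E₄`, which gives the coefficient identity (I1).
-/

namespace Fermat.Agent.S16TI

open Matrix MatrixGroups CongruenceSubgroup UpperHalfPlane ModularForm ModularFormClass
  EisensteinSeries
open Matrix.SpecialLinearGroup (mapGL)
open Fermat.Agent.S16K Fermat.Agent.S16C

section levelOne

theorem s16ti_E4_coeff (n : ℕ) :
    (qExpansion 1 E₄).coeff n
      = if n = 0 then 1 else 240 * (ArithmeticFunction.sigma 3 n : ℂ) := by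
  rw [lvI_E4_qExp, PowerSeries.coeff_map, lvI_P4_coeff]
  split_ifs <;> simp

theorem s16ti_E4_ne_zero : (E₄ : ModularForm 𝒮ℒ 4) ≠ 0 := by
  intro h
  have := s16ti_E4_coeff 0
  rw [h] at this
  simp [UpperHalfPlane.qExpansion_zero] at this

/-- Every level-one form of weight `4` is a multiple of `E₄`. -/
theorem s16ti_levelOne_four_eq (F : ModularForm 𝒮ℒ 4) :
    F = (qExpansion 1 F).coeff 0 • E₄ := by
  have h1 : Module.finrank ℂ (ModularForm 𝒮ℒ 4) = 1 :=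
    Module.rank_eq_one_iff_finrank_eq_one.mp levelOne_weight_four_rank_one
  obtain ⟨c, hc⟩ := (finrank_eq_one_iff_of_nonzero' (E₄ : ModularForm 𝒮ℒ 4) s16ti_E4_ne_zero).1 h1 F
  have hq : qExpansion 1 F = c • qExpansion 1 E₄ := by
    rw [← hc]
    exact ModularForm.qExpansion_smul one_pos one_mem_strictPeriods_SL c E₄
  have h0 : (qExpansion 1 F).coeff 0 = c := by
    rw [hq, PowerSeries.coeff_smul, s16ti_E4_coeff]
    simp
  rw [h0, hc]

/-- The coefficients of a level-one form of weight `4`. -/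
theorem s16ti_levelOne_four (F : ModularForm 𝒮ℒ 4) (n : ℕ) (hn : 0 < n) :
    (qExpansion 1 F).coeff n
      = (qExpansion 1 F).coeff 0 * (240 * (ArithmeticFunction.sigma 3 n : ℂ)) := by
  have h := s16ti_levelOne_four_eq F
  have hq : qExpansion 1 F = (qExpansion 1 F).coeff 0 • qExpansion 1 E₄ := by
    conv_lhs => rw [h]
    exact ModularForm.qExpansion_smul one_pos one_mem_strictPeriods_SL _ E₄
  conv_lhs => rw [hq]
  rw [PowerSeries.coeff_smul, s16ti_E4_coeff, if_neg hn.ne', smul_eq_mul]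

/-- Level-one forms of weight `2` vanish. -/
theorem s16ti_levelOne_two (F : ModularForm 𝒮ℒ 2) : F = 0 :=
  rank_zero_iff_forall_zero.1 levelOne_weight_two_rank_zero F

end levelOne

section conj

variable (p : ℕ) [Fact p.Prime]

theorem s16ti_sum_zmod {M : Type*} [AddCommMonoid M] (f : ℕ → M) :
    ∑ j : ZMod p, f j.val = ∑ j ∈ Finset.range p, f j := by
  have : NeZero p := ⟨(Fact.out : p.Prime).ne_zero⟩
  refine Finset.sum_bij' (fun j _ => j.val) (fun n _ => (n : ZMod p)) ?_ ?_ ?_ ?_ ?_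
  · intro j _
    exact Finset.mem_range.2 (ZMod.val_lt j)
  · intro n _
    exact Finset.mem_univ _
  · intro j _
    exact ZMod.natCast_zmod_val j
  · intro n hn
    exact ZMod.val_natCast_of_lt (Finset.mem_range.1 hn)
  · intro j _
    rfl

theorem s16ti_prod_zmod {M : Type*} [CommMonoid M] (f : ℕ → M) :
    ∏ j : ZMod p, f j.val = ∏ j ∈ Finset.range p, f j := by
  have : NeZero p := ⟨(Fact.out : p.Prime).ne_zero⟩
  refine Finset.prod_bij' (fun j _ => j.val) (fun n _ => (n : ZMod p)) ?_ ?_ ?_ ?_ ?_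
  · intro j _
    exact Finset.mem_range.2 (ZMod.val_lt j)
  · intro n _
    exact Finset.mem_univ _
  · intro j _
    exact ZMod.natCast_zmod_val j
  · intro n hn
    exact ZMod.val_natCast_of_lt (Finset.mem_range.1 hn)
  · intro j _
    rfl

/-- The family of conjugates indexed by the classes of `Γ₀(p) \ SL(2, ℤ)`. -/
def s16ti_fam (G : ℍ → ℂ) (W : ℕ → ℍ → ℂ) : Option (ZMod p) → ℍ → ℂ
  | none => G
  | some j => W j.val

/-- If `G ∣ S T^j = W j` for all `j`, then `G ∣ γ` is read off from the class of `γ`. -/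
theorem s16ti_slash_cls {k : ℤ} (G : ModularForm ((Gamma0 p).map (mapGL ℝ)) k)
    (W : ℕ → ℍ → ℂ)
    (hconj : ∀ j : ℕ, (G : ℍ → ℂ) ∣[k] (ModularGroup.S * ModularGroup.T ^ (j : ℤ)) = W j)
    (γ : SL(2, ℤ)) : (G : ℍ → ℂ) ∣[k] γ = s16ti_fam p G W (s16k_cls p γ) := by
  rcases h : s16k_cls p γ with _ | j
  · have hγ : γ ∈ Gamma0 p := (s16k_cls_eq_none_iff p γ).1 h
    rw [ModularForm.SL_slash]
    exact SlashInvariantFormClass.slash_action_eq G _ ((s16k_mapGL_mem_iff _ γ).2 hγ)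
  · have hj : s16k_cls p γ = some (((j.val : ℕ) : ℤ) : ZMod p) := by
      have : NeZero p := ⟨(Fact.out : p.Prime).ne_zero⟩
      rw [h, Int.cast_natCast, ZMod.natCast_zmod_val]
    obtain ⟨g, hg, rfl⟩ := (s16k_cls_eq_some_iff p γ _).1 hj
    rw [SlashAction.slash_mul]
    have hgG : (G : ℍ → ℂ) ∣[k] g = G := by
      rw [ModularForm.SL_slash]
      exact SlashInvariantFormClass.slash_action_eq G _ ((s16k_mapGL_mem_iff _ g).2 hg)
    rw [hgG, hconj]
    rfl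

/-- The trace to level one from the conjugates `G ∣ S T^j = W j`. -/
theorem s16ti_trace_eq {k : ℤ} (G : ModularForm ((Gamma0 p).map (mapGL ℝ)) k)
    (W : ℕ → ℍ → ℂ)
    (hconj : ∀ j : ℕ, (G : ℍ → ℂ) ∣[k] (ModularGroup.S * ModularGroup.T ^ (j : ℤ)) = W j) :
    (ModularForm.trace 𝒮ℒ G : ℍ → ℂ) = G + ∑ j ∈ Finset.range p, W j := by
  rw [s16k_trace_prime p G (s16ti_fam p G W) (s16ti_slash_cls p G W hconj)]
  congr 1
  exact s16ti_sum_zmod p W

/-- The norm to level one from the conjugates `G ∣ S T^j = W j`. -/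
theorem s16ti_norm_eq {k : ℤ} (G : ModularForm ((Gamma0 p).map (mapGL ℝ)) k)
    (W : ℕ → ℍ → ℂ)
    (hconj : ∀ j : ℕ, (G : ℍ → ℂ) ∣[k] (ModularGroup.S * ModularGroup.T ^ (j : ℤ)) = W j) :
    (ModularForm.norm 𝒮ℒ G : ℍ → ℂ) = G * ∏ j ∈ Finset.range p, W j := by
  rw [s16k_norm_prime p G (s16ti_fam p G W) (s16ti_slash_cls p G W hconj)]
  congr 1
  exact s16ti_prod_zmod p W

end conj

section identities

variable (p : ℕ) [Fact p.Prime] (G H : ModularForm ((Gamma0 p).map (mapGL ℝ)) 2)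

/-- The hypothesis (B2): the conjugates of `G` are the `-(H ∣ heckeMatrix p j)`. -/
def s16ti_Conj : Prop :=
  ∀ j : ℕ, (G : ℍ → ℂ) ∣[(2 : ℤ)] (ModularGroup.S * ModularGroup.T ^ (j : ℤ))
    = -((H : ℍ → ℂ) ∣[(2 : ℤ)] heckeMatrix p j)

theorem s16ti_hΓ (N : ℕ) : (1 : ℝ) ∈ ((Gamma0 N).map (mapGL ℝ)).strictPeriods :=
  CongruenceSubgroup.one_mem_strictPeriods_Gamma0 N

/-- `Tr G = 0` in weight `2`: `G = U_p H`. -/
theorem s16ti_trace_two (hconj : s16ti_Conj p G H) :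
    (G : ℍ → ℂ) = heckeU 2 p H := by
  have h0 : ModularForm.trace 𝒮ℒ G = 0 := s16ti_levelOne_two _
  have h1 := s16ti_trace_eq p G _ hconj
  rw [h0, Finset.sum_neg_distrib] at h1
  unfold heckeU
  have h2 : (0 : ℍ → ℂ) = G + -∑ j ∈ Finset.range p, (H : ℍ → ℂ) ∣[(2 : ℤ)] heckeMatrix p j := by
    simpa using h1
  exact eq_of_sub_eq_zero (by rw [sub_eq_add_neg]; exact h2.symm)

/-- `a_n(G) = a_{np}(H)`. -/
theorem s16ti_qCoeff_two (hconj : s16ti_Conj p G H) (n : ℕ) :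
    (qExpansion 1 G).coeff n = (qExpansion 1 H).coeff (n * p) := by
  have h := ModularFormClass.qCoeff_heckeU H (s16ti_hΓ p) (Fact.out : p.Prime).ne_zero (k := 2) n
  rw [← s16ti_trace_two p G H hconj] at h
  exact h

/-- The square of a weight-`2` form as a weight-`4` form. -/
noncomputable def s16ti_sq {Γ : Subgroup (GL (Fin 2) ℝ)} [Γ.HasDetPlusMinusOne]
    (G : ModularForm Γ 2) : ModularForm Γ 4 :=
  ModularForm.mcast (by norm_num) (G.mul G)

theorem s16ti_sq_coe {Γ : Subgroup (GL (Fin 2) ℝ)} [Γ.HasDetPlusMinusOne]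
    (G : ModularForm Γ 2) : (s16ti_sq G : ℍ → ℂ) = (G : ℍ → ℂ) * G := rfl

theorem s16ti_sq_qExp (G : ModularForm ((Gamma0 p).map (mapGL ℝ)) 2) :
    qExpansion 1 (s16ti_sq G) = qExpansion 1 G ^ 2 := by
  rw [pow_two]
  exact ModularForm.qExpansion_mul one_pos (s16ti_hΓ p) G G

theorem s16ti_sq_slash (hconj : s16ti_Conj p G H) (j : ℕ) :
    (s16ti_sq G : ℍ → ℂ) ∣[(4 : ℤ)] (ModularGroup.S * ModularGroup.T ^ (j : ℤ))
      = ((H : ℍ → ℂ) ∣[(2 : ℤ)] heckeMatrix p j) * ((H : ℍ → ℂ) ∣[(2 : ℤ)] heckeMatrix p j) := by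
  rw [s16ti_sq_coe, show (4 : ℤ) = 2 + 2 by norm_num, mul_slash_SL2, hconj j, neg_mul_neg]

theorem s16ti_sq_heckeMatrix (j : ℕ) :
    ((H : ℍ → ℂ) ∣[(2 : ℤ)] heckeMatrix p j) * ((H : ℍ → ℂ) ∣[(2 : ℤ)] heckeMatrix p j)
      = (p : ℂ)⁻¹ • (((H : ℍ → ℂ) * H) ∣[(4 : ℤ)] heckeMatrix p j) := by
  have hp : p ≠ 0 := (Fact.out : p.Prime).ne_zero
  funext τ
  simp only [Pi.mul_apply, Pi.smul_apply, slash_heckeMatrix_apply _ hp, smul_eq_mul]
  ring

/-- `Tr (G²) = G² + p⁻¹ U_p (H²)`. -/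
theorem s16ti_trace_sq (hconj : s16ti_Conj p G H) :
    (ModularForm.trace 𝒮ℒ (s16ti_sq G) : ℍ → ℂ)
      = (G : ℍ → ℂ) * G + (p : ℂ)⁻¹ • heckeU 4 p ((H : ℍ → ℂ) * H) := by
  rw [s16ti_trace_eq p (s16ti_sq G) _ (s16ti_sq_slash p G H hconj), s16ti_sq_coe]
  congr 1
  unfold heckeU
  rw [Finset.smul_sum]
  exact Finset.sum_congr rfl fun j _ => s16ti_sq_heckeMatrix p H j

/-- The coefficients of `Tr (G²)`. -/
theorem s16ti_trace_sq_coeff (hconj : s16ti_Conj p G H) (n : ℕ) :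
    (qExpansion 1 (ModularForm.trace 𝒮ℒ (s16ti_sq G))).coeff n
      = (qExpansion 1 G ^ 2).coeff n + (p : ℂ)⁻¹ * (qExpansion 1 H ^ 2).coeff (n * p) := by
  have hp : p ≠ 0 := (Fact.out : p.Prime).ne_zero
  have : NeZero p := ⟨hp⟩
  let U : ModularForm ((Gamma0 p).map (mapGL ℝ)) 4 :=
    ModularForm.heckeULin 4 (dvd_refl p) (s16ti_sq H)
  let V : ModularForm ((Gamma0 p).map (mapGL ℝ)) 4 := s16ti_sq G + (p : ℂ)⁻¹ • U
  have hV : (ModularForm.trace 𝒮ℒ (s16ti_sq G) : ℍ → ℂ) = V := by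
    rw [s16ti_trace_sq p G H hconj]
    rfl
  rw [hV]
  have h1 : qExpansion 1 V = qExpansion 1 (s16ti_sq G) + (p : ℂ)⁻¹ • qExpansion 1 U := by
    have e1 := ModularForm.qExpansion_add one_pos (s16ti_hΓ p) (s16ti_sq G) ((p : ℂ)⁻¹ • U)
    have e2 := ModularForm.qExpansion_smul one_pos (s16ti_hΓ p) (p : ℂ)⁻¹ U
    rw [← e2]
    exact e1
  have h2 : (qExpansion 1 U).coeff n = (qExpansion 1 (s16ti_sq H)).coeff (n * p) :=
    ModularFormClass.qCoeff_heckeU (s16ti_sq H) (s16ti_hΓ p) hp (k := 4) n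
  rw [h1, map_add, PowerSeries.coeff_smul, h2, s16ti_sq_qExp, s16ti_sq_qExp, smul_eq_mul]

/-- **(I1)**: `a_n(G²) + p⁻¹ a_{np}(H²) = (a_0(G²) + p⁻¹ a_0(H²)) · 240 σ₃(n)` for `n ≥ 1`. -/
theorem s16ti_I1 (hconj : s16ti_Conj p G H) (n : ℕ) (hn : 0 < n) :
    (qExpansion 1 G ^ 2).coeff n + (p : ℂ)⁻¹ * (qExpansion 1 H ^ 2).coeff (n * p)
      = ((qExpansion 1 G ^ 2).coeff 0 + (p : ℂ)⁻¹ * (qExpansion 1 H ^ 2).coeff 0)
          * (240 * (ArithmeticFunction.sigma 3 n : ℂ)) := by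
  have h := s16ti_levelOne_four (ModularForm.trace 𝒮ℒ (s16ti_sq G)) n hn
  rw [s16ti_trace_sq_coeff p G H hconj, s16ti_trace_sq_coeff p G H hconj, zero_mul] at h
  exact h

/-- The general form of (B2), as a hypothesis. -/
def s16ti_B2 : Prop :=
  ∀ (F : ModularForm ((Gamma0 p).map (mapGL ℝ)) 2) (j : ℕ),
    (F : ℍ → ℂ) ∣[(2 : ℤ)] (ModularGroup.S * ModularGroup.T ^ (j : ℤ))
      = -((heckeU 2 p F) ∣[(2 : ℤ)] heckeMatrix p j)

/-- Everything Claims A and B need, from (B2): with `H = U_p G`,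
`a_n(H) = a_{np}(G)`, `a_n(G) = a_{np}(H)`, (I1) and (I2). -/
theorem s16ti_main (hB2 : s16ti_B2 p) (G : ModularForm ((Gamma0 p).map (mapGL ℝ)) 2) :
    ∃ H : ModularForm ((Gamma0 p).map (mapGL ℝ)) 2,
      (H : ℍ → ℂ) = heckeU 2 p G ∧ (G : ℍ → ℂ) = heckeU 2 p H ∧
      (∀ n, (qExpansion 1 H).coeff n = (qExpansion 1 G).coeff (n * p)) ∧
      (∀ n, (qExpansion 1 G).coeff n = (qExpansion 1 H).coeff (n * p)) ∧
      (∀ n, 0 < n →
        (qExpansion 1 G ^ 2).coeff n + (p : ℂ)⁻¹ * (qExpansion 1 H ^ 2).coeff (n * p)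
          = ((qExpansion 1 G ^ 2).coeff 0 + (p : ℂ)⁻¹ * (qExpansion 1 H ^ 2).coeff 0)
              * (240 * (ArithmeticFunction.sigma 3 n : ℂ))) ∧
      (∀ n, 0 < n →
        (qExpansion 1 H ^ 2).coeff n + (p : ℂ)⁻¹ * (qExpansion 1 G ^ 2).coeff (n * p)
          = ((qExpansion 1 H ^ 2).coeff 0 + (p : ℂ)⁻¹ * (qExpansion 1 G ^ 2).coeff 0)
              * (240 * (ArithmeticFunction.sigma 3 n : ℂ))) := by
  have hp : p ≠ 0 := (Fact.out : p.Prime).ne_zero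
  have : NeZero p := ⟨hp⟩
  let H : ModularForm ((Gamma0 p).map (mapGL ℝ)) 2 := ModularForm.heckeULin 2 (dvd_refl p) G
  have hH : (H : ℍ → ℂ) = heckeU 2 p G := rfl
  have hGH : s16ti_Conj p G H := fun j => by rw [hH]; exact hB2 G j
  have hG : (G : ℍ → ℂ) = heckeU 2 p H := s16ti_trace_two p G H hGH
  have hHG : s16ti_Conj p H G := fun j => by
    have := hB2 H j
    rwa [← hG] at this
  refine ⟨H, hH, hG, ?_, s16ti_qCoeff_two p G H hGH, s16ti_I1 p G H hGH, s16ti_I1 p H G hHG⟩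
  exact s16ti_qCoeff_two p H G hHG

end identities

end Fermat.Agent.S16TI
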