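import Mathlib
import Fermat.Agent.S16.Up.Arith
import Fermat.Agent.S16.Up.Conj
import Fermat.Agent.S16.Up.TraceId
import Fermat.Agent.S16.Up.TraceFormal
import Fermat.Prelude.Def_ModularForm_HeckeOperatorForms
import Fermat.Prelude.Thm_ModularFormClass_qCoeff_heckeU
import Fermat.Prelude.Thm_CongruenceSubgroup_one_mem_strictPeriods_Gamma0

set_option autoImplicit false

open UpperHalfPlane ModularFormClass CongruenceSubgroup ModularForm
open scoped MatrixGroups ArithmeticFunction.sigma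

namespace Fermat.Agent.S16TW

open Fermat.Agent.S16 Fermat.Agent.S16AR

/-- `H = U_p G` as a modular form on `Γ₀(p)`. -/
noncomputable def tw4_H (p : ℕ) [NeZero p] (G : ModularForm (Gamma0 p) 2) :
    ModularForm (Gamma0 p) 2 :=
  ModularForm.heckeULin 2 (dvd_refl p) G

theorem tw4_H_coe (p : ℕ) [NeZero p] (G : ModularForm (Gamma0 p) 2) :
    (⇑(tw4_H p G) : ℍ → ℂ) = heckeU 2 p ⇑G := rfl

/-- `U_p (U_p G) = G` for `G ∈ M₂(Γ₀(p))`. -/
theorem tw4_heckeU_H (p : ℕ) [Fact p.Prime] (G : ModularForm (Gamma0 p) 2) :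
    heckeU 2 p (⇑(tw4_H p G) : ℍ → ℂ) = ⇑G := by
  have h1 := s16c_add_heckeU_W p G
  rw [s16c_slash_W_eq, heckeU_neg] at h1
  rw [tw4_H_coe]
  exact (eq_of_sub_eq_zero (by rw [← h1]; ring)).symm

/-- `a_n(U_p F) = a_{pn}(F)`. -/
theorem tw4_coeff_heckeU (p : ℕ) [NeZero p] (F : ModularForm (Gamma0 p) 2) (n : ℕ) :
    (qExpansion 1 (heckeU 2 p ⇑F)).coeff n = (qExpansion 1 F).coeff (p * n) := by
  have h := ModularFormClass.qCoeff_heckeU (k := 2) F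
    (CongruenceSubgroup.one_mem_strictPeriods_Gamma0 p) (NeZero.ne p) n
  rw [ModularForm.coeffHeckeU_apply] at h
  rw [mul_comm p n]
  exact h

/-- Shape of the level-one trace identity (I1) for a conjugate pair `(G, H)`. -/
def tw4_TraceId (p : ℕ) : Prop :=
  ∀ G H : ModularForm (Gamma0 p) 2,
    (∀ j : ℕ, (⇑G : ℍ → ℂ) ∣[(2 : ℤ)] (ModularGroup.S * ModularGroup.T ^ (j : ℤ)) =
      -((⇑H : ℍ → ℂ) ∣[(2 : ℤ)] heckeMatrix p j)) →
    ∀ n : ℕ, 1 ≤ n →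
      ((qExpansion 1 G) ^ 2).coeff n + (p : ℂ)⁻¹ * ((qExpansion 1 H) ^ 2).coeff (n * p) =
        (((qExpansion 1 G) ^ 2).coeff 0 + (p : ℂ)⁻¹ * ((qExpansion 1 H) ^ 2).coeff 0) *
          (240 * (σ 3 n : ℂ))

/-- Shape of the formal core: coefficient sequences `a` (of `G`) and `b` (of `H = U_p G`). -/
def tw4_Core (p l e : ℕ) : Prop :=
  ∀ a b : ℕ → ℂ, a 0 = 1 → b 0 = 1 → (∀ n, b n = a (p * n)) → (∀ n, a n = b (p * n)) →
    (∀ n : ℕ, 0 < n →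
      (∑ ij ∈ Finset.HasAntidiagonal.antidiagonal n, a ij.1 * a ij.2) +
        (p : ℂ)⁻¹ * (∑ ij ∈ Finset.HasAntidiagonal.antidiagonal (p * n), b ij.1 * b ij.2) =
        (1 + (p : ℂ)⁻¹) * (240 * (σ 3 n : ℂ))) →
    (∀ n : ℕ, 0 < n →
      (∑ ij ∈ Finset.HasAntidiagonal.antidiagonal n, b ij.1 * b ij.2) +
        (p : ℂ)⁻¹ * (∑ ij ∈ Finset.HasAntidiagonal.antidiagonal (p * n), a ij.1 * a ij.2) =
        (1 + (p : ℂ)⁻¹) * (240 * (σ 3 n : ℂ))) →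
    (∀ n : ℕ, 0 < n → ∃ (c : ℤ) (s : ℕ), ¬ l ∣ s ∧ (s : ℂ) * a n = (l : ℂ) ^ e * c) → False

theorem tw4_sq_coeff (f : PowerSeries ℂ) (n : ℕ) :
    (f ^ 2).coeff n = ∑ ij ∈ Finset.HasAntidiagonal.antidiagonal n, f.coeff ij.1 * f.coeff ij.2 := by
  rw [sq, PowerSeries.coeff_mul]

/-- **Assembly of (T)**: trace identity + formal core ⟹ the UP lemma. -/
theorem tw4_UP_of (p l e : ℕ) [Fact p.Prime] (hT : tw4_TraceId p) (hC : tw4_Core p l e) :
    s16ar_UP p l e := by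
  intro G h0 hint
  set H := tw4_H p G with hH
  have hGH : ∀ j : ℕ, (⇑G : ℍ → ℂ) ∣[(2 : ℤ)] (ModularGroup.S * ModularGroup.T ^ (j : ℤ)) =
      -((⇑H : ℍ → ℂ) ∣[(2 : ℤ)] heckeMatrix p j) := fun j => s16c_slash_ST p G j
  have hHG : ∀ j : ℕ, (⇑H : ℍ → ℂ) ∣[(2 : ℤ)] (ModularGroup.S * ModularGroup.T ^ (j : ℤ)) =
      -((⇑G : ℍ → ℂ) ∣[(2 : ℤ)] heckeMatrix p j) := fun j => by
    have := s16c_slash_ST p H j
    rwa [tw4_heckeU_H] at this
  have hba : ∀ n, (qExpansion 1 H).coeff n = (qExpansion 1 G).coeff (p * n) := fun n =>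
    tw4_coeff_heckeU p G n
  have hab : ∀ n, (qExpansion 1 G).coeff n = (qExpansion 1 H).coeff (p * n) := fun n => by
    have := tw4_coeff_heckeU p H n
    rwa [tw4_heckeU_H] at this
  have hb0 : (qExpansion 1 H).coeff 0 = 1 := by rw [hba, mul_zero, h0]
  have hc0 : ∀ F : ModularForm (Gamma0 p) 2, (qExpansion 1 F).coeff 0 = 1 →
      ((qExpansion 1 F) ^ 2).coeff 0 = 1 := fun F hF => by
    rw [tw4_sq_coeff]; simp [hF]
  refine hC (fun n => (qExpansion 1 G).coeff n) (fun n => (qExpansion 1 H).coeff n) h0 hb0 hba hab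
    ?_ ?_ (fun n hn => hint n hn)
  · intro n hn
    have := hT G H hGH n hn
    rw [hc0 G h0, hc0 H hb0, tw4_sq_coeff, tw4_sq_coeff, mul_comm n p] at this
    rw [this]; ring
  · intro n hn
    have := hT H G hHG n hn
    rw [hc0 G h0, hc0 H hb0, tw4_sq_coeff, tw4_sq_coeff, mul_comm n p] at this
    rw [this]; ring

/-- The trace identity (I1), from helper19's `TraceId.lean`. -/
theorem tw4_traceId_holds (p : ℕ) [Fact p.Prime] : tw4_TraceId p :=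
  fun G H hconj n hn => Fermat.Agent.S16TI.s16ti_I1 p G H hconj n hn

/-- **Claim A**: no `G ∈ M₂(Γ₀(p))`, `p ≡ 1 mod 3`, with `G ≡ 1 mod 3`. -/
theorem tw4_UP_three_one (p : ℕ) [Fact p.Prime] (hp3 : p % 3 = 1) : s16ar_UP p 3 1 :=
  tw4_UP_of p 3 1 (tw4_traceId_holds p) fun a b ha0 hb0 hba hab I1 I2 hint =>
    Fermat.Agent.S16T.s16t_claimA p Fact.out hp3 a b ha0 hb0 hba hab I1 I2 hint

/-- **Claim B**: no `G ∈ M₂(Γ₀(p))`, `p ≡ 1 mod 4`, with `G ≡ 1 mod 4`. -/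
theorem tw4_UP_two_two (p : ℕ) [Fact p.Prime] (hp4 : p % 4 = 1) : s16ar_UP p 2 2 :=
  tw4_UP_of p 2 2 (tw4_traceId_holds p) fun a b ha0 hb0 hba hab I1 I2 hint =>
    Fermat.Agent.S16T.s16t_claimB p Fact.out hp4 a b ha0 hb0 hba hab I1 I2 hint

end Fermat.Agent.S16TW
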