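import Fermat.Agent.S16.Up.Arith
import Fermat.Agent.S16.Up.SmallP
import Fermat.Agent.S16.Up.TraceW4

/-!
# S16 stream [B]: `ContractA p` for every prime `p` from the three NORM cases

`s16mo_contractA_of_norm` : the trace cases (Claims A and B, `Up/TraceW4.lean`) and the small
primes `p < 5` (`Up/SmallP.lean`) are discharged; what remains as hypotheses are exactly the three
norm cases `(ℓ ≥ 5, e = 1)`, `(ℓ = 3, e = 2, p ≡ 2 mod 3)`, `(ℓ = 2, e = 3, p ≡ 3 mod 4)`,
each only for `p ≥ 5`.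
-/

set_option autoImplicit false

namespace Fermat.Agent.S16MO

open Fermat.Agent.S16x Fermat.Agent.S16AR

/-- `ContractA p` for every prime `p`, from the three norm cases of UP (needed for `p ≥ 5` only). -/
theorem s16mo_contractA_of_norm (p : ℕ) [Fact p.Prime]
    (h5 : 5 ≤ p → ∀ l : ℕ, l.Prime → 5 ≤ l → s16ar_UP p l 1)
    (h3 : 5 ≤ p → p % 3 = 2 → s16ar_UP p 3 2)
    (h2 : 5 ≤ p → p % 4 = 3 → s16ar_UP p 2 3) : ContractA p := by
  rcases lt_or_ge p 5 with hp | hp
  · exact Fermat.Agent.S16SP.s16sp_contractA p hp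
  · exact s16ar_contractA_of_UP p hp (h5 hp)
      (Fermat.Agent.S16TW.tw4_UP_three_one p) (h3 hp)
      (Fermat.Agent.S16TW.tw4_UP_two_two p) (h2 hp)

end Fermat.Agent.S16MO
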