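import Mathlib

/-!
# S16 (UP engine): leading terms modulo a valuation, and the abstract contradiction

`K` a field with a valuation `v` (in the application `K = ℂ`, `v` the valuation of a valuation
subring `B` with `l` in its maximal ideal: `x ∈ B ↔ v x ≤ 1`, `x ∈ 𝔪_B ↔ v x < 1`).

`ldc_LeadAt v f e` : the power series `f` is `v`-integral and its reduction modulo `𝔪` has
`X`-order exactly `e`.  This is multiplicative (`ldc_leadAt_mul`, `ldc_leadAt_prod`), because `𝔪`
is prime.  `ldc_contradiction` : if the period-`N` expansion of a level-one form `Φ` is the product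
of series with leading exponents `e i`, `∑ e i ≥ N d`, and `Φ` obeys the Sturm-type implication
with bound `k / 12 < d`, we get a contradiction.
-/

set_option autoImplicit false

open PowerSeries

namespace Fermat.Agent.S16U

variable {K : Type*} [Field K] {Γ₀ : Type*} [LinearOrderedCommGroupWithZero Γ₀]
  (v : Valuation K Γ₀)

/-- `f` is `v`-integral and its reduction has `X`-order exactly `e`. -/
def ldc_LeadAt (f : K⟦X⟧) (e : ℕ) : Prop :=
  (∀ n, v (coeff n f) ≤ 1) ∧ (∀ n < e, v (coeff n f) < 1) ∧ v (coeff e f) = 1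

/-- `f` is `v`-integral, its reduction is nonzero and has `X`-order at least `e`. -/
def ldc_LowAt (f : K⟦X⟧) (e : ℕ) : Prop :=
  (∀ n, v (coeff n f) ≤ 1) ∧ (∀ n < e, v (coeff n f) < 1) ∧ ∃ n, v (coeff n f) = 1

variable {v}

theorem ldc_LeadAt.lowAt {f : K⟦X⟧} {e : ℕ} (h : ldc_LeadAt v f e) : ldc_LowAt v f e :=
  ⟨h.1, h.2.1, e, h.2.2⟩

/-- The exact leading exponent exists and is at least the lower bound. -/
theorem ldc_LowAt.exists_leadAt {f : K⟦X⟧} {e : ℕ} (h : ldc_LowAt v f e) :
    ∃ e0, e ≤ e0 ∧ ldc_LeadAt v f e0 := by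
  classical
  obtain ⟨hint, hlow, hex⟩ := h
  refine ⟨Nat.find hex, ?_, hint, ?_, Nat.find_spec hex⟩
  · by_contra hlt
    push Not at hlt
    have := hlow _ hlt
    rw [Nat.find_spec hex] at this
    exact lt_irrefl _ this
  · intro n hn
    have h1 : v (coeff n f) ≠ 1 := Nat.find_min hex hn
    exact lt_of_le_of_ne (hint n) h1

theorem ldc_leadAt_unique {f : K⟦X⟧} {e e' : ℕ} (h : ldc_LeadAt v f e) (h' : ldc_LeadAt v f e') :
    e = e' := by
  rcases lt_trichotomy e e' with hlt | heq | hgt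
  · have := h'.2.1 e hlt; rw [h.2.2] at this; exact absurd this (lt_irrefl _)
  · exact heq
  · have := h.2.1 e' hgt; rw [h'.2.2] at this; exact absurd this (lt_irrefl _)

theorem ldc_leadAt_one : ldc_LeadAt v (1 : K⟦X⟧) 0 := by
  refine ⟨fun n => ?_, fun n hn => absurd hn (Nat.not_lt_zero n), ?_⟩
  · rw [coeff_one]; split_ifs <;> simp
  · simp

/-- A `v`-integral series with unit constant term has leading exponent `0`. -/
theorem ldc_leadAt_zero_of_unit {f : K⟦X⟧} (hint : ∀ n, v (coeff n f) ≤ 1)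
    (h0 : v (coeff 0 f) = 1) : ldc_LeadAt v f 0 :=
  ⟨hint, fun n hn => absurd hn (Nat.not_lt_zero n), h0⟩

/-- **Multiplicativity of leading exponents** (the maximal ideal is prime). -/
theorem ldc_leadAt_mul {f g : K⟦X⟧} {e e' : ℕ} (hf : ldc_LeadAt v f e) (hg : ldc_LeadAt v g e') :
    ldc_LeadAt v (f * g) (e + e') := by
  classical
  obtain ⟨hf1, hf2, hf3⟩ := hf
  obtain ⟨hg1, hg2, hg3⟩ := hg
  have hterm : ∀ i j, v (coeff i f * coeff j g) ≤ 1 := fun i j => by
    rw [map_mul]; exact mul_le_one' (hf1 i) (hg1 j)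
  have hsmall : ∀ i j, (i < e ∨ j < e') → v (coeff i f * coeff j g) < 1 := by
    intro i j h
    rw [map_mul]
    rcases h with h | h
    · exact lt_of_le_of_lt (mul_le_of_le_one_right' (hg1 j)) (hf2 i h)
    · exact lt_of_le_of_lt (mul_le_of_le_one_left' (hf1 i)) (hg2 j h)
  refine ⟨fun n => ?_, fun n hn => ?_, ?_⟩
  · rw [coeff_mul]
    exact v.map_sum_le fun x _ => hterm x.1 x.2
  · rw [coeff_mul]
    refine v.map_sum_lt one_ne_zero fun x hx => ?_
    have hx' : x.1 + x.2 = n := Finset.HasAntidiagonal.mem_antidiagonal.mp hx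
    apply hsmall
    by_contra hcon
    push Not at hcon
    omega
  · rw [coeff_mul]
    have hmem : (e, e') ∈ Finset.HasAntidiagonal.antidiagonal (e + e') := Finset.HasAntidiagonal.mem_antidiagonal.mpr rfl
    rw [← Finset.add_sum_erase _ _ hmem]
    have h1 : v (coeff e f * coeff e' g) = 1 := by rw [map_mul, hf3, hg3, one_mul]
    have h2 : v (∑ x ∈ (Finset.HasAntidiagonal.antidiagonal (e + e')).erase (e, e'),
        coeff x.1 f * coeff x.2 g) < 1 := by
      refine v.map_sum_lt one_ne_zero fun x hx => ?_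
      obtain ⟨hne, hx'⟩ := Finset.mem_erase.mp hx
      have hx'' : x.1 + x.2 = e + e' := Finset.HasAntidiagonal.mem_antidiagonal.mp hx'
      apply hsmall
      by_contra hcon
      push Not at hcon
      apply hne
      have : x.1 = e ∧ x.2 = e' := by omega
      exact Prod.ext this.1 this.2
    rw [← h1] at h2
    rw [Valuation.map_add_eq_of_lt_left v h2, h1]

theorem ldc_leadAt_prod {ι : Type*} (s : Finset ι) (φ : ι → K⟦X⟧) (e : ι → ℕ)
    (h : ∀ i ∈ s, ldc_LeadAt v (φ i) (e i)) :
    ldc_LeadAt v (∏ i ∈ s, φ i) (∑ i ∈ s, e i) := by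
  classical
  induction s using Finset.induction_on with
  | empty => simpa using ldc_leadAt_one (v := v)
  | insert a s ha ih =>
    rw [Finset.prod_insert ha, Finset.sum_insert ha]
    exact ldc_leadAt_mul (h a (Finset.mem_insert_self a s))
      (ih fun i hi => h i (Finset.mem_insert_of_mem hi))

theorem ldc_leadAt_pow {f : K⟦X⟧} {e : ℕ} (h : ldc_LeadAt v f e) (n : ℕ) :
    ldc_LeadAt v (f ^ n) (n * e) := by
  induction n with
  | zero => simpa using ldc_leadAt_one (v := v)
  | succ n ih =>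
    rw [pow_succ, Nat.succ_mul]
    exact ldc_leadAt_mul ih h

/-- **The abstract contradiction** (exact leading exponents). -/
theorem ldc_contradiction {ι : Type*} [Fintype ι] (N d k : ℕ) (hN : 0 < N) (φ : ι → K⟦X⟧)
    (e : ι → ℕ) (Φ : K⟦X⟧) (hφ : ∀ i, ldc_LeadAt v (φ i) (e i))
    (hprod : ∀ m, coeff m (∏ i, φ i) = if N ∣ m then coeff (m / N) Φ else 0)
    (hsum : N * d ≤ ∑ i, e i)
    (hSturm : (∀ n ≤ k / 12, v (coeff n Φ) < 1) → ∀ n, v (coeff n Φ) < 1)
    (hk : k / 12 < d) : False := by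
  have hP := ldc_leadAt_prod (v := v) Finset.univ φ e fun i _ => hφ i
  set E := ∑ i, e i with hE
  have h1 := hP.2.2
  rw [hprod] at h1
  have hdvd : N ∣ E := by
    by_contra hnd
    rw [if_neg hnd, map_zero] at h1
    exact zero_ne_one h1
  rw [if_pos hdvd] at h1
  obtain ⟨t, ht⟩ := hdvd
  have htd : d ≤ t := by
    rw [ht] at hsum
    exact Nat.le_of_mul_le_mul_left hsum hN
  rw [ht, Nat.mul_div_cancel_left _ hN] at h1
  have hlow : ∀ n ≤ k / 12, v (coeff n Φ) < 1 := by
    intro n hn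
    have hlt : N * n < E := by
      rw [ht]
      exact Nat.mul_lt_mul_of_pos_left (by omega) hN
    have := hP.2.1 (N * n) hlt
    rwa [hprod, if_pos (dvd_mul_right N n), Nat.mul_div_cancel_left _ hN] at this
  have := hSturm hlow t
  rw [h1] at this
  exact lt_irrefl _ this

/-- **The abstract contradiction**, lower-bound form. -/
theorem ldc_contradiction_low {ι : Type*} [Fintype ι] (N d k : ℕ) (hN : 0 < N) (φ : ι → K⟦X⟧)
    (e : ι → ℕ) (Φ : K⟦X⟧) (hφ : ∀ i, ldc_LowAt v (φ i) (e i))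
    (hprod : ∀ m, coeff m (∏ i, φ i) = if N ∣ m then coeff (m / N) Φ else 0)
    (hsum : N * d ≤ ∑ i, e i)
    (hSturm : (∀ n ≤ k / 12, v (coeff n Φ) < 1) → ∀ n, v (coeff n Φ) < 1)
    (hk : k / 12 < d) : False := by
  choose e0 he0 hlead using fun i => (hφ i).exists_leadAt
  refine ldc_contradiction N d k hN φ e0 Φ hlead hprod ?_ hSturm hk
  exact hsum.trans (Finset.sum_le_sum fun i _ => he0 i)

end Fermat.Agent.S16U
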