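import Mathlib
import Fermat.Agent.S16.Up.LeadCore

/-!
# S16 (UP engine): more on leading terms, and the conjugate classes `(some i, none)`,
`(some i, some j)` of the generic norm argument

Complements `LeadCore.lean` (`ldc_LeadAt`, `ldc_LowAt`, `ldc_contradiction_low`):

* stability of `ldc_LeadAt` / `ldc_LowAt` under multiplication by a `v`-unit constant, negation,
  `PowerSeries.expand d` (exponent `d * e`), `PowerSeries.rescale u` (`v u = 1`) and addition of a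
  series all of whose coefficients up to `e` lie in the maximal ideal;
* `ldk_natCast_le_one`, `ldk_intCast_le_one`;
* the two formal class lemmas (coefficient form, no modular forms): for
  `g = c⁻¹ (p G + Y_r)` on `Γ₀(r p)`, `N = r p`, `X = q^(1/N)`:
  - `ldk_cls_ss`: `φ = c⁻¹ (-H(z X^r) - r⁻¹ Y(w X^p))` has leading exponent `0`
    (constant term `-(r+1)/(r c)` a unit);
  - `ldk_cls_sn`: `φ = c⁻¹ (p G(X^N) - r⁻¹ Y(w X^p))` is `v`-integral with a unit coefficient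
    at `X^p` (so `ldc_LowAt v φ 0`).
-/

set_option autoImplicit false

open PowerSeries

namespace Fermat.Agent.S16U

variable {K : Type*} [Field K] {Γ₀ : Type*} [LinearOrderedCommGroupWithZero Γ₀]
  {v : Valuation K Γ₀}

/-! ### Integers are `v`-integral -/

theorem ldk_natCast_le_one (n : ℕ) : v (n : K) ≤ 1 := by
  induction n with
  | zero => simp
  | succ n ih =>
    rw [Nat.cast_succ]
    exact v.map_add_le ih (le_of_eq v.map_one)

theorem ldk_intCast_le_one (n : ℤ) : v (n : K) ≤ 1 := by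
  obtain ⟨m, rfl | rfl⟩ := Int.eq_nat_or_neg n
  · exact_mod_cast ldk_natCast_le_one (v := v) m
  · rw [Int.cast_neg, v.map_neg]
    exact_mod_cast ldk_natCast_le_one (v := v) m

/-! ### Stability of leading exponents -/

theorem ldk_leadAt_C_mul {f : K⟦X⟧} {e : ℕ} {u : K} (hu : v u = 1) (h : ldc_LeadAt v f e) :
    ldc_LeadAt v (C u * f) e := by
  refine ⟨fun n => ?_, fun n hn => ?_, ?_⟩
  · rw [coeff_C_mul, map_mul, hu, one_mul]; exact h.1 n
  · rw [coeff_C_mul, map_mul, hu, one_mul]; exact h.2.1 n hn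
  · rw [coeff_C_mul, map_mul, hu, one_mul]; exact h.2.2

theorem ldk_lowAt_C_mul {f : K⟦X⟧} {e : ℕ} {u : K} (hu : v u = 1) (h : ldc_LowAt v f e) :
    ldc_LowAt v (C u * f) e := by
  obtain ⟨h1, h2, n0, h3⟩ := h
  refine ⟨fun n => ?_, fun n hn => ?_, n0, ?_⟩
  · rw [coeff_C_mul, map_mul, hu, one_mul]; exact h1 n
  · rw [coeff_C_mul, map_mul, hu, one_mul]; exact h2 n hn
  · rw [coeff_C_mul, map_mul, hu, one_mul]; exact h3

theorem ldk_leadAt_smul {f : K⟦X⟧} {e : ℕ} {u : K} (hu : v u = 1) (h : ldc_LeadAt v f e) :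
    ldc_LeadAt v (u • f) e := by
  rw [smul_eq_C_mul]; exact ldk_leadAt_C_mul hu h

theorem ldk_lowAt_smul {f : K⟦X⟧} {e : ℕ} {u : K} (hu : v u = 1) (h : ldc_LowAt v f e) :
    ldc_LowAt v (u • f) e := by
  rw [smul_eq_C_mul]; exact ldk_lowAt_C_mul hu h

theorem ldk_leadAt_neg {f : K⟦X⟧} {e : ℕ} (h : ldc_LeadAt v f e) : ldc_LeadAt v (-f) e := by
  refine ⟨fun n => ?_, fun n hn => ?_, ?_⟩
  · rw [map_neg, v.map_neg]; exact h.1 n
  · rw [map_neg, v.map_neg]; exact h.2.1 n hn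
  · rw [map_neg, v.map_neg]; exact h.2.2

theorem ldk_lowAt_neg {f : K⟦X⟧} {e : ℕ} (h : ldc_LowAt v f e) : ldc_LowAt v (-f) e := by
  obtain ⟨h1, h2, n0, h3⟩ := h
  refine ⟨fun n => ?_, fun n hn => ?_, n0, ?_⟩
  · rw [map_neg, v.map_neg]; exact h1 n
  · rw [map_neg, v.map_neg]; exact h2 n hn
  · rw [map_neg, v.map_neg]; exact h3

theorem ldk_leadAt_expand {f : K⟦X⟧} {e : ℕ} (d : ℕ) (hd : d ≠ 0) (h : ldc_LeadAt v f e) :
    ldc_LeadAt v (expand d hd f) (d * e) := by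
  refine ⟨fun n => ?_, fun n hn => ?_, ?_⟩
  · rw [coeff_expand]; split_ifs
    · exact h.1 _
    · simp
  · rw [coeff_expand]; split_ifs with hdn
    · apply h.2.1
      obtain ⟨t, rfl⟩ := hdn
      rw [Nat.mul_div_cancel_left _ (Nat.pos_of_ne_zero hd)]
      exact Nat.lt_of_mul_lt_mul_left hn
    · simp
  · rw [coeff_expand_mul]; exact h.2.2

theorem ldk_lowAt_expand {f : K⟦X⟧} {e : ℕ} (d : ℕ) (hd : d ≠ 0) (h : ldc_LowAt v f e) :
    ldc_LowAt v (expand d hd f) (d * e) := by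
  obtain ⟨h1, h2, n0, h3⟩ := h
  refine ⟨fun n => ?_, fun n hn => ?_, d * n0, ?_⟩
  · rw [coeff_expand]; split_ifs
    · exact h1 _
    · simp
  · rw [coeff_expand]; split_ifs with hdn
    · apply h2
      obtain ⟨t, rfl⟩ := hdn
      rw [Nat.mul_div_cancel_left _ (Nat.pos_of_ne_zero hd)]
      exact Nat.lt_of_mul_lt_mul_left hn
    · simp
  · rw [coeff_expand_mul]; exact h3

theorem ldk_leadAt_rescale {f : K⟦X⟧} {e : ℕ} {u : K} (hu : v u = 1) (h : ldc_LeadAt v f e) :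
    ldc_LeadAt v (rescale u f) e := by
  refine ⟨fun n => ?_, fun n hn => ?_, ?_⟩
  · rw [coeff_rescale, map_mul, map_pow, hu, one_pow, one_mul]; exact h.1 n
  · rw [coeff_rescale, map_mul, map_pow, hu, one_pow, one_mul]; exact h.2.1 n hn
  · rw [coeff_rescale, map_mul, map_pow, hu, one_pow, one_mul]; exact h.2.2

theorem ldk_lowAt_rescale {f : K⟦X⟧} {e : ℕ} {u : K} (hu : v u = 1) (h : ldc_LowAt v f e) :
    ldc_LowAt v (rescale u f) e := by
  obtain ⟨h1, h2, n0, h3⟩ := h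
  refine ⟨fun n => ?_, fun n hn => ?_, n0, ?_⟩
  · rw [coeff_rescale, map_mul, map_pow, hu, one_pow, one_mul]; exact h1 n
  · rw [coeff_rescale, map_mul, map_pow, hu, one_pow, one_mul]; exact h2 n hn
  · rw [coeff_rescale, map_mul, map_pow, hu, one_pow, one_mul]; exact h3

/-- Adding a `v`-integral series whose coefficients up to `e` lie in the maximal ideal does not
change the leading exponent `e`. -/
theorem ldk_leadAt_add {f g : K⟦X⟧} {e : ℕ} (h : ldc_LeadAt v f e)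
    (hg : ∀ n, v (coeff n g) ≤ 1) (hg' : ∀ n ≤ e, v (coeff n g) < 1) :
    ldc_LeadAt v (f + g) e := by
  refine ⟨fun n => ?_, fun n hn => ?_, ?_⟩
  · rw [map_add]; exact v.map_add_le (h.1 n) (hg n)
  · rw [map_add]; exact v.map_add_lt (h.2.1 n hn) (hg' n hn.le)
  · rw [map_add, v.map_add_eq_of_lt_left]
    · exact h.2.2
    · rw [h.2.2]; exact hg' e le_rfl

/-- `ldc_LowAt` from a unit coefficient. -/
theorem ldk_lowAt_of_coeff {f : K⟦X⟧} {e : ℕ} (hint : ∀ n, v (coeff n f) ≤ 1)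
    (hlow : ∀ n < e, v (coeff n f) < 1) (n0 : ℕ) (h0 : v (coeff n0 f) = 1) : ldc_LowAt v f e :=
  ⟨hint, hlow, n0, h0⟩

/-! ### The classes `(some i, some j)` and `(some i, none)` -/

/-- Class `(some i, some j)`: `φ = c⁻¹ (-H(z X^r) - ρ⁻¹ Y(w X^p))`, with `H = 1 + …`,
`Y = 1 + …`, the higher coefficients of `c⁻¹ H` and `c⁻¹ ρ⁻¹ Y` being `v`-integral, and
`c⁻¹ (1 + ρ⁻¹)` a `v`-unit.  Then `φ` has leading exponent `0`. -/
theorem ldk_cls_ss (c ρ : K) (r p : ℕ) (z w : K) (h y : ℕ → K) (φ : K⟦X⟧)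
    (hφ : ∀ m, coeff m φ = c⁻¹ * (-(if r ∣ m then z ^ (m / r) * h (m / r) else 0)
        - ρ⁻¹ * (if p ∣ m then w ^ (m / p) * y (m / p) else 0)))
    (hr : 0 < r) (hp : 0 < p)
    (hz : v z = 1) (hw : v w = 1) (h0 : h 0 = 1) (y0 : y 0 = 1)
    (hh : ∀ n, 0 < n → v (c⁻¹ * h n) ≤ 1)
    (hy : ∀ n, 0 < n → v (c⁻¹ * ρ⁻¹ * y n) ≤ 1)
    (hconst : v (c⁻¹ * (1 + ρ⁻¹)) = 1) : ldc_LeadAt v φ 0 := by
  have hc0 : coeff 0 φ = -(c⁻¹ * (1 + ρ⁻¹)) := by
    rw [hφ 0]
    simp only [dvd_zero, if_true, Nat.zero_div, pow_zero, one_mul, h0, y0]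
    ring
  apply ldc_leadAt_zero_of_unit
  · intro m
    rcases Nat.eq_zero_or_pos m with rfl | hm
    · rw [hc0, v.map_neg, hconst]
    · rw [hφ m, mul_sub, mul_neg]
      apply v.map_sub_le
      · rw [v.map_neg]
        split_ifs with hd
        · have hpos : 0 < m / r := Nat.div_pos (Nat.le_of_dvd hm hd) hr
          have : c⁻¹ * (z ^ (m / r) * h (m / r)) = z ^ (m / r) * (c⁻¹ * h (m / r)) := by ring
          rw [this, map_mul, map_pow, hz, one_pow, one_mul]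
          exact hh _ hpos
        · simp
      · split_ifs with hd
        · have hpos : 0 < m / p := Nat.div_pos (Nat.le_of_dvd hm hd) hp
          have : c⁻¹ * (ρ⁻¹ * (w ^ (m / p) * y (m / p)))
              = w ^ (m / p) * (c⁻¹ * ρ⁻¹ * y (m / p)) := by ring
          rw [this, map_mul, map_pow, hw, one_pow, one_mul]
          exact hy _ hpos
        · simp
  · rw [hc0, v.map_neg, hconst]

/-- Class `(some i, none)`: `φ = c⁻¹ (π G(X^N) - ρ⁻¹ Y(w X^p))` with `0 < p < N`, `G = 1 + …`,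
`Y = 1 + …`.  It is `v`-integral, and its coefficient at `X^p` is a unit. -/
theorem ldk_cls_sn (c ρ π : K) (N p : ℕ) (w : K) (a y : ℕ → K) (φ : K⟦X⟧)
    (hφ : ∀ m, coeff m φ = c⁻¹ * (π * (if N ∣ m then a (m / N) else 0)
        - ρ⁻¹ * (if p ∣ m then w ^ (m / p) * y (m / p) else 0)))
    (hp : 0 < p) (hpN : p < N)
    (hw : v w = 1) (a0 : a 0 = 1) (y0 : y 0 = 1)
    (ha : ∀ n, 0 < n → v (c⁻¹ * π * a n) ≤ 1)
    (hy : ∀ n, 0 < n → v (c⁻¹ * ρ⁻¹ * y n) ≤ 1)
    (hy1 : v (c⁻¹ * ρ⁻¹ * y 1) = 1)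
    (hconst : v (c⁻¹ * (π - ρ⁻¹)) ≤ 1) : ldc_LowAt v φ 0 := by
  have hN : 0 < N := lt_trans hp hpN
  refine ldk_lowAt_of_coeff (fun m => ?_) (fun n hn => absurd hn (Nat.not_lt_zero n)) p ?_
  · rcases Nat.eq_zero_or_pos m with rfl | hm
    · rw [hφ 0]
      simp only [dvd_zero, if_true, Nat.zero_div, pow_zero, a0, y0, mul_one]
      exact hconst
    · rw [hφ m, mul_sub]
      apply v.map_sub_le
      · split_ifs with hd
        · have hpos : 0 < m / N := Nat.div_pos (Nat.le_of_dvd hm hd) hN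
          rw [← mul_assoc]
          exact ha _ hpos
        · simp
      · split_ifs with hd
        · have hpos : 0 < m / p := Nat.div_pos (Nat.le_of_dvd hm hd) hp
          have : c⁻¹ * (ρ⁻¹ * (w ^ (m / p) * y (m / p)))
              = w ^ (m / p) * (c⁻¹ * ρ⁻¹ * y (m / p)) := by ring
          rw [this, map_mul, map_pow, hw, one_pow, one_mul]
          exact hy _ hpos
        · simp
  · have hNp : ¬ N ∣ p := Nat.not_dvd_of_pos_of_lt hp hpN
    rw [hφ p, if_neg hNp, if_pos (dvd_refl p), Nat.div_self hp, pow_one, mul_zero, zero_sub,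
      mul_neg, v.map_neg]
    have : c⁻¹ * (ρ⁻¹ * (w * y 1)) = w * (c⁻¹ * ρ⁻¹ * y 1) := by ring
    rw [this, map_mul, hw, one_mul, hy1]

end Fermat.Agent.S16U
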