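import Fermat.Agent.S16.LevelOne.Place

/-!
# S16 stream [B]: the predicate `x ∈ ℓ^e ℤ_(ℓ)` on complex numbers

`s16ca_Zl ℓ e x := ∃ (a : ℤ) (s : ℕ), ¬ ℓ ∣ s ∧ s * x = ℓ^e * a`.

Bridges to a place `B` of `ℂ` above `ℓ` (`LevelOne/Place.lean`): such an `x` is `ℓ^e * y` with
`y ∈ B`; in particular `x ∈ B`, and `x` lies in the maximal ideal if `0 < e`.
-/

set_option autoImplicit false

namespace Fermat.Agent.S16x

open Fermat.Agent.S16C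

/-- `x ∈ ℓ^e ℤ_(ℓ)` -/
def s16ca_Zl (l e : ℕ) (x : ℂ) : Prop :=
  ∃ (a : ℤ) (s : ℕ), ¬ l ∣ s ∧ (s : ℂ) * x = (l : ℂ) ^ e * (a : ℂ)

theorem s16ca_Zl_zero (l e : ℕ) (hl : l.Prime) : s16ca_Zl l e 0 :=
  ⟨0, 1, by simpa using hl.one_lt.ne', by simp⟩

/-- integers divisible by `ℓ^e`. -/
theorem s16ca_Zl_of_int (l e : ℕ) (hl : l.Prime) (a : ℤ) :
    s16ca_Zl l e ((l : ℂ) ^ e * (a : ℂ)) :=
  ⟨a, 1, by simpa using hl.one_lt.ne', by simp⟩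

theorem s16ca_Zl_mono {l e e' : ℕ} (h : e' ≤ e) {x : ℂ} (hx : s16ca_Zl l e x) :
    s16ca_Zl l e' x := by
  obtain ⟨a, s, hs, hx⟩ := hx
  refine ⟨(l : ℤ) ^ (e - e') * a, s, hs, ?_⟩
  rw [hx]
  push_cast
  rw [← mul_assoc, ← pow_add, Nat.add_sub_cancel' h]

theorem s16ca_Zl_add {l e : ℕ} (hl : l.Prime) {x y : ℂ} (hx : s16ca_Zl l e x)
    (hy : s16ca_Zl l e y) : s16ca_Zl l e (x + y) := by
  obtain ⟨a, s, hs, hx⟩ := hx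
  obtain ⟨b, t, ht, hy⟩ := hy
  refine ⟨t * a + s * b, s * t, ?_, ?_⟩
  · intro h
    rcases (Nat.Prime.dvd_mul hl).mp h with h | h
    · exact hs h
    · exact ht h
  · push_cast
    linear_combination (t : ℂ) * hx + (s : ℂ) * hy

theorem s16ca_Zl_int_mul {l e : ℕ} (m : ℤ) {x : ℂ} (hx : s16ca_Zl l e x) :
    s16ca_Zl l e ((m : ℂ) * x) := by
  obtain ⟨a, s, hs, hx⟩ := hx
  refine ⟨m * a, s, hs, ?_⟩
  push_cast
  linear_combination (m : ℂ) * hx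

section Place

variable {B : ValuationSubring ℂ} {l : ℕ} (hl : l.Prime) (hB : ((l : ℕ) : ℂ) ∈ B.nonunits)

include hl hB

/-- an element of `ℓ^e ℤ_(ℓ)` is `ℓ^e` times an element of `B`. -/
theorem s16ca_Zl_exists_mul {e : ℕ} {x : ℂ} (hx : s16ca_Zl l e x) :
    ∃ y ∈ B, x = (l : ℂ) ^ e * y := by
  obtain ⟨a, s, hs, hx⟩ := hx
  have hs0 : (s : ℂ) ≠ 0 := by
    intro h0
    have : s = 0 := by exact_mod_cast h0
    exact hs (this ▸ dvd_zero l)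
  have hsinv : ((s : ℤ) : ℂ)⁻¹ ∈ B :=
    lvP_inv_mem_of_not_dvd hl hB (s : ℤ) (by rwa [Int.natCast_dvd_natCast])
  refine ⟨(a : ℂ) * ((s : ℤ) : ℂ)⁻¹, B.mul_mem _ _ (lvP_int_mem B a) hsinv, ?_⟩
  have : x = (s : ℂ)⁻¹ * ((l : ℂ) ^ e * (a : ℂ)) := by
    rw [← hx, ← mul_assoc, inv_mul_cancel₀ hs0, one_mul]
  rw [this]
  push_cast
  ring

theorem s16ca_Zl_mem {e : ℕ} {x : ℂ} (hx : s16ca_Zl l e x) : x ∈ B := by
  obtain ⟨y, hy, rfl⟩ := s16ca_Zl_exists_mul hl hB hx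
  exact B.mul_mem _ _ (B.pow_mem (lvP_nat_mem B l) e) hy

theorem s16ca_Zl_mem_mI {e : ℕ} (he : 0 < e) {x : ℂ} (hx : s16ca_Zl l e x) : x ∈ lvP_mI B := by
  obtain ⟨y, hy, rfl⟩ := s16ca_Zl_exists_mul hl hB hx
  obtain ⟨e', rfl⟩ : ∃ e', e = e' + 1 := ⟨e - 1, by omega⟩
  rw [pow_succ, mul_assoc]
  refine lvP_mul_mem_mI B (B.pow_mem (lvP_nat_mem B l) e') ?_
  exact lvP_mul_mem_mI' B hB hy

end Place

end Fermat.Agent.S16x
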