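import Mathlib
import Fermat.Agent.S16.Up.LeadCls
import Fermat.Agent.S16.Up.Zl

/-!
# S16 (UP engine): the four conjugate classes of `g = c⁻¹ (p G + Y_r)`, numerically

Part 1 (any valued field): the formal class lemmas for `(none, none)` (`ldp_cls_nn`) and
`(none, some j)` (`ldp_cls_ns`), complementing `ldk_cls_sn`, `ldk_cls_ss` of `LeadCls.lean`.

Part 2 (`K = ℂ`, `v = B.valuation` for a valuation subring `B` of `ℂ` above the prime `l`):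
the hypotheses of the four class lemmas are derived from the arithmetic data
`ldp_Num l e r` (`c = l^(e-1)`, `r` an `l`-unit, `24 = u c (r-1)`, `r + 1 = u' c` with `l`-units
`u, u'`), `c ∣ p + 1`, the coefficients `a n`, `h n` of `G`, `H = U_p G` in `l^e ℤ_(l)`
(`s16ca_Zl l e`), and `y n = (24/(r-1)) t n`, `t 1 = 1`:

* `ldp_place_nn` : class `(none, none)`, `ldc_LowAt B.valuation φ 0`;
* `ldp_place_ns` : class `(none, some j)`, `ldc_LeadAt B.valuation φ (r * p)`;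
* `ldp_place_sn` : class `(some i, none)`, `ldc_LowAt B.valuation φ 0`;
* `ldp_place_ss` : class `(some i, some j)`, `ldc_LeadAt B.valuation φ 0`.

The three cases of the plan: `ldp_num_U1` (`l ≥ 5`, `r = 2`, `e = 1`), `ldp_num_U2`
(`l = 3`, `r = 2`, `e = 2`), `ldp_num_U4` (`l = 2`, `r = 3`, `e = 3`).
-/

set_option autoImplicit false

open PowerSeries

namespace Fermat.Agent.S16U

open Fermat.Agent.S16C Fermat.Agent.S16x

section Generic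

variable {K : Type*} [Field K] {Γ₀ : Type*} [LinearOrderedCommGroupWithZero Γ₀]
  {v : Valuation K Γ₀}

/-- Class `(none, none)`: `φ = c⁻¹ (π G + Y)(X^N)`; `v`-integral with a unit coefficient at
`X^N`. -/
theorem ldp_cls_nn (c π : K) (N : ℕ) (a y : ℕ → K) (φ : K⟦X⟧)
    (hφ : ∀ m, coeff m φ = if N ∣ m then c⁻¹ * (π * a (m / N) + y (m / N)) else 0)
    (hN : 0 < N) (a0 : a 0 = 1) (y0 : y 0 = 1)
    (ha : ∀ n, 0 < n → v (c⁻¹ * π * a n) < 1)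
    (hy : ∀ n, 0 < n → v (c⁻¹ * y n) ≤ 1) (hy1 : v (c⁻¹ * y 1) = 1)
    (hconst : v (c⁻¹ * (π + 1)) ≤ 1) : ldc_LowAt v φ 0 := by
  have key : ∀ n, 0 < n → c⁻¹ * (π * a n + y n) = c⁻¹ * π * a n + c⁻¹ * y n := fun n _ => by ring
  refine ldk_lowAt_of_coeff (fun m => ?_) (fun n hn => absurd hn (Nat.not_lt_zero n)) N ?_
  · rw [hφ m]
    split_ifs with hd
    · obtain ⟨n, rfl⟩ := hd
      rw [Nat.mul_div_cancel_left _ hN]
      rcases Nat.eq_zero_or_pos n with rfl | hn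
      · rw [a0, y0, mul_one]; exact hconst
      · rw [key n hn]
        exact v.map_add_le (ha n hn).le (hy n hn)
    · simp
  · rw [hφ N, if_pos (dvd_refl N), Nat.div_self hN, key 1 Nat.one_pos,
      v.map_add_eq_of_lt_right, hy1]
    rw [hy1]; exact ha 1 Nat.one_pos

/-- Class `(none, some j)`: `φ = c⁻¹ (Y(X^(r p)) - H(z X^r))`; leading exponent exactly `r p`. -/
theorem ldp_cls_ns (c : K) (r p : ℕ) (z : K) (h y : ℕ → K) (φ : K⟦X⟧)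
    (hφ : ∀ m, coeff m φ = c⁻¹ * ((if r * p ∣ m then y (m / (r * p)) else 0)
        - (if r ∣ m then z ^ (m / r) * h (m / r) else 0)))
    (hr : 0 < r) (hp : 0 < p) (hz : v z = 1) (h0 : h 0 = 1) (y0 : y 0 = 1)
    (hh : ∀ n, 0 < n → v (c⁻¹ * h n) < 1)
    (hy : ∀ n, 0 < n → v (c⁻¹ * y n) ≤ 1) (hy1 : v (c⁻¹ * y 1) = 1) :
    ldc_LeadAt v φ (r * p) := by
  have hN : 0 < r * p := Nat.mul_pos hr hp
  -- the `H`-part has all its positive-index coefficients in the maximal ideal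
  have hH : ∀ m, 0 < m → v (c⁻¹ * (if r ∣ m then z ^ (m / r) * h (m / r) else 0)) < 1 := by
    intro m hm
    split_ifs with hd
    · have hpos : 0 < m / r := Nat.div_pos (Nat.le_of_dvd hm hd) hr
      have : c⁻¹ * (z ^ (m / r) * h (m / r)) = z ^ (m / r) * (c⁻¹ * h (m / r)) := by ring
      rw [this, map_mul, map_pow, hz, one_pow, one_mul]
      exact hh _ hpos
    · simp
  have hY : ∀ m, 0 < m → v (c⁻¹ * (if r * p ∣ m then y (m / (r * p)) else 0)) ≤ 1 := by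
    intro m hm
    split_ifs with hd
    · exact hy _ (Nat.div_pos (Nat.le_of_dvd hm hd) hN)
    · simp
  have hc0 : coeff 0 φ = 0 := by
    rw [hφ 0]
    simp [h0, y0]
  refine ⟨fun m => ?_, fun m hm => ?_, ?_⟩
  · rcases Nat.eq_zero_or_pos m with rfl | hm
    · rw [hc0]; simp
    · rw [hφ m, mul_sub]
      exact v.map_sub_le (hY m hm) (hH m hm).le
  · rcases Nat.eq_zero_or_pos m with rfl | hm0
    · rw [hc0]; simp
    · have hnd : ¬ r * p ∣ m := Nat.not_dvd_of_pos_of_lt hm0 hm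
      rw [hφ m, if_neg hnd, zero_sub, mul_neg, v.map_neg]
      exact hH m hm0
  · rw [hφ (r * p), if_pos (dvd_refl _), Nat.div_self hN, mul_sub, sub_eq_add_neg,
      v.map_add_eq_of_lt_left, hy1]
    rw [hy1, v.map_neg]
    exact hH (r * p) hN

end Generic

/-! ### Valuation facts at a place above `l` -/

section Place

variable {B : ValuationSubring ℂ} {l : ℕ} (hl : l.Prime) (hB : ((l : ℕ) : ℂ) ∈ B.nonunits)

include hl hB

omit hl in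
theorem ldp_val_l : B.valuation (l : ℂ) < 1 := B.mem_nonunits_iff.mp hB

theorem ldp_val_nat_unit (s : ℕ) (hs : ¬ l ∣ s) : B.valuation (s : ℂ) = 1 := by
  refine le_antisymm (ldk_natCast_le_one s) (not_lt.mp fun h => hs ?_)
  exact (lvP_nat_mem_mI_iff hl hB s).mp ((lvP_mem_mI_iff_val B).mpr h)

omit hl hB in
theorem ldp_val_root {z : ℂ} {n : ℕ} (hn : 0 < n) (hz : z ^ n = 1) : B.valuation z = 1 := by
  refine le_antisymm ((B.valuation_le_one_iff z).mpr (lvP_mem_of_pow_eq_one B hn hz))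
    (not_lt.mp fun h => ?_)
  exact lvP_not_mem_mI_of_pow_eq_one B hn hz ((lvP_mem_mI_iff_val B).mpr h)

/-- `c⁻¹ x` lies in the maximal ideal for `x ∈ l^e ℤ_(l)`, `c = l^(e-1)`, `e ≥ 1`. -/
theorem ldp_val_Zl {e : ℕ} (he : 1 ≤ e) {x : ℂ} (hx : s16ca_Zl l e x) :
    B.valuation (((l : ℂ) ^ (e - 1))⁻¹ * x) < 1 := by
  obtain ⟨y, hy, rfl⟩ := s16ca_Zl_exists_mul hl hB hx
  have hl0 : (l : ℂ) ≠ 0 := by exact_mod_cast hl.ne_zero
  have : ((l : ℂ) ^ (e - 1))⁻¹ * ((l : ℂ) ^ e * y) = (l : ℂ) * y := by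
    obtain ⟨e', rfl⟩ : ∃ e', e = e' + 1 := ⟨e - 1, by omega⟩
    rw [Nat.add_sub_cancel, pow_succ]
    field_simp
  rw [this, map_mul]
  calc B.valuation (l : ℂ) * B.valuation y ≤ B.valuation (l : ℂ) * 1 :=
        mul_le_mul_right ((B.valuation_le_one_iff y).mpr hy) _
    _ = B.valuation (l : ℂ) := mul_one _
    _ < 1 := ldp_val_l hB

end Place

/-! ### The arithmetic data -/

/-- The arithmetic data of a case `(l, e, r)`: `c = l^(e-1)`, `r` is an `l`-unit,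
`24/(r-1) = u c` and `r + 1 = u' c` with `l`-units `u`, `u'`. -/
structure ldp_Num (l e r : ℕ) : Prop where
  he : 1 ≤ e
  hr : 2 ≤ r
  hlr : ¬ l ∣ r
  hK : ∃ u : ℕ, ¬ l ∣ u ∧ 24 = u * l ^ (e - 1) * (r - 1)
  hr1 : ∃ u : ℕ, ¬ l ∣ u ∧ r + 1 = u * l ^ (e - 1)

/-- Case (U1): `l ≥ 5`, `r = 2`, `e = 1`, `c = 1`. -/
theorem ldp_num_U1 {l : ℕ} (hl : l.Prime) (h5 : 5 ≤ l) : ldp_Num l 1 2 := by
  have h2 : ¬ l ∣ 2 := fun h => by have := Nat.le_of_dvd (by norm_num) h; omega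
  have h3 : ¬ l ∣ 3 := fun h => by have := Nat.le_of_dvd (by norm_num) h; omega
  have h24 : ¬ l ∣ 24 := by
    intro h
    have h' : l ∣ 2 ^ 3 * 3 := by norm_num; exact h
    rcases (Nat.Prime.dvd_mul hl).mp h' with h'' | h''
    · exact h2 (hl.dvd_of_dvd_pow h'')
    · exact h3 h''
  exact ⟨le_rfl, le_rfl, h2, ⟨24, h24, by norm_num⟩, ⟨3, h3, by norm_num⟩⟩

/-- Case (U2): `l = 3`, `r = 2`, `e = 2`, `c = 3`. -/
theorem ldp_num_U2 : ldp_Num 3 2 2 :=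
  ⟨by norm_num, le_rfl, by norm_num, ⟨8, by norm_num, by norm_num⟩, ⟨1, by norm_num, by norm_num⟩⟩

/-- Case (U4): `l = 2`, `r = 3`, `e = 3`, `c = 4`. -/
theorem ldp_num_U4 : ldp_Num 2 3 3 :=
  ⟨by norm_num, by norm_num, by norm_num, ⟨3, by norm_num, by norm_num⟩,
    ⟨1, by norm_num, by norm_num⟩⟩

/-! ### The four classes at a place above `l` -/

section Classes

variable {B : ValuationSubring ℂ} {l e r : ℕ} (hl : l.Prime) (hB : ((l : ℕ) : ℂ) ∈ B.nonunits)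
  (Nm : ldp_Num l e r)

include hl hB Nm

omit hB in
/-- `c⁻¹ y n = u t n` with `u` an `l`-unit integer. -/
theorem ldp_y_eq (y : ℕ → ℂ) (t : ℕ → ℤ)
    (hy : ∀ n, 0 < n → y n = (24 / ((r : ℂ) - 1)) * (t n : ℂ)) :
    ∃ u : ℕ, ¬ l ∣ u ∧ ∀ n, 0 < n → ((l : ℂ) ^ (e - 1))⁻¹ * y n = (u : ℂ) * (t n : ℂ) := by
  obtain ⟨u, hu, h24⟩ := Nm.hK
  refine ⟨u, hu, fun n hn => ?_⟩
  have hl0 : (l : ℂ) ≠ 0 := by exact_mod_cast hl.ne_zero
  have hr1 : ((r : ℂ) - 1) ≠ 0 := by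
    have : (2 : ℝ) ≤ r := by exact_mod_cast Nm.hr
    intro h
    have h' : (r : ℂ) = 1 := by linear_combination h
    have : (r : ℕ) = 1 := by exact_mod_cast h'
    have := Nm.hr
    omega
  have h24' : (24 : ℂ) = (u : ℂ) * (l : ℂ) ^ (e - 1) * ((r : ℂ) - 1) := by
    have hcast : ((r - 1 : ℕ) : ℂ) = (r : ℂ) - 1 := by
      rw [Nat.cast_sub (by have := Nm.hr; omega)]; simp
    rw [← hcast]
    exact_mod_cast h24
  rw [hy n hn, h24']
  field_simp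

/-- Class `(none, none)`. -/
theorem ldp_place_nn (p : ℕ) (hp1 : l ^ (e - 1) ∣ p + 1) (a y : ℕ → ℂ) (t : ℕ → ℤ)
    (a0 : a 0 = 1) (y0 : y 0 = 1) (ha : ∀ n, 0 < n → s16ca_Zl l e (a n))
    (hy : ∀ n, 0 < n → y n = (24 / ((r : ℂ) - 1)) * (t n : ℂ)) (t1 : t 1 = 1)
    (N : ℕ) (hN : 0 < N) (φ : ℂ⟦X⟧)
    (hφ : ∀ m, coeff m φ = if N ∣ m then
      ((l : ℂ) ^ (e - 1))⁻¹ * ((p : ℂ) * a (m / N) + y (m / N)) else 0) :
    ldc_LowAt B.valuation φ 0 := by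
  obtain ⟨u, hu, hyu⟩ := ldp_y_eq hl Nm y t hy
  have hl0 : (l : ℂ) ≠ 0 := by exact_mod_cast hl.ne_zero
  refine ldp_cls_nn _ (p : ℂ) N a y φ hφ hN a0 y0 (fun n hn => ?_) (fun n hn => ?_) ?_ ?_
  · have : ((l : ℂ) ^ (e - 1))⁻¹ * (p : ℂ) * a n = (p : ℂ) * (((l : ℂ) ^ (e - 1))⁻¹ * a n) := by
      ring
    rw [this, map_mul]
    calc B.valuation (p : ℂ) * B.valuation (((l : ℂ) ^ (e - 1))⁻¹ * a n)
        ≤ 1 * B.valuation (((l : ℂ) ^ (e - 1))⁻¹ * a n) :=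
          mul_le_mul_left (ldk_natCast_le_one p) _
      _ = B.valuation (((l : ℂ) ^ (e - 1))⁻¹ * a n) := one_mul _
      _ < 1 := ldp_val_Zl hl hB Nm.he (ha n hn)
  · rw [hyu n hn]
    have : (u : ℂ) * (t n : ℂ) = ((u * t n : ℤ) : ℂ) := by push_cast; ring
    rw [this]; exact ldk_intCast_le_one _
  · rw [hyu 1 Nat.one_pos, t1, Int.cast_one, mul_one]
    exact ldp_val_nat_unit hl hB u hu
  · obtain ⟨q, hq⟩ := hp1
    have hq' : (p : ℂ) + 1 = (l : ℂ) ^ (e - 1) * (q : ℂ) := by exact_mod_cast hq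
    have : ((l : ℂ) ^ (e - 1))⁻¹ * ((p : ℂ) + 1) = (q : ℂ) := by
      rw [hq']; field_simp
    rw [this]; exact ldk_natCast_le_one q

/-- Class `(none, some j)`: leading exponent exactly `r p`. -/
theorem ldp_place_ns (p : ℕ) (hp : 0 < p) (z : ℂ) {nz : ℕ} (hnz : 0 < nz) (hz : z ^ nz = 1)
    (h y : ℕ → ℂ) (t : ℕ → ℤ)
    (h0 : h 0 = 1) (y0 : y 0 = 1) (hh : ∀ n, 0 < n → s16ca_Zl l e (h n))
    (hy : ∀ n, 0 < n → y n = (24 / ((r : ℂ) - 1)) * (t n : ℂ)) (t1 : t 1 = 1)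
    (φ : ℂ⟦X⟧)
    (hφ : ∀ m, coeff m φ = ((l : ℂ) ^ (e - 1))⁻¹ *
      ((if r * p ∣ m then y (m / (r * p)) else 0)
        - (if r ∣ m then z ^ (m / r) * h (m / r) else 0))) :
    ldc_LeadAt B.valuation φ (r * p) := by
  obtain ⟨u, hu, hyu⟩ := ldp_y_eq hl Nm y t hy
  have hr : 0 < r := by have := Nm.hr; omega
  refine ldp_cls_ns _ r p z h y φ hφ hr hp (ldp_val_root hnz hz) h0 y0
    (fun n hn => ldp_val_Zl hl hB Nm.he (hh n hn)) (fun n hn => ?_) ?_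
  · rw [hyu n hn]
    have : (u : ℂ) * (t n : ℂ) = ((u * t n : ℤ) : ℂ) := by push_cast; ring
    rw [this]; exact ldk_intCast_le_one _
  · rw [hyu 1 Nat.one_pos, t1, Int.cast_one, mul_one]
    exact ldp_val_nat_unit hl hB u hu

/-- Class `(some i, none)`. -/
theorem ldp_place_sn (p : ℕ) (hp : 0 < p) (hp1 : l ^ (e - 1) ∣ p + 1)
    (w : ℂ) {nw : ℕ} (hnw : 0 < nw) (hw : w ^ nw = 1) (a y : ℕ → ℂ) (t : ℕ → ℤ)
    (a0 : a 0 = 1) (y0 : y 0 = 1) (ha : ∀ n, 0 < n → s16ca_Zl l e (a n))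
    (hy : ∀ n, 0 < n → y n = (24 / ((r : ℂ) - 1)) * (t n : ℂ)) (t1 : t 1 = 1)
    (φ : ℂ⟦X⟧)
    (hφ : ∀ m, coeff m φ = ((l : ℂ) ^ (e - 1))⁻¹ *
      ((p : ℂ) * (if r * p ∣ m then a (m / (r * p)) else 0)
        - (r : ℂ)⁻¹ * (if p ∣ m then w ^ (m / p) * y (m / p) else 0))) :
    ldc_LowAt B.valuation φ 0 := by
  obtain ⟨u, hu, hyu⟩ := ldp_y_eq hl Nm y t hy
  obtain ⟨u', hu', hr1⟩ := Nm.hr1
  have hl0 : (l : ℂ) ≠ 0 := by exact_mod_cast hl.ne_zero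
  have hr2 := Nm.hr
  have hr0 : (r : ℂ) ≠ 0 := by
    have : r ≠ 0 := by omega
    exact_mod_cast this
  have hvr : B.valuation (r : ℂ) = 1 := ldp_val_nat_unit hl hB r Nm.hlr
  have hvri : B.valuation ((r : ℂ)⁻¹) = 1 := by rw [map_inv₀, hvr, inv_one]
  have hpN : p < r * p := by nlinarith
  refine ldk_cls_sn _ (r : ℂ) (p : ℂ) (r * p) p w a y φ hφ hp hpN (ldp_val_root hnw hw) a0 y0
    (fun n hn => ?_) (fun n hn => ?_) ?_ ?_
  · have : ((l : ℂ) ^ (e - 1))⁻¹ * (p : ℂ) * a n = (p : ℂ) * (((l : ℂ) ^ (e - 1))⁻¹ * a n) := by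
      ring
    rw [this, map_mul]
    calc B.valuation (p : ℂ) * B.valuation (((l : ℂ) ^ (e - 1))⁻¹ * a n)
        ≤ 1 * B.valuation (((l : ℂ) ^ (e - 1))⁻¹ * a n) :=
          mul_le_mul_left (ldk_natCast_le_one p) _
      _ = B.valuation (((l : ℂ) ^ (e - 1))⁻¹ * a n) := one_mul _
      _ ≤ 1 := (ldp_val_Zl hl hB Nm.he (ha n hn)).le
  · have : ((l : ℂ) ^ (e - 1))⁻¹ * (r : ℂ)⁻¹ * y n
        = (r : ℂ)⁻¹ * (((l : ℂ) ^ (e - 1))⁻¹ * y n) := by ring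
    rw [this, hyu n hn, map_mul, hvri, one_mul]
    have : (u : ℂ) * (t n : ℂ) = ((u * t n : ℤ) : ℂ) := by push_cast; ring
    rw [this]; exact ldk_intCast_le_one _
  · have : ((l : ℂ) ^ (e - 1))⁻¹ * (r : ℂ)⁻¹ * y 1
        = (r : ℂ)⁻¹ * (((l : ℂ) ^ (e - 1))⁻¹ * y 1) := by ring
    rw [this, hyu 1 Nat.one_pos, t1, Int.cast_one, mul_one, map_mul, hvri, one_mul]
    exact ldp_val_nat_unit hl hB u hu
  · obtain ⟨q, hq⟩ := hp1
    have hq' : (p : ℂ) + 1 = (l : ℂ) ^ (e - 1) * (q : ℂ) := by exact_mod_cast hq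
    have hr1' : (r : ℂ) + 1 = (u' : ℂ) * (l : ℂ) ^ (e - 1) := by exact_mod_cast hr1
    have : ((l : ℂ) ^ (e - 1))⁻¹ * ((p : ℂ) - (r : ℂ)⁻¹)
        = (r : ℂ)⁻¹ * (((r : ℤ) * (q : ℤ) - (u' : ℤ) : ℤ) : ℂ) := by
      have hp' : (p : ℂ) = (l : ℂ) ^ (e - 1) * (q : ℂ) - 1 := by linear_combination hq'
      have hrr : (r : ℂ) = (u' : ℂ) * (l : ℂ) ^ (e - 1) - 1 := by linear_combination hr1'
      push_cast
      field_simp
      rw [hp']
      linear_combination (-1 : ℂ) * hr1'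
    rw [this, map_mul, hvri, one_mul]
    exact ldk_intCast_le_one _

/-- Class `(some i, some j)`: leading exponent `0`. -/
theorem ldp_place_ss (p : ℕ) (hp : 0 < p)
    (z : ℂ) {nz : ℕ} (hnz : 0 < nz) (hz : z ^ nz = 1)
    (w : ℂ) {nw : ℕ} (hnw : 0 < nw) (hw : w ^ nw = 1) (h y : ℕ → ℂ) (t : ℕ → ℤ)
    (h0 : h 0 = 1) (y0 : y 0 = 1) (hh : ∀ n, 0 < n → s16ca_Zl l e (h n))
    (hy : ∀ n, 0 < n → y n = (24 / ((r : ℂ) - 1)) * (t n : ℂ))
    (φ : ℂ⟦X⟧)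
    (hφ : ∀ m, coeff m φ = ((l : ℂ) ^ (e - 1))⁻¹ *
      (-(if r ∣ m then z ^ (m / r) * h (m / r) else 0)
        - (r : ℂ)⁻¹ * (if p ∣ m then w ^ (m / p) * y (m / p) else 0))) :
    ldc_LeadAt B.valuation φ 0 := by
  obtain ⟨u, hu, hyu⟩ := ldp_y_eq hl Nm y t hy
  obtain ⟨u', hu', hr1⟩ := Nm.hr1
  have hl0 : (l : ℂ) ≠ 0 := by exact_mod_cast hl.ne_zero
  have hr2 := Nm.hr
  have hr : 0 < r := by omega
  have hr0 : (r : ℂ) ≠ 0 := by
    have : r ≠ 0 := by omega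
    exact_mod_cast this
  have hvr : B.valuation (r : ℂ) = 1 := ldp_val_nat_unit hl hB r Nm.hlr
  have hvri : B.valuation ((r : ℂ)⁻¹) = 1 := by rw [map_inv₀, hvr, inv_one]
  refine ldk_cls_ss _ (r : ℂ) r p z w h y φ hφ hr hp (ldp_val_root hnz hz) (ldp_val_root hnw hw)
    h0 y0 (fun n hn => (ldp_val_Zl hl hB Nm.he (hh n hn)).le) (fun n hn => ?_) ?_
  · have : ((l : ℂ) ^ (e - 1))⁻¹ * (r : ℂ)⁻¹ * y n
        = (r : ℂ)⁻¹ * (((l : ℂ) ^ (e - 1))⁻¹ * y n) := by ring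
    rw [this, hyu n hn, map_mul, hvri, one_mul]
    have : (u : ℂ) * (t n : ℂ) = ((u * t n : ℤ) : ℂ) := by push_cast; ring
    rw [this]; exact ldk_intCast_le_one _
  · have hr1' : (r : ℂ) + 1 = (u' : ℂ) * (l : ℂ) ^ (e - 1) := by exact_mod_cast hr1
    have : ((l : ℂ) ^ (e - 1))⁻¹ * (1 + (r : ℂ)⁻¹) = (r : ℂ)⁻¹ * (u' : ℂ) := by
      field_simp
      linear_combination hr1'
    rw [this, map_mul, hvri, one_mul]
    exact ldp_val_nat_unit hl hB u' hu'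

end Classes

end Fermat.Agent.S16U
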