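/-
S16 stream [B], chunk (G-a) (helper16): the form `g = c⁻¹ (p G + Y)` on `Γ₀(r p)`, its conjugates
indexed by helper19's classifier `s16k_cls2`, and Mathlib's norm to level one as the explicit
four-type product.

* `s16g_restrict` : restriction of a modular form to a smaller subgroup (same function).
* `s16g_Gamma0_le` : `M ∣ N → Γ₀(N) ≤ Γ₀(M)`.
* `s16g_g r p G Y c : ModularForm (Γ₀(r p)) 2` with `⇑g = c⁻¹ • ((p:ℂ) • ⇑G + ⇑Y)`.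
* `s16g_F` : the class function `Option (ZMod r) × Option (ZMod p) → ℍ → ℂ`.
* `s16g_slash_eq` : `g ∣[2] γ = F (s16k_cls2 r p γ)` for all `γ : SL(2,ℤ)`, given the conjugates
  `G ∣[2] (S T^j) = PG j`, `Y ∣[2] (S T^i) = PY i` (helper22's (B2)).
* `s16g_coe_norm` : `⇑(ModularForm.norm 𝒮ℒ g)` = the four-type product.
* `s16g_normForm` : the norm as a `ModularForm 𝒮ℒ (2 * ((r+1) * (p+1)) : ℕ)` (natural weight).
-/
import Mathlib
import Fermat.Agent.S16.Up.CosetProd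

set_option autoImplicit false

open scoped MatrixGroups ModularForm
open Matrix.SpecialLinearGroup CongruenceSubgroup UpperHalfPlane ModularGroup
open Fermat.Agent.S16K

namespace Fermat.Agent.S16G

/-- restriction of a modular form to a smaller subgroup of `GL(2,ℝ)` (same underlying function) -/
def s16g_restrict {𝒢 𝒢' : Subgroup (GL (Fin 2) ℝ)} (h : 𝒢' ≤ 𝒢) {k : ℤ} (f : ModularForm 𝒢 k) :
    ModularForm 𝒢' k where
  toFun := f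
  slash_action_eq' γ hγ := f.slash_action_eq' γ (h hγ)
  holo' := f.holo'
  bdd_at_cusps' hc := f.bdd_at_cusps' (hc.mono h)

@[simp] lemma s16g_coe_restrict {𝒢 𝒢' : Subgroup (GL (Fin 2) ℝ)} (h : 𝒢' ≤ 𝒢) {k : ℤ}
    (f : ModularForm 𝒢 k) : (s16g_restrict h f : ℍ → ℂ) = f := rfl

/-- `Γ₀(N) ≤ Γ₀(M)` for `M ∣ N` -/
lemma s16g_Gamma0_le {M N : ℕ} (h : M ∣ N) : Gamma0 N ≤ Gamma0 M := by
  intro A hA
  rw [Gamma0_mem, ZMod.intCast_zmod_eq_zero_iff_dvd] at hA ⊢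
  exact dvd_trans (Int.natCast_dvd_natCast.mpr h) hA

lemma s16g_map_Gamma0_le {M N : ℕ} (h : M ∣ N) :
    ((Gamma0 N : Subgroup SL(2,ℤ)) : Subgroup (GL (Fin 2) ℝ)) ≤
      ((Gamma0 M : Subgroup SL(2,ℤ)) : Subgroup (GL (Fin 2) ℝ)) :=
  Subgroup.map_mono (s16g_Gamma0_le h)

/-- restriction from level `M` to level `N`, `M ∣ N` -/
def s16g_restrictLevel {M N : ℕ} (h : M ∣ N) {k : ℤ} (f : ModularForm (Gamma0 M) k) :
    ModularForm (Gamma0 N) k :=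
  s16g_restrict (s16g_map_Gamma0_le h) f

@[simp] lemma s16g_coe_restrictLevel {M N : ℕ} (h : M ∣ N) {k : ℤ}
    (f : ModularForm (Gamma0 M) k) : (s16g_restrictLevel h f : ℍ → ℂ) = f := rfl

variable (r p : ℕ)

/-- the form `g = c⁻¹ (p G + Y)` on `Γ₀(r p)` -/
noncomputable def s16g_g (G : ModularForm (Gamma0 p) 2) (Y : ModularForm (Gamma0 r) 2) (c : ℂ) :
    ModularForm (Gamma0 (r * p)) 2 :=
  c⁻¹ • ((p : ℂ) • s16g_restrictLevel (Dvd.intro_left r rfl) G +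
    s16g_restrictLevel (Dvd.intro p rfl) Y)

lemma s16g_coe_g (G : ModularForm (Gamma0 p) 2) (Y : ModularForm (Gamma0 r) 2) (c : ℂ) :
    (s16g_g r p G Y c : ℍ → ℂ) = c⁻¹ • ((p : ℂ) • (G : ℍ → ℂ) + (Y : ℍ → ℂ)) := rfl

/-- the class function: the conjugate of `g` attached to a class
`(x, y) ∈ Option (ZMod r) × Option (ZMod p)` -/
noncomputable def s16g_F (G Y : ℍ → ℂ) (PG PY : ℕ → ℍ → ℂ) (c : ℂ) :
    Option (ZMod r) × Option (ZMod p) → ℍ → ℂ :=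
  fun x => c⁻¹ • ((p : ℂ) • (x.2.elim G fun j => PG j.val) + (x.1.elim Y fun i => PY i.val))

variable {r p}

/-- the conjugate of a `Γ₀(q)`-invariant function under `γ` only depends on the class of `γ` -/
lemma s16g_slash_cls {q : ℕ} [Fact q.Prime] (G : ℍ → ℂ)
    (hGinv : ∀ δ ∈ Gamma0 q, G ∣[(2 : ℤ)] δ = G) (PG : ℕ → ℍ → ℂ)
    (hG : ∀ j : ℕ, G ∣[(2 : ℤ)] (S * T ^ (j : ℤ)) = PG j) (γ : SL(2,ℤ)) :
    G ∣[(2 : ℤ)] γ = (s16k_cls q γ).elim G fun j => PG j.val := by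
  rcases hcls : s16k_cls q γ with _ | j
  · rw [s16k_cls_eq_none_iff] at hcls
    simpa using hGinv γ hcls
  · have hq : q ≠ 0 := (Fact.out : q.Prime).ne_zero
    have : NeZero q := ⟨hq⟩
    have hj : (((j.val : ℕ) : ℤ) : ZMod q) = j := by
      rw [Int.cast_natCast, ZMod.natCast_zmod_val]
    rw [← hj, s16k_cls_eq_some_iff] at hcls
    obtain ⟨δ, hδ, rfl⟩ := hcls
    rw [SlashAction.slash_mul, hGinv δ hδ, hG]
    simp

/-- **the conjugates of `g`**: `g ∣[2] γ = F (cls2 γ)` -/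
theorem s16g_slash_eq [Fact r.Prime] [Fact p.Prime]
    (G : ModularForm (Gamma0 p) 2) (Y : ModularForm (Gamma0 r) 2) (c : ℂ)
    (PG PY : ℕ → ℍ → ℂ)
    (hG : ∀ j : ℕ, (G : ℍ → ℂ) ∣[(2 : ℤ)] (S * T ^ (j : ℤ)) = PG j)
    (hY : ∀ i : ℕ, (Y : ℍ → ℂ) ∣[(2 : ℤ)] (S * T ^ (i : ℤ)) = PY i) (γ : SL(2,ℤ)) :
    (s16g_g r p G Y c : ℍ → ℂ) ∣[(2 : ℤ)] γ = s16g_F r p G Y PG PY c (s16k_cls2 r p γ) := by
  have hGinv : ∀ δ ∈ Gamma0 p, (G : ℍ → ℂ) ∣[(2 : ℤ)] δ = G := fun δ hδ =>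
    SlashInvariantForm.slash_action_eqn G _ ⟨δ, hδ, rfl⟩
  have hYinv : ∀ δ ∈ Gamma0 r, (Y : ℍ → ℂ) ∣[(2 : ℤ)] δ = Y := fun δ hδ =>
    SlashInvariantForm.slash_action_eqn Y _ ⟨δ, hδ, rfl⟩
  rw [s16g_coe_g, ModularForm.SL_smul_slash, SlashAction.add_slash, ModularForm.SL_smul_slash,
    s16g_slash_cls (G : ℍ → ℂ) hGinv PG hG γ, s16g_slash_cls (Y : ℍ → ℂ) hYinv PY hY γ]
  rfl

/-- **the norm of `g` to level one as the four-type product** -/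
theorem s16g_coe_norm [Fact r.Prime] [Fact p.Prime] (hrp : r ≠ p)
    [((Gamma0 (r * p)).map (mapGL ℝ)).IsFiniteRelIndex 𝒮ℒ]
    (G : ModularForm (Gamma0 p) 2) (Y : ModularForm (Gamma0 r) 2) (c : ℂ)
    (PG PY : ℕ → ℍ → ℂ)
    (hG : ∀ j : ℕ, (G : ℍ → ℂ) ∣[(2 : ℤ)] (S * T ^ (j : ℤ)) = PG j)
    (hY : ∀ i : ℕ, (Y : ℍ → ℂ) ∣[(2 : ℤ)] (S * T ^ (i : ℤ)) = PY i) :
    (ModularForm.norm 𝒮ℒ (s16g_g r p G Y c) : ℍ → ℂ) =
      s16g_F r p G Y PG PY c (none, none) *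
        (∏ j : ZMod p, s16g_F r p G Y PG PY c (none, some j)) *
        (∏ i : ZMod r, s16g_F r p G Y PG PY c (some i, none)) *
        ∏ i : ZMod r, ∏ j : ZMod p, s16g_F r p G Y PG PY c (some i, some j) :=
  s16k_norm_two r p hrp (s16g_g r p G Y c) (s16g_F r p G Y PG PY c)
    (s16g_slash_eq G Y c PG PY hG hY)

/-- the same product over the whole index set -/
theorem s16g_coe_norm' [Fact r.Prime] [Fact p.Prime] (hrp : r ≠ p)
    [((Gamma0 (r * p)).map (mapGL ℝ)).IsFiniteRelIndex 𝒮ℒ]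
    (G : ModularForm (Gamma0 p) 2) (Y : ModularForm (Gamma0 r) 2) (c : ℂ)
    (PG PY : ℕ → ℍ → ℂ)
    (hG : ∀ j : ℕ, (G : ℍ → ℂ) ∣[(2 : ℤ)] (S * T ^ (j : ℤ)) = PG j)
    (hY : ∀ i : ℕ, (Y : ℍ → ℂ) ∣[(2 : ℤ)] (S * T ^ (i : ℤ)) = PY i) :
    (ModularForm.norm 𝒮ℒ (s16g_g r p G Y c) : ℍ → ℂ) =
      ∏ x : Option (ZMod r) × Option (ZMod p), s16g_F r p G Y PG PY c x :=
  s16k_norm_eq_prod (s16k_cls2_isCls r p hrp) (s16g_g r p G Y c) (s16g_F r p G Y PG PY c)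
    (s16g_slash_eq G Y c PG PY hG hY)

/-- the norm of `g` as a level-one form of natural-number weight `2 (r+1)(p+1)` -/
noncomputable def s16g_normForm [Fact r.Prime] [Fact p.Prime] (hrp : r ≠ p)
    [((Gamma0 (r * p)).map (mapGL ℝ)).IsFiniteRelIndex 𝒮ℒ]
    (g : ModularForm (Gamma0 (r * p)) 2) :
    ModularForm 𝒮ℒ ((2 * ((r + 1) * (p + 1)) : ℕ) : ℤ) :=
  ModularForm.mcast (by rw [s16k_card_two r p hrp]; push_cast; ring) (ModularForm.norm 𝒮ℒ g)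

lemma s16g_coe_normForm [Fact r.Prime] [Fact p.Prime] (hrp : r ≠ p)
    [((Gamma0 (r * p)).map (mapGL ℝ)).IsFiniteRelIndex 𝒮ℒ]
    (g : ModularForm (Gamma0 (r * p)) 2) :
    (s16g_normForm hrp g : ℍ → ℂ) = (ModularForm.norm 𝒮ℒ g : ℍ → ℂ) := rfl

end Fermat.Agent.S16G
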