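/-
S16 stream [B], chunk (G) ASSEMBLY (helper16): the generic norm contradiction.

`s16nc_contradiction` : for a form `g` on `Γ₀(r p)` whose norm to level one is `∏ x, F x` over the
classes `x ∈ Option (ZMod r) × Option (ZMod p)`, a place `B` of `ℂ`, and per-class period-`N`
expansions `φ x` (`N = r p`) which are `B`-integral, nonzero mod `𝔪_B` and of `X`-order at least
`e x` mod `𝔪_B` (`ldc_LowAt`), with `N d ≤ ∑ e x` and `(2 (r+1)(p+1)) / 12 < d`: contradiction.
The three outputs of the analytic `q_N`-engine are explicit hypotheses (`hφ`, `hmul`, `hexp`).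
-/
import Mathlib
import Fermat.Agent.S16.Up.GForm
import Fermat.Agent.S16.Up.LeadCore
import Fermat.Agent.S16.LevelOne.Place
import Fermat.Agent.S16.LevelOne.SturmMain

set_option autoImplicit false

open scoped MatrixGroups ModularForm
open Matrix.SpecialLinearGroup CongruenceSubgroup UpperHalfPlane ModularGroup PowerSeries
open Fermat.Agent.S16K Fermat.Agent.S16G Fermat.Agent.S16U Fermat.Agent.S16C

namespace Fermat.Agent.S16NC

/-- **generic norm contradiction** (abstract in the level-one form `Φform`). -/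
theorem s16nc_contradiction_core {ι : Type*} [Fintype ι] (B : ValuationSubring ℂ)
    (N d k : ℕ) (hN : 0 < N) (Φform : ModularForm 𝒮ℒ (k : ℤ))
    (F : ι → ℍ → ℂ) (hnorm : (Φform : ℍ → ℂ) = ∏ x, F x)
    (φ : ι → PowerSeries ℂ) (e : ι → ℕ)
    (hφ : ∀ x, qExpansion (N : ℝ) (F x) = φ x)
    (hmul : qExpansion (N : ℝ) (∏ x, F x) = ∏ x, qExpansion (N : ℝ) (F x))
    (hexp : ∀ m, (qExpansion (N : ℝ) Φform).coeff m =
      if N ∣ m then (qExpansion 1 Φform).coeff (m / N) else 0)
    (hlead : ∀ x, ldc_LowAt B.valuation (φ x) (e x))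
    (hsum : N * d ≤ ∑ x, e x) (hd : k / 12 < d) : False := by
  refine ldc_contradiction_low (v := B.valuation) N d k hN φ e (qExpansion 1 Φform) hlead ?_ hsum ?_ hd
  · intro m
    rw [← hexp m, hnorm, hmul]
    simp only [hφ]
  · intro h n
    have h' : ∀ n ≤ k / 12, (qExpansion 1 Φform).coeff n ∈ lvP_mI B := fun n hn =>
      (lvP_mem_mI_iff_val B).mpr (h n hn)
    exact (lvP_mem_mI_iff_val B).mp (lvS_coeff_mem (lvP_mI B) Φform h' n)

/-- **generic norm contradiction at level `r p`**: specialisation to the norm form of `g`. -/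
theorem s16nc_contradiction {r p : ℕ} [Fact r.Prime] [Fact p.Prime] (hrp : r ≠ p)
    (B : ValuationSubring ℂ) (g : ModularForm (Gamma0 (r * p)) 2)
    (F : Option (ZMod r) × Option (ZMod p) → ℍ → ℂ)
    (hnorm : (ModularForm.norm 𝒮ℒ g : ℍ → ℂ) = ∏ x, F x)
    (φ : Option (ZMod r) × Option (ZMod p) → PowerSeries ℂ)
    (e : Option (ZMod r) × Option (ZMod p) → ℕ) (d : ℕ)
    (hφ : ∀ x, qExpansion ((r * p : ℕ) : ℝ) (F x) = φ x)
    (hmul : qExpansion ((r * p : ℕ) : ℝ) (∏ x, F x) = ∏ x, qExpansion ((r * p : ℕ) : ℝ) (F x))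
    (hexp : ∀ m, (qExpansion ((r * p : ℕ) : ℝ) (s16g_normForm hrp g)).coeff m =
      if r * p ∣ m then (qExpansion 1 (s16g_normForm hrp g)).coeff (m / (r * p)) else 0)
    (hlead : ∀ x, ldc_LowAt B.valuation (φ x) (e x))
    (hsum : r * p * d ≤ ∑ x, e x) (hd : (2 * ((r + 1) * (p + 1))) / 12 < d) : False :=
  s16nc_contradiction_core B (r * p) d (2 * ((r + 1) * (p + 1)))
    (Nat.mul_pos (Fact.out : r.Prime).pos (Fact.out : p.Prime).pos)
    (s16g_normForm hrp g) F ((s16g_coe_normForm hrp g).trans hnorm) φ e hφ hmul hexp hlead hsum hd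

/-- the exponent function: `N` on the `p` classes `(none, some j)`, `0` elsewhere -/
def s16nc_e (r p N : ℕ) : Option (ZMod r) × Option (ZMod p) → ℕ :=
  fun x => if x.1 = none ∧ x.2 ≠ none then N else 0

lemma s16nc_sum_e (r p N : ℕ) [NeZero r] [NeZero p] : ∑ x, s16nc_e r p N x = p * N := by
  classical
  unfold s16nc_e
  rw [Fintype.sum_prod_type, Fintype.sum_option]
  simp only [true_and, ne_eq, reduceCtorEq, false_and, if_false, Finset.sum_const_zero, add_zero]
  rw [Fintype.sum_option]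
  simp

/-- **generic norm contradiction, by class type**: the `p` classes `(none, some j)` have
`X`-order at least `N = r p` modulo `𝔪_B`, all classes are `B`-integral and nonzero modulo `𝔪_B`. -/
theorem s16nc_contradiction_types {r p : ℕ} [Fact r.Prime] [Fact p.Prime] (hrp : r ≠ p)
    (hr3 : r ≤ 3) (hp5 : 5 ≤ p)
    (B : ValuationSubring ℂ) (g : ModularForm (Gamma0 (r * p)) 2)
    (F : Option (ZMod r) × Option (ZMod p) → ℍ → ℂ)
    (hnorm : (ModularForm.norm 𝒮ℒ g : ℍ → ℂ) = ∏ x, F x)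
    (φ : Option (ZMod r) × Option (ZMod p) → PowerSeries ℂ)
    (hφ : ∀ x, qExpansion ((r * p : ℕ) : ℝ) (F x) = φ x)
    (hmul : qExpansion ((r * p : ℕ) : ℝ) (∏ x, F x) = ∏ x, qExpansion ((r * p : ℕ) : ℝ) (F x))
    (hexp : ∀ m, (qExpansion ((r * p : ℕ) : ℝ) (s16g_normForm hrp g)).coeff m =
      if r * p ∣ m then (qExpansion 1 (s16g_normForm hrp g)).coeff (m / (r * p)) else 0)
    (h00 : ldc_LowAt B.valuation (φ (none, none)) 0)
    (h0j : ∀ j, ldc_LowAt B.valuation (φ (none, some j)) (r * p))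
    (hi0 : ∀ i, ldc_LowAt B.valuation (φ (some i, none)) 0)
    (hij : ∀ i j, ldc_LowAt B.valuation (φ (some i, some j)) 0) : False := by
  have hr : r.Prime := Fact.out
  have hp : p.Prime := Fact.out
  have : NeZero r := ⟨hr.ne_zero⟩
  have : NeZero p := ⟨hp.ne_zero⟩
  refine s16nc_contradiction hrp B g F hnorm φ (s16nc_e r p (r * p)) p hφ hmul hexp ?_ ?_ ?_
  · rintro ⟨x, y⟩
    unfold s16nc_e
    rcases x with _ | i <;> rcases y with _ | j
    · simpa using h00
    · simpa using h0j j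
    · simpa using hi0 i
    · simpa using hij i j
  · rw [s16nc_sum_e]
    exact le_of_eq (by ring)
  · rw [Nat.div_lt_iff_lt_mul (by norm_num)]
    have h1 : (r + 1) * (p + 1) ≤ 4 * (p + 1) := Nat.mul_le_mul_right _ (by omega)
    omega

end Fermat.Agent.S16NC
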