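import Mathlib
import Fermat.Agent.S16.Up.LeadCore

/-!
# S16 (UP engine), common definitions for the generic norm case

`p ≠ r` primes, `N = r p`, `X = q_N = q^(1/N)`.  For `g = c⁻¹ (p G + Y)` on `Γ₀(r p)`
(`G ∈ M₂(Γ₀(p))`, `Y = Y_r ∈ M₂(Γ₀(r))`) the conjugate of class
`x = (x₁, x₂) ∈ Option (ZMod r) × Option (ZMod p)` has the `q_N`-expansion `s16b_phi … x`
defined here *formally* from the `q`-expansions `g` of `G` and `y` of `Y`.

* `s16b_sub u d f = f (u X^d)`;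
* `s16b_U p g` : the series of `U_p G`;
* `s16b_Data` : the formal hypotheses (valuation `v` above `l`, `G ≡ 1 mod l^e`, shape of `Y_r`);
  the four lemmas `ldc_LowAt v (s16b_phi …) _` are proved from it in separate files.
-/

set_option autoImplicit false

open PowerSeries

namespace Fermat.Agent.S16B

noncomputable section

/-- `ζ_m = exp(2πi/m)`. -/
def s16b_zeta (m : ℕ) : ℂ := Complex.exp (2 * Real.pi * Complex.I / m)

/-- `f (u X^d)`. -/
def s16b_sub (u : ℂ) (d : ℕ) (f : PowerSeries ℂ) : PowerSeries ℂ :=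
  PowerSeries.mk fun n => if d ∣ n then u ^ (n / d) * coeff (n / d) f else 0

theorem s16b_coeff_sub (u : ℂ) (d : ℕ) (f : PowerSeries ℂ) (n : ℕ) :
    coeff n (s16b_sub u d f) = if d ∣ n then u ^ (n / d) * coeff (n / d) f else 0 := by
  rw [s16b_sub, coeff_mk]

theorem s16b_coeff_sub_mul (u : ℂ) {d : ℕ} (hd : 0 < d) (f : PowerSeries ℂ) (n : ℕ) :
    coeff (d * n) (s16b_sub u d f) = u ^ n * coeff n f := by
  rw [s16b_coeff_sub, if_pos (dvd_mul_right d n), Nat.mul_div_cancel_left _ hd]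

theorem s16b_coeff_sub_of_not_dvd (u : ℂ) {d n : ℕ} (h : ¬ d ∣ n) (f : PowerSeries ℂ) :
    coeff n (s16b_sub u d f) = 0 := by
  rw [s16b_coeff_sub, if_neg h]

/-- the series of `U_p G`: `coeff n = coeff (n * p) g` (as the prelude's `coeffHeckeU`). -/
def s16b_U (p : ℕ) (g : PowerSeries ℂ) : PowerSeries ℂ :=
  PowerSeries.mk fun n => coeff (n * p) g

theorem s16b_coeff_U (p : ℕ) (g : PowerSeries ℂ) (n : ℕ) :
    coeff n (s16b_U p g) = coeff (n * p) g := by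
  rw [s16b_U, coeff_mk]

/-- `q_N`-expansion of `p • (G ∣ γ)` for `γ` of class `x₂` (`h` = the series of `U_p G`). -/
def s16b_partG (p r : ℕ) (g h : PowerSeries ℂ) : Option (ZMod p) → PowerSeries ℂ
  | none => (p : ℂ) • s16b_sub 1 (r * p) g
  | some j => -s16b_sub (s16b_zeta p ^ j.val) r h

/-- `q_N`-expansion of `Y ∣ γ` for `γ` of class `x₁` (`U_r Y = Y`). -/
def s16b_partY (p r : ℕ) (y : PowerSeries ℂ) : Option (ZMod r) → PowerSeries ℂ
  | none => s16b_sub 1 (r * p) y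
  | some i => -((r : ℂ)⁻¹ • s16b_sub (s16b_zeta r ^ i.val) p y)

/-- `q_N`-expansion of the conjugate of class `x` of `c⁻¹ (p G + Y)`. -/
def s16b_phi (p r : ℕ) (c : ℂ) (g y : PowerSeries ℂ)
    (x : Option (ZMod r) × Option (ZMod p)) : PowerSeries ℂ :=
  c⁻¹ • (s16b_partG p r g (s16b_U p g) x.2 + s16b_partY p r y x.1)

/-- the lower bounds for the leading exponents: `N` on the `p` classes `(none, some j)`. -/
def s16b_e (p r : ℕ) : Option (ZMod r) × Option (ZMod p) → ℕ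
  | (none, some _) => r * p
  | _ => 0

theorem s16b_sum_e (p r : ℕ) [NeZero p] [NeZero r] :
    ∑ x : Option (ZMod r) × Option (ZMod p), s16b_e p r x = (r * p) * p := by
  rw [Fintype.sum_prod_type, Fintype.sum_option]
  simp [s16b_e, ZMod.card, mul_comm]

/-- The formal hypotheses of the generic norm case. -/
structure s16b_Data {Γ₀ : Type*} [LinearOrderedCommGroupWithZero Γ₀] (v : Valuation ℂ Γ₀)
    (p r l e : ℕ) (c K : ℂ) (g y : PowerSeries ℂ) : Prop where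
  hp : p.Prime
  hr : r.Prime
  hrp : r ≠ p
  he : 1 ≤ e
  hc : c = (l : ℂ) ^ (e - 1)
  vl : v (l : ℂ) < 1
  vl0 : v (l : ℂ) ≠ 0
  vint : ∀ m : ℤ, v (m : ℂ) ≤ 1
  vr : v (r : ℂ) = 1
  vzp : v (s16b_zeta p) = 1
  vzr : v (s16b_zeta r) = 1
  g0 : coeff 0 g = 1
  gn : ∀ n, 1 ≤ n → v (coeff n g) ≤ v (l : ℂ) ^ e
  y0 : coeff 0 y = 1
  y1 : coeff 1 y = K
  yn : ∀ n, 1 ≤ n → ∃ m : ℤ, coeff n y = K * m
  hK : ∃ u : ℤ, K = c * u ∧ v (u : ℂ) = 1
  hp1 : ∃ t : ℤ, (p : ℂ) + 1 = c * t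
  hr1 : ∃ w : ℤ, (r : ℂ) + 1 = c * w ∧ v (w : ℂ) = 1

end

end Fermat.Agent.S16B
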