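import Mathlib
import Fermat.Prelude.Def_ModularForm_HeckeOperator

/-!
# S16, stream [B], chunk (B3): period-`N` q-expansions of bare functions `ℍ → ℂ`

Everything is stated for `UpperHalfPlane.qExpansion h f` with `f : ℍ → ℂ` a bare function, so it
applies to every `SL(2,ℤ)`-conjugate of a modular form.
-/

set_option autoImplicit false

open Complex Filter Function UpperHalfPlane
open scoped Real Topology Manifold ModularForm MatrixGroups

namespace Fermat.Agent.S16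

local notation "𝕢" => Periodic.qParam

/-- `f` is `h`-periodic, holomorphic and bounded at `i∞`. -/
def s16q_Nice (h : ℝ) (f : ℍ → ℂ) : Prop :=
  Periodic (f ∘ UpperHalfPlane.ofComplex) h ∧ MDiff f ∧ IsBoundedAtImInfty f

namespace s16q_Nice

variable {h : ℝ} {f g : ℍ → ℂ}

theorem analyticAt (hf : s16q_Nice h f) (hh : 0 < h) : AnalyticAt ℂ (cuspFunction h f) 0 :=
  analyticAt_cuspFunction_zero hh hf.1 hf.2.1 hf.2.2

theorem hasSum (hf : s16q_Nice h f) (hh : 0 < h) (τ : ℍ) :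
    HasSum (fun m : ℕ ↦ (qExpansion h f).coeff m • 𝕢 h τ ^ m) (f τ) :=
  hasSum_qExpansion hh hf.1 hf.2.1 hf.2.2 τ

theorem mul (hf : s16q_Nice h f) (hg : s16q_Nice h g) : s16q_Nice h (f * g) := by
  refine ⟨?_, hf.2.1.mul hg.2.1, hf.2.2.mul hg.2.2⟩
  intro z
  simp only [comp_apply, Pi.mul_apply]
  have h1 := hf.1 z
  have h2 := hg.1 z
  simp only [comp_apply] at h1 h2
  rw [h1, h2]

theorem add (hf : s16q_Nice h f) (hg : s16q_Nice h g) : s16q_Nice h (f + g) := by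
  refine ⟨?_, hf.2.1.add hg.2.1, hf.2.2.add hg.2.2⟩
  intro z
  simp only [comp_apply, Pi.add_apply]
  have h1 := hf.1 z
  have h2 := hg.1 z
  simp only [comp_apply] at h1 h2
  rw [h1, h2]

theorem const (h : ℝ) (c : ℂ) : s16q_Nice h (fun _ => c) := by
  refine ⟨fun z => rfl, mdifferentiable_const, ?_⟩
  exact Filter.const_boundedAtFilter _ c

theorem smul (hf : s16q_Nice h f) (c : ℂ) : s16q_Nice h (c • f) := by
  have := (const h c).mul hf
  have e : c • f = (fun _ => c) * f := by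
    ext τ; simp [smul_eq_mul]
  rw [e]; exact this

theorem neg (hf : s16q_Nice h f) : s16q_Nice h (-f) := by
  have := hf.smul (-1)
  simpa using this

theorem sub (hf : s16q_Nice h f) (hg : s16q_Nice h g) : s16q_Nice h (f - g) := by
  rw [sub_eq_add_neg]; exact hf.add hg.neg

theorem one (h : ℝ) : s16q_Nice h (1 : ℍ → ℂ) := const h 1

theorem prod {ι : Type*} (s : Finset ι) (F : ι → ℍ → ℂ) (hF : ∀ i ∈ s, s16q_Nice h (F i)) :
    s16q_Nice h (∏ i ∈ s, F i) := by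
  classical
  induction s using Finset.induction_on with
  | empty => simpa using one h
  | insert a s ha ih =>
    rw [Finset.prod_insert ha]
    exact (hF a (Finset.mem_insert_self a s)).mul
      (ih fun i hi => hF i (Finset.mem_insert_of_mem hi))

end s16q_Nice

/-- q-expansions of finite products of nice functions. -/
theorem s16q_qExpansion_prod {h : ℝ} (hh : 0 < h) {ι : Type*} (s : Finset ι) (F : ι → ℍ → ℂ)
    (hF : ∀ i ∈ s, s16q_Nice h (F i)) :
    qExpansion h (∏ i ∈ s, F i) = ∏ i ∈ s, qExpansion h (F i) := by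
  classical
  induction s using Finset.induction_on with
  | empty => simpa using qExpansion_one h
  | insert a s ha ih =>
    rw [Finset.prod_insert ha, Finset.prod_insert ha]
    have h1 := hF a (Finset.mem_insert_self a s)
    have h2 : s16q_Nice h (∏ i ∈ s, F i) :=
      s16q_Nice.prod s F fun i hi => hF i (Finset.mem_insert_of_mem hi)
    rw [qExpansion_mul (h1.analyticAt hh) (h2.analyticAt hh),
      ih fun i hi => hF i (Finset.mem_insert_of_mem hi)]


/-! ### Periodicity in terms of `+ᵥ` on `ℍ` -/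

theorem s16q_periodic_of_vadd {h : ℝ} {f : ℍ → ℂ} (hf : ∀ τ : ℍ, f (h +ᵥ τ) = f τ) :
    Periodic (f ∘ UpperHalfPlane.ofComplex) h := by
  intro w
  by_cases hw : 0 < im w
  · have hw' : 0 < im (w + h) := by simp [hw]
    simp only [comp_apply, ofComplex_apply_of_im_pos hw', ofComplex_apply_of_im_pos hw]
    rw [← hf ⟨w, hw⟩]
    congr 1
    ext
    simp [add_comm]
  · have hw0 : im w ≤ 0 := not_lt.mp hw
    have hw' : im (w + h) ≤ 0 := by simpa using hw0
    simp [ofComplex_apply_of_im_nonpos hw', ofComplex_apply_of_im_nonpos hw0]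

theorem s16q_vadd_of_periodic {h : ℝ} {f : ℍ → ℂ}
    (hf : Periodic (f ∘ UpperHalfPlane.ofComplex) h) (τ : ℍ) : f (h +ᵥ τ) = f τ := by
  have := hf (τ : ℂ)
  simp only [comp_apply, ofComplex_apply] at this
  rw [← this]
  congr 1
  have hpos : 0 < im ((τ : ℂ) + h) := by simpa using τ.im_pos
  rw [ofComplex_apply_of_im_pos hpos]
  ext
  simp [add_comm]

/-! ### Uniqueness of q-expansion coefficients for bare functions -/

theorem s16q_coeff_unique {h : ℝ} {f : ℍ → ℂ} {c : ℕ → ℂ} (hh : 0 < h)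
    (hfanalytic : AnalyticAt ℂ (cuspFunction h f) 0)
    (hf : ∀ τ : ℍ, HasSum (fun m ↦ c m • 𝕢 h τ ^ m) (f τ)) (m : ℕ) :
    c m = (qExpansion h f).coeff m := by
  have h1 := (hasFPowerSeriesOnBall_cuspFunction hh hfanalytic hf).hasFPowerSeriesAt
  have h2 : HasFPowerSeriesAt (cuspFunction h f)
      (.ofScalars ℂ fun m => (qExpansion h f).coeff m) 0 := by
    simpa [qExpansion_coeff, div_eq_mul_inv, mul_comm] using hfanalytic.hasFPowerSeriesAt
  have := h1.eq_formalMultilinearSeries h2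
  simpa [FormalMultilinearSeries.coeff_ofScalars] using
    congr_arg (FormalMultilinearSeries.coeff · m) this

/-! ### Change of period -/

theorem s16q_Nice.period_mul {h : ℝ} {f : ℍ → ℂ} (hf : s16q_Nice h f) (N : ℕ) :
    s16q_Nice (N * h) f :=
  ⟨by have := hf.1.nat_mul N; simpa using this, hf.2.1, hf.2.2⟩

theorem s16q_qParam_pow {h : ℝ} (N : ℕ) (hN : N ≠ 0) (z : ℂ) :
    𝕢 ((N : ℝ) * h) z ^ N = 𝕢 h z := by
  unfold Periodic.qParam
  rw [← Complex.exp_nat_mul]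
  congr 1
  have hN' : (N : ℂ) ≠ 0 := by exact_mod_cast hN
  push_cast
  by_cases hh : (h : ℂ) = 0
  · simp [hh]
  · field_simp

/-- Coefficients of the period-`N h` expansion of an `h`-periodic nice function. -/
theorem s16q_hasSum_expand {h : ℝ} (hh : 0 < h) {f : ℍ → ℂ} (hf : s16q_Nice h f)
    (N : ℕ) (hN : N ≠ 0) (τ : ℍ) :
    HasSum (fun m : ℕ => (PowerSeries.expand N hN (qExpansion h f)).coeff m •
      𝕢 ((N : ℝ) * h) τ ^ m) (f τ) := by
  have h1 := hf.hasSum hh τ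
  have hinj : Function.Injective (fun m : ℕ => N * m) :=
    fun a b hab => Nat.eq_of_mul_eq_mul_left (Nat.pos_of_ne_zero hN) hab
  rw [← hinj.hasSum_iff]
  · have e : ((fun m : ℕ => (PowerSeries.expand N hN (qExpansion h f)).coeff m •
        𝕢 ((N : ℝ) * h) τ ^ m) ∘ fun m : ℕ => N * m) =
        fun m : ℕ => (qExpansion h f).coeff m • 𝕢 h τ ^ m := by
      funext m
      simp only [comp_apply]
      rw [PowerSeries.coeff_expand_mul, pow_mul, s16q_qParam_pow N hN]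
    rw [e]
    exact h1
  · intro k hk
    have hnd : ¬ N ∣ k := by
      rintro ⟨m, rfl⟩
      exact hk ⟨m, rfl⟩
    rw [PowerSeries.coeff_expand_of_not_dvd _ _ _ hnd, zero_smul]

theorem s16q_qExpansion_period_mul {h : ℝ} (hh : 0 < h) {f : ℍ → ℂ} (hf : s16q_Nice h f)
    (N : ℕ) (hN : N ≠ 0) :
    qExpansion ((N : ℝ) * h) f = PowerSeries.expand N hN (qExpansion h f) := by
  have hNh : 0 < (N : ℝ) * h := mul_pos (by exact_mod_cast Nat.pos_of_ne_zero hN) hh
  refine PowerSeries.ext fun k => ?_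
  have h1 := ((hf.period_mul N).analyticAt hNh)
  have h2 := (s16q_hasSum_expand hh hf N hN)
  have := s16q_coeff_unique (c := fun m => (PowerSeries.expand N hN (qExpansion h f)).coeff m)
    hNh h1 h2 k
  exact this.symm

theorem s16q_coeff_period_mul {h : ℝ} (hh : 0 < h) {f : ℍ → ℂ} (hf : s16q_Nice h f)
    (N : ℕ) (hN : N ≠ 0) (m : ℕ) :
    (qExpansion ((N : ℝ) * h) f).coeff (N * m) = (qExpansion h f).coeff m := by
  rw [s16q_qExpansion_period_mul hh hf N hN, PowerSeries.coeff_expand_mul]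

theorem s16q_coeff_period_mul_of_not_dvd {h : ℝ} (hh : 0 < h) {f : ℍ → ℂ} (hf : s16q_Nice h f)
    (N : ℕ) (hN : N ≠ 0) {k : ℕ} (hk : ¬ N ∣ k) :
    (qExpansion ((N : ℝ) * h) f).coeff k = 0 := by
  rw [s16q_qExpansion_period_mul hh hf N hN, PowerSeries.coeff_expand_of_not_dvd _ _ _ hk]

/-! ### Hecke-matrix translates `H ∣[k] heckeMatrix p j`, i.e. `τ ↦ p⁻¹ H((τ + j)/p)` -/

open ModularForm in
theorem s16q_heckeMatrix_vadd {p : ℕ} (hp : p ≠ 0) (j : ℕ) (τ : ℍ) :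
    heckeMatrix p j • (((p : ℝ)) +ᵥ τ) = (1 : ℝ) +ᵥ (heckeMatrix p j • τ) := by
  ext
  rw [coe_heckeMatrix_smul hp, UpperHalfPlane.coe_vadd, UpperHalfPlane.coe_vadd,
    coe_heckeMatrix_smul hp]
  have hp' : (p : ℂ) ≠ 0 := by exact_mod_cast hp
  push_cast
  field_simp
  ring

open ModularForm in
theorem s16q_Nice.slash_heckeMat {H : ℍ → ℂ} (hH : s16q_Nice 1 H) (k : ℤ) {p : ℕ} (hp : p ≠ 0)
    (j : ℕ) : s16q_Nice (p : ℝ) (H ∣[k] heckeMatrix p j) := by
  refine ⟨s16q_periodic_of_vadd fun τ => ?_, hH.2.1.slash k _, ?_⟩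
  · rw [slash_heckeMatrix_apply k hp, slash_heckeMatrix_apply k hp, s16q_heckeMatrix_vadd hp]
    congr 1
    exact s16q_vadd_of_periodic (by simpa using hH.1) _
  · obtain ⟨M, A, hMA⟩ := isBoundedAtImInfty_iff.mp hH.2.2
    refine isBoundedAtImInfty_iff.mpr ⟨M / p, A * p, fun τ hτ => ?_⟩
    rw [slash_heckeMatrix_apply k hp]
    have hp0 : (0 : ℝ) < p := by exact_mod_cast Nat.pos_of_ne_zero hp
    have him : A ≤ (heckeMatrix p j • τ).im := by
      have : ((heckeMatrix p j • τ : ℍ) : ℂ).im = τ.im / p := by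
        rw [coe_heckeMatrix_smul hp, Complex.div_natCast_im]
        simp
      rw [← UpperHalfPlane.coe_im, this, le_div_iff₀ hp0]
      exact hτ
    have := hMA _ him
    rw [norm_mul, norm_inv, Complex.norm_natCast, div_eq_inv_mul]
    exact mul_le_mul_of_nonneg_left this (inv_nonneg.mpr hp0.le)

/-- The standard primitive `p`-th root of unity `exp(2πi/p)`. -/
noncomputable def s16q_zeta (p : ℕ) : ℂ := Complex.exp (2 * π * Complex.I / p)

theorem s16q_zeta_isPrimitiveRoot {p : ℕ} (hp : p ≠ 0) : IsPrimitiveRoot (s16q_zeta p) p := by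
  unfold s16q_zeta
  exact Complex.isPrimitiveRoot_exp p hp

theorem s16q_zeta_pow_self {p : ℕ} (hp : p ≠ 0) : s16q_zeta p ^ p = 1 :=
  (s16q_zeta_isPrimitiveRoot hp).pow_eq_one

open ModularForm in
theorem s16q_qParam_heckeMatrix {p : ℕ} (hp : p ≠ 0) (j : ℕ) (τ : ℍ) :
    𝕢 1 ((heckeMatrix p j • τ : ℍ) : ℂ) = s16q_zeta p ^ j * 𝕢 (p : ℝ) τ := by
  have hp' : (p : ℂ) ≠ 0 := by exact_mod_cast hp
  rw [coe_heckeMatrix_smul hp, s16q_zeta, ← Complex.exp_nat_mul]
  unfold Periodic.qParam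
  rw [← Complex.exp_add]
  congr 1
  push_cast
  field_simp
  ring

open ModularForm in
/-- The period-`p` expansion of `τ ↦ p⁻¹ H((τ + j)/p)`. -/
theorem s16q_coeff_slash_heckeMat {H : ℍ → ℂ} (hH : s16q_Nice 1 H) (k : ℤ) {p : ℕ} (hp : p ≠ 0)
    (j n : ℕ) :
    (qExpansion (p : ℝ) (H ∣[k] heckeMatrix p j)).coeff n =
      (p : ℂ)⁻¹ * s16q_zeta p ^ (j * n) * (qExpansion 1 H).coeff n := by
  have hp0 : (0 : ℝ) < p := by exact_mod_cast Nat.pos_of_ne_zero hp
  have key : ∀ τ : ℍ, HasSum (fun m : ℕ =>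
      ((p : ℂ)⁻¹ * s16q_zeta p ^ (j * m) * (qExpansion 1 H).coeff m) • 𝕢 (p : ℝ) τ ^ m)
      ((H ∣[k] heckeMatrix p j) τ) := by
    intro τ
    rw [slash_heckeMatrix_apply k hp]
    have h1 := (hH.hasSum one_pos (heckeMatrix p j • τ)).mul_left ((p : ℂ)⁻¹)
    have e : (fun m : ℕ =>
        ((p : ℂ)⁻¹ * s16q_zeta p ^ (j * m) * (qExpansion 1 H).coeff m) • 𝕢 (p : ℝ) τ ^ m) =
        fun m : ℕ => (p : ℂ)⁻¹ * ((qExpansion 1 H).coeff m •
          𝕢 1 ((heckeMatrix p j • τ : ℍ) : ℂ) ^ m) := by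
      funext m
      rw [s16q_qParam_heckeMatrix hp, mul_pow, ← pow_mul]
      simp only [smul_eq_mul]
      ring
    rw [e]
    exact h1
  exact (s16q_coeff_unique hp0 ((hH.slash_heckeMat k hp j).analyticAt hp0) key n).symm

/-- The rescale form: the period-`p` expansion of `H ∣[k] heckeMatrix p j` is
`p⁻¹ • rescale (ζ_p ^ j) (qExpansion 1 H)`. -/
theorem s16q_qExpansion_slash_heckeMat {H : ℍ → ℂ} (hH : s16q_Nice 1 H) (k : ℤ) {p : ℕ}
    (hp : p ≠ 0) (j : ℕ) :
    qExpansion (p : ℝ) (H ∣[k] ModularForm.heckeMatrix p j) =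
      (p : ℂ)⁻¹ • PowerSeries.rescale (s16q_zeta p ^ j) (qExpansion 1 H) := by
  refine PowerSeries.ext fun n => ?_
  rw [s16q_coeff_slash_heckeMat hH k hp j n, PowerSeries.coeff_smul, PowerSeries.coeff_rescale,
    ← pow_mul, smul_eq_mul, mul_assoc]

/-! ### Modular forms are nice -/

theorem s16q_nice_of_modularForm {Γ : Subgroup (GL (Fin 2) ℝ)} {k : ℤ} (f : ModularForm Γ k)
    {h : ℝ} (hh : 0 < h) (hΓ : h ∈ Γ.strictPeriods) : s16q_Nice h f := by
  have : Fact (IsCusp OnePoint.infty Γ) := ⟨Γ.isCusp_of_mem_strictPeriods hh hΓ⟩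
  exact ⟨SlashInvariantFormClass.periodic_comp_ofComplex f hΓ, ModularFormClass.holo f,
    ModularFormClass.bdd_at_infty f⟩

theorem s16q_one_mem_strictPeriods_Gamma0 (N : ℕ) :
    (1 : ℝ) ∈ ((CongruenceSubgroup.Gamma0 N).map
      (Matrix.SpecialLinearGroup.mapGL ℝ)).strictPeriods := by
  have hT : ModularGroup.T ∈ CongruenceSubgroup.Gamma0 N := by
    rw [CongruenceSubgroup.Gamma0_mem]
    simp [ModularGroup.T]
  have := Subgroup.strictPeriods_eq_zmultiples_one_of_T_mem hT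
  rw [this]
  exact AddSubgroup.mem_zmultiples 1

theorem s16q_nice_of_Gamma0 {N : ℕ} {k : ℤ}
    (f : ModularForm ((CongruenceSubgroup.Gamma0 N).map (Matrix.SpecialLinearGroup.mapGL ℝ)) k) :
    s16q_Nice 1 f :=
  s16q_nice_of_modularForm f one_pos (s16q_one_mem_strictPeriods_Gamma0 N)

theorem s16q_nice_of_levelOne {k : ℤ} (f : ModularForm 𝒮ℒ k) : s16q_Nice 1 f :=
  s16q_nice_of_modularForm f one_pos one_mem_strictPeriods_SL

/-! ### The `HasQ` vocabulary (stream [B] plan v2)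

`s16q_HasQ N f φ` : `f` is nice of period `N` and `φ` is its period-`N` q-expansion. -/

/-- `f` is `N`-periodic, holomorphic, bounded at `i∞`, with period-`N` q-expansion `φ`. -/
def s16q_HasQ (N : ℕ) (f : ℍ → ℂ) (φ : PowerSeries ℂ) : Prop :=
  s16q_Nice (N : ℝ) f ∧ qExpansion (N : ℝ) f = φ

namespace s16q_HasQ

variable {N : ℕ} {f g : ℍ → ℂ} {φ ψ : PowerSeries ℂ}

theorem of_nice (hf : s16q_Nice (N : ℝ) f) : s16q_HasQ N f (qExpansion (N : ℝ) f) := ⟨hf, rfl⟩

theorem unique (h1 : s16q_HasQ N f φ) (h2 : s16q_HasQ N f ψ) : φ = ψ := h1.2.symm.trans h2.2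

theorem hasSum (hf : s16q_HasQ N f φ) (hN : N ≠ 0) (τ : ℍ) :
    HasSum (fun m : ℕ ↦ φ.coeff m * 𝕢 (N : ℝ) τ ^ m) (f τ) := by
  have hN' : (0 : ℝ) < N := by exact_mod_cast Nat.pos_of_ne_zero hN
  have := hf.1.hasSum hN' τ
  rw [hf.2] at this
  simpa [smul_eq_mul] using this

/-- Introduction rule from a `HasSum` expansion, for a function already known to be nice. -/
theorem of_hasSum (hf : s16q_Nice (N : ℝ) f) (hN : N ≠ 0)
    (h : ∀ τ : ℍ, HasSum (fun m : ℕ ↦ φ.coeff m * 𝕢 (N : ℝ) τ ^ m) (f τ)) : s16q_HasQ N f φ := by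
  have hN' : (0 : ℝ) < N := by exact_mod_cast Nat.pos_of_ne_zero hN
  refine ⟨hf, PowerSeries.ext fun m => ?_⟩
  have := s16q_coeff_unique (c := fun m => φ.coeff m) hN' (hf.analyticAt hN')
    (by simpa [smul_eq_mul] using h) m
  exact this.symm

theorem mul (hN : N ≠ 0) (hf : s16q_HasQ N f φ) (hg : s16q_HasQ N g ψ) :
    s16q_HasQ N (f * g) (φ * ψ) := by
  have hN' : (0 : ℝ) < N := by exact_mod_cast Nat.pos_of_ne_zero hN
  refine ⟨hf.1.mul hg.1, ?_⟩
  rw [qExpansion_mul (hf.1.analyticAt hN') (hg.1.analyticAt hN'), hf.2, hg.2]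

theorem add (hN : N ≠ 0) (hf : s16q_HasQ N f φ) (hg : s16q_HasQ N g ψ) :
    s16q_HasQ N (f + g) (φ + ψ) := by
  have hN' : (0 : ℝ) < N := by exact_mod_cast Nat.pos_of_ne_zero hN
  refine ⟨hf.1.add hg.1, ?_⟩
  rw [qExpansion_add (hf.1.analyticAt hN') (hg.1.analyticAt hN'), hf.2, hg.2]

theorem smul (hN : N ≠ 0) (hf : s16q_HasQ N f φ) (c : ℂ) : s16q_HasQ N (c • f) (c • φ) := by
  have hN' : (0 : ℝ) < N := by exact_mod_cast Nat.pos_of_ne_zero hN
  refine ⟨hf.1.smul c, ?_⟩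
  rw [qExpansion_smul (hf.1.analyticAt hN'), hf.2]

theorem neg (hN : N ≠ 0) (hf : s16q_HasQ N f φ) : s16q_HasQ N (-f) (-φ) := by
  have := hf.smul hN (-1)
  simpa using this

theorem sub (hN : N ≠ 0) (hf : s16q_HasQ N f φ) (hg : s16q_HasQ N g ψ) :
    s16q_HasQ N (f - g) (φ - ψ) := by
  rw [sub_eq_add_neg, sub_eq_add_neg]; exact hf.add hN (hg.neg hN)

theorem const (N : ℕ) (c : ℂ) : s16q_HasQ N (fun _ => c) (PowerSeries.C c) := by
  refine ⟨s16q_Nice.const _ c, ?_⟩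
  have h1 : (fun _ : ℍ => c) = c • (1 : ℍ → ℂ) := by
    ext τ; simp
  have hone : AnalyticAt ℂ (cuspFunction (N : ℝ) (1 : ℍ → ℂ)) 0 := by
    have : cuspFunction (N : ℝ) (1 : ℍ → ℂ) = 1 := by
      ext q
      rcases eq_or_ne q 0 with rfl | hq
      · simpa [cuspFunction, Periodic.cuspFunction] using! tendsto_const_nhds.limUnder_eq
      · simp [cuspFunction, Periodic.cuspFunction_eq_of_nonzero _ _ hq]
    rw [this]
    exact analyticAt_const
  rw [h1, qExpansion_smul hone, qExpansion_one]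
  ext n
  simp [PowerSeries.coeff_C, PowerSeries.coeff_one]

theorem one (N : ℕ) : s16q_HasQ N (1 : ℍ → ℂ) 1 := by
  have := const N 1
  rw [map_one] at this
  exact this

theorem prod (hN : N ≠ 0) {ι : Type*} (s : Finset ι) (F : ι → ℍ → ℂ) (Φ : ι → PowerSeries ℂ)
    (hF : ∀ i ∈ s, s16q_HasQ N (F i) (Φ i)) :
    s16q_HasQ N (∏ i ∈ s, F i) (∏ i ∈ s, Φ i) := by
  have hN' : (0 : ℝ) < N := by exact_mod_cast Nat.pos_of_ne_zero hN
  refine ⟨s16q_Nice.prod s F fun i hi => (hF i hi).1, ?_⟩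
  rw [s16q_qExpansion_prod hN' s F fun i hi => (hF i hi).1]
  exact Finset.prod_congr rfl fun i hi => (hF i hi).2

/-- Change of period `M → d * M`: the expansion gets expanded by `X ↦ X ^ d`. -/
theorem period_mul {M : ℕ} (hM : M ≠ 0) (hf : s16q_HasQ M f φ) (d : ℕ) (hd : d ≠ 0) :
    s16q_HasQ (d * M) f (PowerSeries.expand d hd φ) := by
  have hM' : (0 : ℝ) < M := by exact_mod_cast Nat.pos_of_ne_zero hM
  have e : ((d * M : ℕ) : ℝ) = (d : ℝ) * (M : ℝ) := by push_cast; ring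
  refine ⟨?_, ?_⟩
  · rw [e]; exact hf.1.period_mul d
  · rw [e, s16q_qExpansion_period_mul hM' hf.1 d hd, hf.2]

/-- Modular forms of level `Γ₀(N')` have period-1 expansions. -/
theorem of_Gamma0 {N' : ℕ} {k : ℤ}
    (F : ModularForm ((CongruenceSubgroup.Gamma0 N').map (Matrix.SpecialLinearGroup.mapGL ℝ)) k) :
    s16q_HasQ 1 F (qExpansion 1 F) := by
  refine ⟨by simpa using s16q_nice_of_Gamma0 F, by simp⟩

theorem of_levelOne {k : ℤ} (F : ModularForm 𝒮ℒ k) : s16q_HasQ 1 F (qExpansion 1 F) := by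
  refine ⟨by simpa using s16q_nice_of_levelOne F, by simp⟩

/-- Hecke-matrix translates: `HasQ 1 H h → HasQ p (H ∣[k] heckeMatrix p j) (p⁻¹ • rescale (ζ_p^j) h)`. -/
theorem slash_heckeMat {H : ℍ → ℂ} {h : PowerSeries ℂ} (hH : s16q_HasQ 1 H h) (k : ℤ) {p : ℕ}
    (hp : p ≠ 0) (j : ℕ) :
    s16q_HasQ p (H ∣[k] ModularForm.heckeMatrix p j)
      ((p : ℂ)⁻¹ • PowerSeries.rescale (s16q_zeta p ^ j) h) := by
  have h1 : s16q_Nice 1 H := by simpa using hH.1
  have h2 : qExpansion 1 H = h := by simpa using hH.2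
  refine ⟨h1.slash_heckeMat k hp j, ?_⟩
  rw [s16q_qExpansion_slash_heckeMat h1 k hp j, h2]

end s16q_HasQ

end Fermat.Agent.S16
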