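/-
S16 stream [B], (G) TOP (helper16): the three norm cases of UP, UNCONDITIONAL.

* `s16nt_Q_outputs` : the three (Q)-outputs of `NormCase` from per-class `s16q_HasQ`.
* `s16nt_hasQ_class` : **(Q1)** the period-`r p` expansion of the conjugate of class `x` of
  `c⁻¹ (p G + Y)` is `s16b_phi p r c (qExp G) (qExp Y) x` (from `QExpN`, `Conj`, prelude
  `qCoeff_heckeU`).
* `s16nt_UP_of_hasQ`, `s16nt_UP` : `s16ar_UP p l e` for numeric data `ldp_Num l e r`, `r ≤ 3`,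
  `p ≥ 5`, `l^(e-1) ∣ p + 1` (place above `l`, `LeadClsPlace`, `NormCase`, Sturm).
* `s16nt_UP_U1` (`l ≥ 5`, `e = 1`), `s16nt_UP_U2` (`l = 3`, `e = 2`, `p ≡ 2 mod 3`),
  `s16nt_UP_U4` (`l = 2`, `e = 3`, `p ≡ 3 mod 4`).
-/
import Mathlib
import Fermat.Agent.S16.Up.NormCase
import Fermat.Agent.S16.Up.Conj
import Fermat.Agent.S16.Up.QExpN
import Fermat.Agent.S16.Up.Phi
import Fermat.Agent.S16.Up.LeadClsPlace
import Fermat.Agent.S16.Up.Arith
import Fermat.Agent.S16.Eis.UFix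
import Fermat.Agent.S16.Dual.Arith

set_option autoImplicit false

open scoped MatrixGroups ModularForm
open Matrix.SpecialLinearGroup CongruenceSubgroup UpperHalfPlane ModularGroup PowerSeries
open Fermat.Agent.S16K Fermat.Agent.S16G Fermat.Agent.S16U Fermat.Agent.S16C Fermat.Agent.S16B
open Fermat.Agent.S16NC Fermat.Agent.S16AR Fermat.Agent.S16x Fermat.Agent.S16 Fermat.Agent.S16.Eis

namespace Fermat.Agent.S16NT

/-- the conjugates `PG j = -(U_p G ∣ [[1,j],[0,p]])` -/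
noncomputable def s16nt_P (q : ℕ) (F : ℍ → ℂ) (j : ℕ) : ℍ → ℂ :=
  -(ModularForm.heckeU 2 q F ∣[(2 : ℤ)] ModularForm.heckeMatrix q j)

/-- the three (Q)-outputs `hφ`, `hmul`, `hexp` of `NormCase` from per-class `HasQ` -/
theorem s16nt_Q_outputs {ι : Type*} [Fintype ι] (N : ℕ) (hN : N ≠ 0) {k : ℤ}
    (Φform : ModularForm 𝒮ℒ k) (F : ι → ℍ → ℂ) (φ : ι → PowerSeries ℂ)
    (hQ : ∀ x, s16q_HasQ N (F x) (φ x)) :
    (∀ x, qExpansion (N : ℝ) (F x) = φ x) ∧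
    (qExpansion (N : ℝ) (∏ x, F x) = ∏ x, qExpansion (N : ℝ) (F x)) ∧
    (∀ m, (qExpansion (N : ℝ) Φform).coeff m =
      if N ∣ m then (qExpansion 1 Φform).coeff (m / N) else 0) := by
  refine ⟨fun x => (hQ x).2, ?_, ?_⟩
  · have h := s16q_HasQ.prod hN Finset.univ F φ fun i _ => hQ i
    rw [h.2]
    exact Finset.prod_congr rfl fun x _ => ((hQ x).2).symm
  · intro m
    have h1 := s16q_HasQ.of_levelOne Φform
    have h2 := h1.period_mul one_ne_zero N hN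
    rw [mul_one] at h2
    rw [h2.2]
    split_ifs with hd
    · obtain ⟨t, rfl⟩ := hd
      rw [Nat.mul_div_cancel_left _ (Nat.pos_of_ne_zero hN), PowerSeries.coeff_expand_mul]
    · exact PowerSeries.coeff_expand_of_not_dvd N hN _ hd

/-! ### coefficient formulas of `s16b_phi` in the shapes of `LeadClsPlace` -/

lemma s16nt_coeff_phi_nn (p r : ℕ) (c : ℂ) (g y : PowerSeries ℂ) (m : ℕ) :
    coeff m (s16b_phi p r c g y (none, none)) =
      if r * p ∣ m then c⁻¹ * ((p : ℂ) * coeff (m / (r * p)) g + coeff (m / (r * p)) y) else 0 := by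
  simp only [s16b_phi, s16b_partG, s16b_partY, map_add, PowerSeries.coeff_smul, s16b_coeff_sub,
    smul_eq_mul, one_pow, one_mul]
  split_ifs <;> ring

lemma s16nt_coeff_phi_ns (p r : ℕ) (c : ℂ) (g y : PowerSeries ℂ) (j : ZMod p) (m : ℕ) :
    coeff m (s16b_phi p r c g y (none, some j)) = c⁻¹ *
      ((if r * p ∣ m then coeff (m / (r * p)) y else 0)
        - (if r ∣ m then (s16b_zeta p ^ j.val) ^ (m / r) * coeff (m / r) (s16b_U p g) else 0)) := by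
  simp only [s16b_phi, s16b_partG, s16b_partY, map_add, map_neg, PowerSeries.coeff_smul,
    s16b_coeff_sub, smul_eq_mul, one_pow, one_mul]
  split_ifs <;> ring

lemma s16nt_coeff_phi_sn (p r : ℕ) (c : ℂ) (g y : PowerSeries ℂ) (i : ZMod r) (m : ℕ) :
    coeff m (s16b_phi p r c g y (some i, none)) = c⁻¹ *
      ((p : ℂ) * (if r * p ∣ m then coeff (m / (r * p)) g else 0)
        - (r : ℂ)⁻¹ * (if p ∣ m then (s16b_zeta r ^ i.val) ^ (m / p) * coeff (m / p) y else 0)) := by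
  simp only [s16b_phi, s16b_partG, s16b_partY, map_add, map_neg, PowerSeries.coeff_smul,
    s16b_coeff_sub, smul_eq_mul, one_pow, one_mul]
  split_ifs <;> ring

lemma s16nt_coeff_phi_ss (p r : ℕ) (c : ℂ) (g y : PowerSeries ℂ) (i : ZMod r) (j : ZMod p)
    (m : ℕ) :
    coeff m (s16b_phi p r c g y (some i, some j)) = c⁻¹ *
      (-(if r ∣ m then (s16b_zeta p ^ j.val) ^ (m / r) * coeff (m / r) (s16b_U p g) else 0)
        - (r : ℂ)⁻¹ * (if p ∣ m then (s16b_zeta r ^ i.val) ^ (m / p) * coeff (m / p) y else 0)) := by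
  simp only [s16b_phi, s16b_partG, s16b_partY, map_add, map_neg, PowerSeries.coeff_smul,
    s16b_coeff_sub, smul_eq_mul, one_pow, one_mul]
  split_ifs <;> ring

lemma s16nt_zeta_pow (m : ℕ) (hm : 0 < m) (j : ℕ) : (s16b_zeta m ^ j) ^ m = 1 := by
  rw [← pow_mul, mul_comm, pow_mul]
  have hpow : s16b_zeta m ^ m = 1 := by
    unfold s16b_zeta
    rw [← Complex.exp_nat_mul]
    have hm' : (m : ℂ) ≠ 0 := by exact_mod_cast hm.ne'
    rw [mul_div_cancel₀ _ hm']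
    exact Complex.exp_two_pi_mul_I
  rw [hpow, one_pow]

/-! ### (Q1): the per-class `HasQ` statements -/

lemma s16nt_expand_eq_sub (d : ℕ) (hd : d ≠ 0) (f : PowerSeries ℂ) :
    PowerSeries.expand d hd f = s16b_sub 1 d f := by
  ext n
  rw [PowerSeries.coeff_expand, s16b_coeff_sub]
  split_ifs <;> simp

lemma s16nt_expand_rescale_eq_sub (d : ℕ) (hd : d ≠ 0) (u : ℂ) (f : PowerSeries ℂ) :
    PowerSeries.expand d hd (PowerSeries.rescale u f) = s16b_sub u d f := by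
  ext n
  rw [PowerSeries.coeff_expand, s16b_coeff_sub]
  split_ifs <;> simp

/-- a form on `Γ₀(M)` has the period-`N` expansion `f(X^N)` -/
lemma s16nt_hasQ_form {M : ℕ} {k : ℤ} (F : ModularForm (Gamma0 M) k) (N : ℕ) (hN : N ≠ 0) :
    s16q_HasQ N F (s16b_sub 1 N (qExpansion 1 F)) := by
  have h := (s16q_HasQ.of_Gamma0 F).period_mul one_ne_zero N hN
  rw [mul_one, s16nt_expand_eq_sub] at h
  exact h

/-- the `q`-expansion of `U_q F` -/
lemma s16nt_hasQ_heckeU (q : ℕ) [NeZero q] (F : ModularForm (Gamma0 q) 2) :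
    s16q_HasQ 1 (ModularForm.heckeU 2 q (F : ℍ → ℂ)) (s16b_U q (qExpansion 1 F)) := by
  have h := s16q_HasQ.of_Gamma0 (ModularForm.heckeULin 2 (dvd_refl q) F)
  rw [ModularForm.coe_heckeULin_apply] at h
  have e : qExpansion 1 (ModularForm.heckeU 2 q (F : ℍ → ℂ)) = s16b_U q (qExpansion 1 F) := by
    ext n
    rw [s16b_coeff_U]
    exact ModularFormClass.qCoeff_heckeU F (s16q_one_mem_strictPeriods_Gamma0 q) (NeZero.ne q) n
  rw [e] at h
  exact h

/-- the conjugate `-(U_q F ∣ [[1,j],[0,q]])` has the period-`d q` expansion `-q⁻¹ h(ζ_q^j X^d)` -/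
lemma s16nt_hasQ_P (q : ℕ) [NeZero q] (F : ModularForm (Gamma0 q) 2) (j : ℕ) (d : ℕ)
    (hd : d ≠ 0) :
    s16q_HasQ (d * q) (s16nt_P q F j)
      (-((q : ℂ)⁻¹ • s16b_sub (s16b_zeta q ^ j) d (s16b_U q (qExpansion 1 F)))) := by
  have h1 := (s16nt_hasQ_heckeU q F).slash_heckeMat 2 (NeZero.ne q) j
  have h2 := (h1.neg (NeZero.ne q)).period_mul (NeZero.ne q) d hd
  have e : PowerSeries.expand d hd
      (-((q : ℂ)⁻¹ • PowerSeries.rescale (s16q_zeta q ^ j) (s16b_U q (qExpansion 1 F)))) =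
      -((q : ℂ)⁻¹ • s16b_sub (s16b_zeta q ^ j) d (s16b_U q (qExpansion 1 F))) := by
    rw [map_neg, ← s16nt_expand_rescale_eq_sub d hd]
    congr 1
    ext n
    simp only [PowerSeries.coeff_expand, PowerSeries.coeff_smul]
    split_ifs <;> simp [s16q_zeta, s16b_zeta]
  rw [e] at h2
  exact h2

/-- **(Q1)** the per-class period-`r p` expansions of the conjugates of `c⁻¹ (p G + Y)`. -/
theorem s16nt_hasQ_class {r p : ℕ} [Fact r.Prime] [Fact p.Prime] (c : ℂ)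
    (G : ModularForm (Gamma0 p) 2) (Y : ModularForm (Gamma0 r) 2)
    (hUY : ModularForm.heckeU 2 r (Y : ℍ → ℂ) = Y) (x : Option (ZMod r) × Option (ZMod p)) :
    s16q_HasQ (r * p) (s16g_F r p G Y (s16nt_P p G) (s16nt_P r Y) c x)
      (s16b_phi p r c (qExpansion 1 G) (qExpansion 1 Y) x) := by
  have hr : r.Prime := Fact.out
  have hp : p.Prime := Fact.out
  have : NeZero r := ⟨hr.ne_zero⟩
  have : NeZero p := ⟨hp.ne_zero⟩
  have hN : r * p ≠ 0 := Nat.mul_ne_zero hr.ne_zero hp.ne_zero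
  have hp0 : (p : ℂ) ≠ 0 := by exact_mod_cast hp.ne_zero
  obtain ⟨x1, x2⟩ := x
  unfold s16g_F s16b_phi
  refine s16q_HasQ.smul hN (s16q_HasQ.add hN ?_ ?_) c⁻¹
  · -- the `G`-part
    rcases x2 with _ | j
    · exact (s16nt_hasQ_form G (r * p) hN).smul hN (p : ℂ)
    · have h := (s16nt_hasQ_P p G j.val r hr.ne_zero).smul hN (p : ℂ)
      have e : (p : ℂ) • -((p : ℂ)⁻¹ • s16b_sub (s16b_zeta p ^ j.val) r
          (s16b_U p (qExpansion 1 G))) = s16b_partG p r (qExpansion 1 G)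
            (s16b_U p (qExpansion 1 G)) (some j) := by
        simp only [s16b_partG]
        rw [smul_neg, smul_smul, mul_inv_cancel₀ hp0, one_smul]
      rw [e] at h
      exact h
  · -- the `Y`-part
    rcases x1 with _ | i
    · exact s16nt_hasQ_form Y (r * p) hN
    · have h := s16nt_hasQ_P r Y i.val p hp.ne_zero
      rw [Nat.mul_comm p r] at h
      have e : s16b_U r (qExpansion 1 Y) = qExpansion 1 Y := by
        have h1 := s16nt_hasQ_heckeU r Y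
        rw [hUY] at h1
        exact (h1.unique (s16q_HasQ.of_Gamma0 Y))
      rw [e] at h
      exact h

/-- **the generic norm case**: `s16ar_UP p l e` from the per-class `HasQ` statements. -/
theorem s16nt_UP_of_hasQ {l e r p : ℕ} (hl : l.Prime) (Nm : ldp_Num l e r)
    [Fact r.Prime] [Fact p.Prime] (hr3 : r ≤ 3) (hp5 : 5 ≤ p) (hp1 : l ^ (e - 1) ∣ p + 1)
    (hQ : haveI : NeZero r := ⟨(Fact.out : r.Prime).ne_zero⟩
      ∀ G : ModularForm (Gamma0 p) 2, ∀ x,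
      s16q_HasQ (r * p)
        (s16g_F r p G (s16e_Y r) (s16nt_P p G) (s16nt_P r (s16e_Y r)) ((l : ℂ) ^ (e - 1)) x)
        (s16b_phi p r ((l : ℂ) ^ (e - 1)) (qExpansion 1 G) (qExpansion 1 (s16e_Y r)) x)) :
    s16ar_UP p l e := by
  intro G hG0 hGn
  obtain ⟨B, hB⟩ := lvP_exists l hl
  have hr : r.Prime := Fact.out
  have hp : p.Prime := Fact.out
  have : NeZero r := ⟨hr.ne_zero⟩
  have hrp : r ≠ p := by omega
  have hN : r * p ≠ 0 := Nat.mul_ne_zero hr.ne_zero hp.ne_zero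
  have hG : ∀ j : ℕ, (G : ℍ → ℂ) ∣[(2 : ℤ)] (S * T ^ (j : ℤ)) = s16nt_P p G j :=
    fun j => s16c_slash_ST p G j
  have hY : ∀ i : ℕ, (s16e_Y r : ℍ → ℂ) ∣[(2 : ℤ)] (S * T ^ (i : ℤ)) = s16nt_P r (s16e_Y r) i :=
    fun i => s16c_slash_ST r (s16e_Y r) i
  have hnorm := s16g_coe_norm' hrp G (s16e_Y r) ((l : ℂ) ^ (e - 1)) (s16nt_P p G)
    (s16nt_P r (s16e_Y r)) hG hY
  obtain ⟨hφ, hmul, hexp⟩ := s16nt_Q_outputs (r * p) hN
    (s16g_normForm hrp (s16g_g r p G (s16e_Y r) ((l : ℂ) ^ (e - 1)))) _ _ (hQ G)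
  -- the coefficient data
  have a0 : coeff 0 (qExpansion 1 G) = 1 := hG0
  have ha : ∀ n, 0 < n → s16ca_Zl l e (coeff n (qExpansion 1 G)) := fun n hn => hGn n hn
  have h0 : coeff 0 (s16b_U p (qExpansion 1 G)) = 1 := by rw [s16b_coeff_U, zero_mul]; exact hG0
  have hh : ∀ n, 0 < n → s16ca_Zl l e (coeff n (s16b_U p (qExpansion 1 G))) := fun n hn => by
    rw [s16b_coeff_U]; exact hGn _ (Nat.mul_pos hn hp.pos)
  have y0 : coeff 0 (qExpansion 1 (s16e_Y r)) = 1 := s16e_Y_qCoeff_zero r hr.one_lt.ne'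
  have hy : ∀ n, 0 < n → coeff n (qExpansion 1 (s16e_Y r)) =
      (24 / ((r : ℂ) - 1)) * ((sigmaP r n : ℤ) : ℂ) := fun n hn => s16e_Y_qCoeff_pos r n hn
  have t1 : sigmaP r 1 = 1 := s16a_sigmaP_one r hr
  refine s16nc_contradiction_types hrp hr3 hp5 B (s16g_g r p G (s16e_Y r) ((l : ℂ) ^ (e - 1))) _
    hnorm _ hφ hmul hexp ?_ ?_ ?_ ?_
  · exact ldp_place_nn hl hB Nm p hp1 _ _ (fun n => sigmaP r n) a0 y0 ha hy t1 (r * p)
      (Nat.pos_of_ne_zero hN) _ (s16nt_coeff_phi_nn p r _ _ _)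
  · intro j
    exact (ldp_place_ns hl hB Nm p hp.pos (s16b_zeta p ^ j.val) hp.pos
      (s16nt_zeta_pow p hp.pos _) _ _ (fun n => sigmaP r n) h0 y0 hh hy t1 _
      (s16nt_coeff_phi_ns p r _ _ _ j)).lowAt
  · intro i
    exact ldp_place_sn hl hB Nm p hp.pos hp1 (s16b_zeta r ^ i.val) hr.pos
      (s16nt_zeta_pow r hr.pos _) _ _ (fun n => sigmaP r n) a0 y0 ha hy t1 _
      (s16nt_coeff_phi_sn p r _ _ _ i)
  · intro i j
    exact (ldp_place_ss hl hB Nm p hp.pos (s16b_zeta p ^ j.val) hp.pos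
      (s16nt_zeta_pow p hp.pos _) (s16b_zeta r ^ i.val) hr.pos (s16nt_zeta_pow r hr.pos _)
      _ _ (fun n => sigmaP r n) h0 y0 hh hy _ (s16nt_coeff_phi_ss p r _ _ _ i j)).lowAt

/-- **the generic norm case, unconditional**: `s16ar_UP p l e` for numeric data `ldp_Num l e r`
with `r ≤ 3`, `p ≥ 5`, `l^(e-1) ∣ p + 1`. -/
theorem s16nt_UP {l e r p : ℕ} (hl : l.Prime) (Nm : ldp_Num l e r)
    [Fact r.Prime] [Fact p.Prime] (hr3 : r ≤ 3) (hp5 : 5 ≤ p) (hp1 : l ^ (e - 1) ∣ p + 1) :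
    s16ar_UP p l e := by
  have hr : r.Prime := Fact.out
  have : NeZero r := ⟨hr.ne_zero⟩
  exact s16nt_UP_of_hasQ hl Nm hr3 hp5 hp1 fun G x =>
    s16nt_hasQ_class _ G (s16e_Y r) (s16e_heckeU_Y r hr) x

/-- **(U1)** `l ≥ 5` (including `l = p`): no `G ≡ 1 mod l`. -/
theorem s16nt_UP_U1 {l p : ℕ} (hl : l.Prime) (hl5 : 5 ≤ l) (hp : p.Prime) (hp5 : 5 ≤ p) :
    s16ar_UP p l 1 := by
  haveI : Fact p.Prime := ⟨hp⟩
  haveI : Fact (2 : ℕ).Prime := ⟨Nat.prime_two⟩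
  exact s16nt_UP hl (ldp_num_U1 hl hl5) (r := 2) (by norm_num) hp5 (by simp)

/-- **(U2)** `l = 3`, `p ≡ 2 mod 3`: no `G ≡ 1 mod 9`. -/
theorem s16nt_UP_U2 {p : ℕ} (hp : p.Prime) (hp5 : 5 ≤ p) (hp3 : p % 3 = 2) :
    s16ar_UP p 3 2 := by
  haveI : Fact p.Prime := ⟨hp⟩
  haveI : Fact (2 : ℕ).Prime := ⟨Nat.prime_two⟩
  exact s16nt_UP Nat.prime_three ldp_num_U2 (r := 2) (by norm_num) hp5
    (by norm_num; omega)

/-- **(U4)** `l = 2`, `p ≡ 3 mod 4`: no `G ≡ 1 mod 8`. -/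
theorem s16nt_UP_U4 {p : ℕ} (hp : p.Prime) (hp5 : 5 ≤ p) (hp4 : p % 4 = 3) :
    s16ar_UP p 2 3 := by
  haveI : Fact p.Prime := ⟨hp⟩
  haveI : Fact (3 : ℕ).Prime := ⟨Nat.prime_three⟩
  exact s16nt_UP Nat.prime_two ldp_num_U4 (r := 3) le_rfl hp5
    (by norm_num; omega)

end Fermat.Agent.S16NT
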