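/-
S16 stream [B] (helper16): `ContractA p` for every prime `p`, UNCONDITIONAL.

`s16uf_up p : Fermat.Agent.S16x.ContractA p` from helper26's `s16mo_contractA_of_norm`
(small primes `SmallP`, trace cases `TraceW4`, arithmetic glue `Arith`) and the three norm cases
`s16nt_UP_U1/U2/U4` of `Up/NormTop.lean`.
-/
import Fermat.Agent.S16.Up.MainOf
import Fermat.Agent.S16.Up.NormTop

set_option autoImplicit false

namespace Fermat.Agent.S16UF

open Fermat.Agent.S16x Fermat.Agent.S16AR Fermat.Agent.S16NT Fermat.Agent.S16MO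

/-- **stream [B] closed**: `ContractA p` for every prime `p`. -/
theorem s16uf_up (p : ℕ) [Fact p.Prime] : ContractA p :=
  s16mo_contractA_of_norm p
    (fun hp l hl hl5 => s16nt_UP_U1 hl hl5 Fact.out hp)
    (fun hp h3 => s16nt_UP_U2 Fact.out hp h3)
    (fun hp h2 => s16nt_UP_U4 Fact.out hp h2)

end Fermat.Agent.S16UF
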