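import Mathlib
import Fermat.Prelude.Def_ModularForm_HeckeOperatorForms
import Fermat.Agent.S16.Up.Conj

/-!
# S16 (B2'), `U_p` is an involution on `M₂(Γ₀(p))`

For `G ∈ M₂(Γ₀(p))` and `H = U_p G` (a modular form on `Γ₀(p)` via the prelude's `heckeULin`):
`U_p H = G`, and the conjugates of `H` are `H ∣ S T^j = -(G ∣ [[1,j],[0,p]])`.
-/

set_option autoImplicit false

open UpperHalfPlane ModularForm MatrixGroups CongruenceSubgroup Matrix

namespace Fermat.Agent.S16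

noncomputable section

/-- `H = U_p G` as a modular form on `Γ₀(p)`. -/
def s16c_UG (p : ℕ) [Fact p.Prime] (G : ModularForm (Gamma0 p) 2) : ModularForm (Gamma0 p) 2 :=
  haveI : NeZero p := ⟨(Fact.out : p.Prime).ne_zero⟩
  ModularForm.heckeULin 2 (dvd_refl p) G

theorem s16c_UG_coe (p : ℕ) [Fact p.Prime] (G : ModularForm (Gamma0 p) 2) :
    (s16c_UG p G : ℍ → ℂ) = ModularForm.heckeU 2 p (G : ℍ → ℂ) := rfl

/-- `U_p U_p G = G` on `M₂(Γ₀(p))`. -/
theorem s16c_heckeU_heckeU (p : ℕ) [Fact p.Prime] (G : ModularForm (Gamma0 p) 2) :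
    ModularForm.heckeU 2 p (ModularForm.heckeU 2 p (G : ℍ → ℂ)) = (G : ℍ → ℂ) := by
  have : NeZero p := ⟨(Fact.out : p.Prime).ne_zero⟩
  have h1 := s16c_slash_W_eq p G
  have h2 := s16c_slash_W_eq p (s16c_UG p G)
  rw [s16c_UG_coe] at h2
  have h3 := s16c_slash_W_W p (G : ℍ → ℂ)
  rw [h1, SlashAction.neg_slash, h2, neg_neg] at h3
  exact h3

theorem s16c_UG_UG (p : ℕ) [Fact p.Prime] (G : ModularForm (Gamma0 p) 2) :
    s16c_UG p (s16c_UG p G) = G :=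
  DFunLike.coe_injective (s16c_heckeU_heckeU p G)

/-- the conjugates of `H = U_p G`: `H ∣ S T^j = -(G ∣ [[1,j],[0,p]])`. -/
theorem s16c_slash_ST_UG (p : ℕ) [Fact p.Prime] (G : ModularForm (Gamma0 p) 2) (j : ℕ) :
    (s16c_UG p G : ℍ → ℂ) ∣[(2 : ℤ)] (ModularGroup.S * ModularGroup.T ^ (j : ℤ)) =
      -((G : ℍ → ℂ) ∣[(2 : ℤ)] ModularForm.heckeMatrix p j) := by
  rw [s16c_slash_ST p (s16c_UG p G) j, s16c_UG_coe, s16c_heckeU_heckeU]

end

end Fermat.Agent.S16
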