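import Fermat.Agent.S16.Contracts
import Fermat.Agent.S16.Up.Zl

/-!
# S16 stream [B]: `ContractA p` from the five `ℓ`-adic UP case lemmas (arithmetic glue)

`s16ca_Zl ℓ e x`  : `x ∈ ℓ^e ℤ_(ℓ)` (as a complex number; defined in `Up/Zl.lean`).
`s16ca_UPcase ℓ e p` : there is no weight-2 form `G` on `Γ₀(p)` with `a_0(G) = 1` and
`a_n(G) ∈ ℓ^e ℤ_(ℓ)` for all `n ≥ 1`.

`s16ca_contractA_of_cases` : for a prime `p ≥ 5`, the five case lemmas
(`ℓ ≥ 5, e = 1`), (`ℓ = 3, e = 2, p ≡ 2 (3)`), (`ℓ = 3, e = 1, p ≡ 1 (3)`),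
(`ℓ = 2, e = 3, p ≡ 3 (4)`), (`ℓ = 2, e = 2, p ≡ 1 (4)`) imply `ContractA p`.
-/

set_option autoImplicit false

namespace Fermat.Agent.S16x

open ModularCurve CuspForm ModularFormClass

/-- the `ℓ`-adic UP case lemma for `(ℓ, e, p)` -/
def s16ca_UPcase (l e p : ℕ) : Prop :=
  ∀ G : ModularForm (CongruenceSubgroup.Gamma0 p) 2, qCoeff (⇑G) 0 = 1 →
    (∀ n : ℕ, 0 < n → s16ca_Zl l e (qCoeff (⇑G) n)) → False

/-- pure arithmetic: if `r ∉ (g/24) ℤ` with `g * c = 24`, there is a prime `ℓ` such that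
`a / r ∈ ℓ^(v_ℓ(c)+1) ℤ_(ℓ)` for all integers `a`.  Stated with an explicit exponent `e` such that
`ℓ^(e-1) ∣ c`. -/
theorem s16ca_arith (g c : ℕ) (hgc : g * c = 24) (r : ℚ)
    (hr : ¬ ∃ z : ℤ, r = z * ((g : ℚ) / 24)) :
    ∃ l : ℕ, l.Prime ∧ r ≠ 0 ∧ ∀ e : ℕ, l ^ e ∣ l * c → ∀ a : ℤ, ∃ (b : ℤ) (s : ℕ), ¬ l ∣ s ∧
      (s : ℚ) * (r⁻¹ * a) = (l : ℚ) ^ e * b := by
  have hg0 : g ≠ 0 := by rintro rfl; simp at hgc
  have hc0 : c ≠ 0 := by rintro rfl; simp at hgc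
  have hgQ : (g : ℚ) ≠ 0 := Nat.cast_ne_zero.mpr hg0
  have hcQ : (c : ℚ) ≠ 0 := Nat.cast_ne_zero.mpr hc0
  have hgcQ : (g : ℚ) * c = 24 := by exact_mod_cast hgc
  -- `x = r * c`
  set x : ℚ := r * c with hx
  have hrx : r = x * ((g : ℚ) / 24) := by
    rw [hx, ← hgcQ]; field_simp
  have hden : x.den ≠ 1 := by
    intro h1
    apply hr
    refine ⟨x.num, ?_⟩
    rw [hrx]
    congr 1
    exact (Rat.den_eq_one_iff x).mp h1 |>.symm
  obtain ⟨l, hl, hld⟩ := Nat.exists_prime_and_dvd hden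
  have hr0 : r ≠ 0 := by
    rintro h0
    apply hden
    rw [hx, h0, zero_mul]
    rfl
  have hx0 : x ≠ 0 := mul_ne_zero hr0 hcQ
  have hnum0 : x.num ≠ 0 := Rat.num_ne_zero.mpr hx0
  refine ⟨l, hl, hr0, ?_⟩
  intro e he a
  -- `l ∤ num`
  have hcop : Nat.Coprime x.num.natAbs x.den := x.reduced
  have hlnum : ¬ l ∣ x.num.natAbs := by
    intro h
    have := Nat.dvd_gcd h hld
    rw [hcop] at this
    exact hl.one_lt.ne' (Nat.dvd_one.mp this)
  -- `l^e ∣ den * c`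
  obtain ⟨d', hd'⟩ := hld
  have he' : l ^ e ∣ x.den * c := by
    rw [hd', mul_right_comm]
    exact Dvd.dvd.mul_right he d'
  obtain ⟨w, hw⟩ := he'
  refine ⟨x.num.sign * a * w, x.num.natAbs, hlnum, ?_⟩
  -- `r⁻¹ = den * c / num`
  have hxnd : x = (x.num : ℚ) / (x.den : ℚ) := (Rat.num_div_den x).symm
  have hdenQ : (x.den : ℚ) ≠ 0 := Nat.cast_ne_zero.mpr x.den_nz
  have hnumQ : (x.num : ℚ) ≠ 0 := Int.cast_ne_zero.mpr hnum0
  have hr' : r = (x.num : ℚ) / ((x.den : ℚ) * c) := by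
    have : r = x / c := by rw [hx]; field_simp
    rw [this]
    conv_lhs => rw [hxnd]
    field_simp
  have hwQ : ((x.den : ℚ)) * c = (l : ℚ) ^ e * w := by exact_mod_cast hw
  have habs : ((x.num.natAbs : ℕ) : ℚ) = (x.num.sign : ℚ) * (x.num : ℚ) := by
    have : ((x.num.natAbs : ℕ) : ℤ) = x.num.sign * x.num := (Int.sign_mul_self x.num).symm
    rw [← Int.cast_natCast (R := ℚ), this, Int.cast_mul]
  rw [habs, hr']
  push_cast
  rw [inv_div]
  have h1 : (x.num : ℚ) * ((x.den : ℚ) * c / x.num * a) = (x.den : ℚ) * c * a := by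
    field_simp
  calc (x.num.sign : ℚ) * x.num * ((x.den : ℚ) * c / x.num * a)
      = (x.num.sign : ℚ) * ((x.num : ℚ) * ((x.den : ℚ) * c / x.num * a)) := by ring
    _ = (x.num.sign : ℚ) * ((l : ℚ) ^ e * w * a) := by rw [h1, hwQ]
    _ = (l : ℚ) ^ e * ((x.num.sign : ℚ) * a * w) := by ring

/-- `q`-coefficients of a scalar multiple. -/
theorem s16ca_qCoeff_smul (N : ℕ) (c : ℂ) (H : ModularForm (CongruenceSubgroup.Gamma0 N) 2)
    (n : ℕ) : qCoeff (⇑(c • H)) n = c * qCoeff (⇑H) n := by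
  have h1 : (⇑(c • H) : UpperHalfPlane → ℂ) = c • ⇑H := rfl
  simp only [qCoeff, h1]
  rw [ModularForm.qExpansion_smul one_pos (CongruenceSubgroup.one_mem_strictPeriods_Gamma0 N) c H]
  simp only [PowerSeries.coeff_smul, smul_eq_mul]

/-- the gcd `gcd (p-1) 12` in terms of `p % 12`. -/
theorem s16ca_gcd_cases (p : ℕ) (hp : p.Prime) (hp5 : 5 ≤ p) :
    (p % 12 = 1 ∧ Nat.gcd (p - 1) 12 = 12) ∨ (p % 12 = 5 ∧ Nat.gcd (p - 1) 12 = 4) ∨
      (p % 12 = 7 ∧ Nat.gcd (p - 1) 12 = 6) ∨ (p % 12 = 11 ∧ Nat.gcd (p - 1) 12 = 2) := by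
  have h2 : p % 2 = 1 := by
    rcases hp.eq_two_or_odd with h | h
    · omega
    · exact h
  have h3 : p % 3 ≠ 0 := by
    intro h
    have : 3 ∣ p := Nat.dvd_of_mod_eq_zero h
    have := (Nat.prime_dvd_prime_iff_eq Nat.prime_three hp).mp this
    omega
  have hg : Nat.gcd (p - 1) 12 = Nat.gcd ((p - 1) % 12) 12 := by
    rw [Nat.gcd_comm, Nat.gcd_rec 12 (p - 1)]
  have hcases : p % 12 = 1 ∨ p % 12 = 5 ∨ p % 12 = 7 ∨ p % 12 = 11 := by omega
  rcases hcases with h | h | h | h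
  · left
    refine ⟨h, ?_⟩
    have : (p - 1) % 12 = 0 := by omega
    rw [hg, this]; rfl
  · right; left
    refine ⟨h, ?_⟩
    have : (p - 1) % 12 = 4 := by omega
    rw [hg, this]; rfl
  · right; right; left
    refine ⟨h, ?_⟩
    have : (p - 1) % 12 = 6 := by omega
    rw [hg, this]; rfl
  · right; right; right
    refine ⟨h, ?_⟩
    have : (p - 1) % 12 = 10 := by omega
    rw [hg, this]; rfl

/-- **`ContractA p` from the five `ℓ`-adic case lemmas** (`p ≥ 5`). -/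
theorem s16ca_contractA_of_cases (p : ℕ) [Fact p.Prime] (hp5 : 5 ≤ p)
    (h5 : ∀ l : ℕ, l.Prime → 5 ≤ l → s16ca_UPcase l 1 p)
    (h3a : p % 3 = 2 → s16ca_UPcase 3 2 p) (h3b : p % 3 = 1 → s16ca_UPcase 3 1 p)
    (h2a : p % 4 = 3 → s16ca_UPcase 2 3 p) (h2b : p % 4 = 1 → s16ca_UPcase 2 2 p) :
    ContractA p := by
  intro H r hH0 hHk
  by_contra hcon
  have hp : p.Prime := Fact.out
  -- `g * c = 24`
  set g := Nat.gcd (p - 1) 12 with hg
  have hg12 : g ∣ 12 := Nat.gcd_dvd_right _ _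
  have hg24 : g ∣ 24 := hg12.trans (by norm_num)
  obtain ⟨c, hc⟩ := hg24
  obtain ⟨l, hl, hr0, hall⟩ := s16ca_arith g c hc.symm r hcon
  have hrC : (r : ℂ) ≠ 0 := by exact_mod_cast hr0
  -- the normalised form
  let G : ModularForm (CongruenceSubgroup.Gamma0 p) 2 := ((r : ℂ)⁻¹) • H
  have hG0 : qCoeff (⇑G) 0 = 1 := by
    rw [s16ca_qCoeff_smul, hH0, inv_mul_cancel₀ hrC]
  have hGn : ∀ e : ℕ, l ^ e ∣ l * c → ∀ n : ℕ, 0 < n → s16ca_Zl l e (qCoeff (⇑G) n) := by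
    intro e he n hn
    obtain ⟨a, ha⟩ := hHk n hn
    obtain ⟨b, s, hs, hbs⟩ := hall e he a
    refine ⟨b, s, hs, ?_⟩
    rw [s16ca_qCoeff_smul, ha]
    have := congrArg (fun t : ℚ => (t : ℂ)) hbs
    simpa using this
  -- case analysis on `l`
  by_cases hl5 : 5 ≤ l
  · exact h5 l hl hl5 G hG0 (hGn 1 (by rw [pow_one]; exact Dvd.intro _ rfl))
  · have hl23 : l = 2 ∨ l = 3 := by
      have h2 := hl.two_le
      have : l = 2 ∨ l = 3 ∨ l = 4 := by omega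
      rcases this with h | h | h
      · exact Or.inl h
      · exact Or.inr h
      · exfalso; rw [h] at hl; exact absurd hl (by norm_num)
    rcases s16ca_gcd_cases p hp hp5 with ⟨hm, hgv⟩ | ⟨hm, hgv⟩ | ⟨hm, hgv⟩ | ⟨hm, hgv⟩
    · -- p ≡ 1 (12), g = 12, c = 2
      have hc2 : c = 2 := by rw [hg, hgv] at hc; omega
      rcases hl23 with rfl | rfl
      · exact h2b (by omega) G hG0 (hGn 2 (by rw [hc2]; norm_num))
      · exact h3b (by omega) G hG0 (hGn 1 (by rw [hc2]; norm_num))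
    · -- p ≡ 5 (12), g = 4, c = 6
      have hc2 : c = 6 := by rw [hg, hgv] at hc; omega
      rcases hl23 with rfl | rfl
      · exact h2b (by omega) G hG0 (hGn 2 (by rw [hc2]; norm_num))
      · exact h3a (by omega) G hG0 (hGn 2 (by rw [hc2]; norm_num))
    · -- p ≡ 7 (12), g = 6, c = 4
      have hc2 : c = 4 := by rw [hg, hgv] at hc; omega
      rcases hl23 with rfl | rfl
      · exact h2a (by omega) G hG0 (hGn 3 (by rw [hc2]; norm_num))
      · exact h3b (by omega) G hG0 (hGn 1 (by rw [hc2]; norm_num))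
    · -- p ≡ 11 (12), g = 2, c = 12
      have hc2 : c = 12 := by rw [hg, hgv] at hc; omega
      rcases hl23 with rfl | rfl
      · exact h2a (by omega) G hG0 (hGn 3 (by rw [hc2]; norm_num))
      · exact h3a (by omega) G hG0 (hGn 2 (by rw [hc2]; norm_num))

end Fermat.Agent.S16x
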