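import Fermat.Agent.S16.Up.CosetProd

set_option autoImplicit false

/-!
# S16 (B5): coset supplements

* the norm / trace to level one as a product / sum over ANY system of representatives
  `rep : X → SL(2, ℤ)` with `c (rep x) = x` (transversal form, no explicit formula for the
  conjugates needed);
* `Γ₀(r p) = Γ₀(r) ⊓ Γ₀(p)`, `Γ₀(N) ≤ Γ₀(d)` for `d ∣ N`, and the restriction of a modular form to a
  smaller subgroup (so `a • G + b • Y` is a form on `Γ₀(r p)`);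
* membership of the representatives in `Γ₀(r)`, `Γ₀(p)` read off from the class.
-/

namespace Fermat.Agent.S16K

open Matrix MatrixGroups CongruenceSubgroup UpperHalfPlane ModularForm
open Matrix.SpecialLinearGroup (mapGL)

section transversal

variable {X : Type*} {Γ : Subgroup SL(2, ℤ)} {c : SL(2, ℤ) → X} {k : ℤ}

/-- A form invariant under `Γ` has the same conjugate at two elements of the same class. -/
theorem s16kc_slash_eq_of_cls_eq (h : s16k_IsCls Γ c) {F' : Type*} [FunLike F' ℍ ℂ]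
    [SlashInvariantFormClass F' (Γ.map (mapGL ℝ)) k] (f : F') {γ γ' : SL(2, ℤ)}
    (e : c γ = c γ') : (f : ℍ → ℂ) ∣[k] γ = (f : ℍ → ℂ) ∣[k] γ' := by
  have hg : γ * γ'⁻¹ ∈ Γ := (h.eq_iff γ γ').1 e
  have e2 : γ = (γ * γ'⁻¹) * γ' := by group
  conv_lhs => rw [e2, SlashAction.slash_mul]
  congr 1
  rw [ModularForm.SL_slash]
  exact SlashInvariantFormClass.slash_action_eq f _ ((s16k_mapGL_mem_iff Γ _).2 hg)

/-- A system of representatives exists. -/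
theorem s16kc_exists_rep (h : s16k_IsCls Γ c) : ∃ rep : X → SL(2, ℤ), ∀ x, c (rep x) = x :=
  ⟨fun x => Classical.choose (h.surj x), fun x => Classical.choose_spec (h.surj x)⟩

variable [Fintype X]

/-- The norm to level one as a product over a system of representatives. -/
theorem s16kc_norm_eq_prod_rep (h : s16k_IsCls Γ c) [(Γ.map (mapGL ℝ)).IsFiniteRelIndex 𝒮ℒ]
    (f : ModularForm (Γ.map (mapGL ℝ)) k) (rep : X → SL(2, ℤ)) (hrep : ∀ x, c (rep x) = x) :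
    (ModularForm.norm 𝒮ℒ f : ℍ → ℂ) = ∏ x, (f : ℍ → ℂ) ∣[k] rep x :=
  s16k_norm_eq_prod h f (fun x => (f : ℍ → ℂ) ∣[k] rep x) fun γ =>
    s16kc_slash_eq_of_cls_eq h f (hrep (c γ)).symm

/-- The trace to level one as a sum over a system of representatives. -/
theorem s16kc_trace_eq_sum_rep (h : s16k_IsCls Γ c) [(Γ.map (mapGL ℝ)).IsFiniteRelIndex 𝒮ℒ]
    (f : ModularForm (Γ.map (mapGL ℝ)) k) (rep : X → SL(2, ℤ)) (hrep : ∀ x, c (rep x) = x) :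
    (ModularForm.trace 𝒮ℒ f : ℍ → ℂ) = ∑ x, (f : ℍ → ℂ) ∣[k] rep x :=
  s16k_trace_eq_sum h f (fun x => (f : ℍ → ℂ) ∣[k] rep x) fun γ =>
    s16kc_slash_eq_of_cls_eq h f (hrep (c γ)).symm

end transversal

section levels

theorem s16kc_Gamma0_le {d N : ℕ} (h : d ∣ N) : Gamma0 N ≤ Gamma0 d := by
  intro γ hγ
  rw [Gamma0_mem, ZMod.intCast_zmod_eq_zero_iff_dvd] at hγ ⊢
  exact dvd_trans (Int.natCast_dvd_natCast.2 h) hγ

theorem s16kc_Gamma0_mul_eq_inf {r p : ℕ} (hrp : Nat.Coprime r p) :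
    Gamma0 (r * p) = Gamma0 r ⊓ Gamma0 p := by
  ext γ
  rw [Subgroup.mem_inf]
  exact s16k_Gamma0_mul_mem_iff hrp γ

theorem s16kc_map_le {Γ Γ' : Subgroup SL(2, ℤ)} (h : Γ' ≤ Γ) :
    Γ'.map (mapGL ℝ) ≤ Γ.map (mapGL ℝ) :=
  Subgroup.map_mono h

/-- Restriction of a modular form to a smaller subgroup. -/
def s16kc_restrict {𝒢 𝒢' : Subgroup (GL (Fin 2) ℝ)} (hle : 𝒢' ≤ 𝒢) {k : ℤ}
    (f : ModularForm 𝒢 k) : ModularForm 𝒢' k where
  toFun := f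
  slash_action_eq' γ hγ := f.slash_action_eq' γ (hle hγ)
  holo' := f.holo'
  bdd_at_cusps' hc := f.bdd_at_cusps' (hc.mono hle)

@[simp] theorem s16kc_restrict_coe {𝒢 𝒢' : Subgroup (GL (Fin 2) ℝ)} (hle : 𝒢' ≤ 𝒢) {k : ℤ}
    (f : ModularForm 𝒢 k) : (s16kc_restrict hle f : ℍ → ℂ) = f := rfl

/-- A form on `Γ₀(d)` viewed on `Γ₀(N)`, `d ∣ N`. -/
def s16kc_toLevel {d N : ℕ} (h : d ∣ N) {k : ℤ} (f : ModularForm ((Gamma0 d).map (mapGL ℝ)) k) :
    ModularForm ((Gamma0 N).map (mapGL ℝ)) k :=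
  s16kc_restrict (s16kc_map_le (s16kc_Gamma0_le h)) f

@[simp] theorem s16kc_toLevel_coe {d N : ℕ} (h : d ∣ N) {k : ℤ}
    (f : ModularForm ((Gamma0 d).map (mapGL ℝ)) k) : (s16kc_toLevel h f : ℍ → ℂ) = f := rfl

end levels

section two

variable (r p : ℕ)

theorem s16kc_cls2_fst (γ : SL(2, ℤ)) : (s16k_cls2 r p γ).1 = s16k_cls r γ := rfl

theorem s16kc_cls2_snd (γ : SL(2, ℤ)) : (s16k_cls2 r p γ).2 = s16k_cls p γ := rfl

theorem s16kc_mem_Gamma0_left_iff (γ : SL(2, ℤ)) :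
    γ ∈ Gamma0 r ↔ (s16k_cls2 r p γ).1 = none :=
  (s16k_cls_eq_none_iff r γ).symm

theorem s16kc_mem_Gamma0_right_iff (γ : SL(2, ℤ)) :
    γ ∈ Gamma0 p ↔ (s16k_cls2 r p γ).2 = none :=
  (s16k_cls_eq_none_iff p γ).symm

variable [Fact r.Prime] [Fact p.Prime]

/-- The norm from `Γ₀(r p)` to level one as a product over representatives of the
`(r + 1)(p + 1)` classes; `rep x ∈ Γ₀(r) ↔ x.1 = none`, `rep x ∈ Γ₀(p) ↔ x.2 = none`. -/
theorem s16kc_norm_two_rep (hrp : r ≠ p) {k : ℤ}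
    [((Gamma0 (r * p)).map (mapGL ℝ)).IsFiniteRelIndex 𝒮ℒ]
    (f : ModularForm ((Gamma0 (r * p)).map (mapGL ℝ)) k) :
    ∃ rep : Option (ZMod r) × Option (ZMod p) → SL(2, ℤ),
      (∀ x, s16k_cls2 r p (rep x) = x) ∧
      (∀ x, rep x ∈ Gamma0 r ↔ x.1 = none) ∧ (∀ x, rep x ∈ Gamma0 p ↔ x.2 = none) ∧
      (ModularForm.norm 𝒮ℒ f : ℍ → ℂ) = ∏ x, (f : ℍ → ℂ) ∣[k] rep x := by
  obtain ⟨rep, hrep⟩ := s16kc_exists_rep (s16k_cls2_isCls r p hrp)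
  refine ⟨rep, hrep, fun x => ?_, fun x => ?_,
    s16kc_norm_eq_prod_rep (s16k_cls2_isCls r p hrp) f rep hrep⟩
  · rw [s16kc_mem_Gamma0_left_iff r p, hrep]
  · rw [s16kc_mem_Gamma0_right_iff r p, hrep]

/-- The trace from `Γ₀(r p)` to level one as a sum over representatives. -/
theorem s16kc_trace_two_rep (hrp : r ≠ p) {k : ℤ}
    [((Gamma0 (r * p)).map (mapGL ℝ)).IsFiniteRelIndex 𝒮ℒ]
    (f : ModularForm ((Gamma0 (r * p)).map (mapGL ℝ)) k) :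
    ∃ rep : Option (ZMod r) × Option (ZMod p) → SL(2, ℤ),
      (∀ x, s16k_cls2 r p (rep x) = x) ∧
      (∀ x, rep x ∈ Gamma0 r ↔ x.1 = none) ∧ (∀ x, rep x ∈ Gamma0 p ↔ x.2 = none) ∧
      (ModularForm.trace 𝒮ℒ f : ℍ → ℂ) = ∑ x, (f : ℍ → ℂ) ∣[k] rep x := by
  obtain ⟨rep, hrep⟩ := s16kc_exists_rep (s16k_cls2_isCls r p hrp)
  refine ⟨rep, hrep, fun x => ?_, fun x => ?_,
    s16kc_trace_eq_sum_rep (s16k_cls2_isCls r p hrp) f rep hrep⟩
  · rw [s16kc_mem_Gamma0_left_iff r p, hrep]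
  · rw [s16kc_mem_Gamma0_right_iff r p, hrep]

/-- One prime: the norm from `Γ₀(p)` as a product over representatives. -/
theorem s16kc_norm_prime_rep {k : ℤ} [((Gamma0 p).map (mapGL ℝ)).IsFiniteRelIndex 𝒮ℒ]
    (f : ModularForm ((Gamma0 p).map (mapGL ℝ)) k) :
    ∃ rep : Option (ZMod p) → SL(2, ℤ),
      (∀ x, s16k_cls p (rep x) = x) ∧ (∀ x, rep x ∈ Gamma0 p ↔ x = none) ∧
      (ModularForm.norm 𝒮ℒ f : ℍ → ℂ) = ∏ x, (f : ℍ → ℂ) ∣[k] rep x := by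
  obtain ⟨rep, hrep⟩ := s16kc_exists_rep (s16k_cls_isCls p)
  refine ⟨rep, hrep, fun x => ?_, s16kc_norm_eq_prod_rep (s16k_cls_isCls p) f rep hrep⟩
  rw [← s16k_cls_eq_none_iff, hrep]

/-- One prime: the trace from `Γ₀(p)` as a sum over representatives. -/
theorem s16kc_trace_prime_rep {k : ℤ} [((Gamma0 p).map (mapGL ℝ)).IsFiniteRelIndex 𝒮ℒ]
    (f : ModularForm ((Gamma0 p).map (mapGL ℝ)) k) :
    ∃ rep : Option (ZMod p) → SL(2, ℤ),
      (∀ x, s16k_cls p (rep x) = x) ∧ (∀ x, rep x ∈ Gamma0 p ↔ x = none) ∧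
      (ModularForm.trace 𝒮ℒ f : ℍ → ℂ) = ∑ x, (f : ℍ → ℂ) ∣[k] rep x := by
  obtain ⟨rep, hrep⟩ := s16kc_exists_rep (s16k_cls_isCls p)
  refine ⟨rep, hrep, fun x => ?_, s16kc_trace_eq_sum_rep (s16k_cls_isCls p) f rep hrep⟩
  rw [← s16k_cls_eq_none_iff, hrep]

end two

end Fermat.Agent.S16K
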