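/-
S16 stream [B], chunk (L3) (helper16): the formal data `s16b_Data` of the generic norm case from
the real situation.

`B` a place of `ℂ` above `l` (`LevelOne/Place.lean`), `v = B.valuation`, `G ∈ M₂(Γ₀(p))` with
`a₀(G) = 1`, `a_n(G) ∈ l^e ℤ_(l)` (`s16ar_Zl`), `Y = Y_r` (helper2's `s16e_Y r`), and the three
parameter sets
* (U1) `r = 2`, `l ≥ 5`, `e = 1`, `c = 1`, `K = 24`;
* (U2) `r = 2`, `l = 3`, `e = 2`, `c = 3`, `K = 24`, `p % 3 = 2`;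
* (U4) `r = 3`, `l = 2`, `e = 3`, `c = 4`, `K = 12`, `p % 4 = 3`.
-/
import Mathlib
import Fermat.Agent.S16.Up.Phi
import Fermat.Agent.S16.Up.Arith
import Fermat.Agent.S16.Up.Zl
import Fermat.Agent.S16.LevelOne.Place
import Fermat.Agent.S16.Eis.Contract
import Fermat.Agent.S16.Dual.Arith

set_option autoImplicit false

open scoped MatrixGroups ModularForm
open CongruenceSubgroup UpperHalfPlane PowerSeries
open Fermat.Agent.S16B Fermat.Agent.S16C Fermat.Agent.S16AR Fermat.Agent.S16x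
open Fermat.Agent.S16.Eis

namespace Fermat.Agent.S16DO

variable {B : ValuationSubring ℂ} {l : ℕ}

/-- valuation `< 1` iff in the maximal ideal -/
lemma s16do_val_lt_one_iff (x : ℂ) : B.valuation x < 1 ↔ x ∈ lvP_mI B :=
  (lvP_mem_mI_iff_val B).symm

lemma s16do_val_le_one_of_mem {x : ℂ} (hx : x ∈ B) : B.valuation x ≤ 1 :=
  (B.valuation_le_one_iff x).mpr hx

/-- a `B`-integral element outside the maximal ideal has valuation `1` -/
lemma s16do_val_eq_one {x : ℂ} (hx : x ∈ B) (hx' : x ∉ lvP_mI B) : B.valuation x = 1 := by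
  refine le_antisymm (s16do_val_le_one_of_mem hx) ?_
  by_contra h
  exact hx' ((lvP_mem_mI_iff_val B).mpr (lt_of_not_ge h))

section above

variable (hl : l.Prime) (hB : ((l : ℕ) : ℂ) ∈ B.nonunits)

include hl hB

omit hl in
lemma s16do_val_l_lt : B.valuation (l : ℂ) < 1 :=
  (lvP_mem_mI_iff_val B).mp ((lvP_mem_mI_iff B).mpr hB)

omit hB in
lemma s16do_val_l_ne : B.valuation (l : ℂ) ≠ 0 := by
  rw [Valuation.ne_zero_iff]
  exact_mod_cast hl.ne_zero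

/-- integers prime to `l` have valuation `1` -/
lemma s16do_val_int_eq_one (m : ℤ) (hm : ¬ (l : ℤ) ∣ m) : B.valuation (m : ℂ) = 1 :=
  s16do_val_eq_one (lvP_int_mem B m) (fun h => hm ((lvP_int_mem_mI_iff hl hB m).mp h))

lemma s16do_val_nat_eq_one (m : ℕ) (hm : ¬ l ∣ m) : B.valuation (m : ℂ) = 1 := by
  have := s16do_val_int_eq_one hl hB (m : ℤ) (by rwa [Int.natCast_dvd_natCast])
  simpa using this

omit hl hB in
/-- roots of unity have valuation `1` -/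
lemma s16do_val_zeta (m : ℕ) (hm : 0 < m) : B.valuation (s16b_zeta m) = 1 := by
  have hpow : s16b_zeta m ^ m = 1 := by
    unfold s16b_zeta
    rw [← Complex.exp_nat_mul]
    have hm' : (m : ℂ) ≠ 0 := by exact_mod_cast hm.ne'
    rw [mul_div_cancel₀ _ hm']
    exact Complex.exp_two_pi_mul_I
  exact s16do_val_eq_one (lvP_mem_of_pow_eq_one B hm hpow)
    (lvP_not_mem_mI_of_pow_eq_one B hm hpow)

/-- `x ∈ l^e ℤ_(l)` has valuation `≤ v(l)^e` -/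
lemma s16do_val_Zl {e : ℕ} {x : ℂ} (hx : s16ar_Zl l e x) :
    B.valuation x ≤ B.valuation (l : ℂ) ^ e := by
  obtain ⟨y, hy, rfl⟩ := s16ca_Zl_exists_mul hl hB (show s16ca_Zl l e x from hx)
  rw [map_mul, map_pow]
  exact mul_le_of_le_one_right' (s16do_val_le_one_of_mem hy)

end above

/-- the `q`-expansion facts about `Y_r` in the shape of `s16b_Data` -/
lemma s16do_Y_coeff_zero (r : ℕ) [NeZero r] (hr : r ≠ 1) :
    coeff 0 (qExpansion 1 (s16e_Y r)) = 1 :=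
  s16e_Y_qCoeff_zero r hr

lemma s16do_Y_coeff_pos (r : ℕ) [NeZero r] (n : ℕ) (hn : 1 ≤ n) :
    coeff n (qExpansion 1 (s16e_Y r)) = (24 / ((r : ℂ) - 1)) * ((sigmaP r n : ℤ) : ℂ) :=
  s16e_Y_qCoeff_pos r n hn

/-- **the generic builder**: all fields of `s16b_Data` from the numeric side conditions -/
theorem s16do_data (hl : l.Prime) (hB : ((l : ℕ) : ℂ) ∈ B.nonunits)
    (p r e : ℕ) (c K : ℂ) [NeZero r] (hp : p.Prime) (hr : r.Prime) (hrp : r ≠ p)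
    (hlr : ¬ l ∣ r) (he : 1 ≤ e) (hc : c = (l : ℂ) ^ (e - 1))
    (hKr : K = 24 / ((r : ℂ) - 1))
    (hK : ∃ u : ℤ, K = c * u ∧ ¬ (l : ℤ) ∣ u)
    (hp1 : ∃ t : ℤ, (p : ℂ) + 1 = c * t)
    (hr1 : ∃ w : ℤ, (r : ℂ) + 1 = c * w ∧ ¬ (l : ℤ) ∣ w)
    (G : ModularForm (Gamma0 p) 2) (hG0 : (qExpansion 1 G).coeff 0 = 1)
    (hGn : ∀ n : ℕ, 1 ≤ n → s16ar_Zl l e ((qExpansion 1 G).coeff n)) :
    s16b_Data B.valuation p r l e c K (qExpansion 1 G) (qExpansion 1 (s16e_Y r)) where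
  hp := hp
  hr := hr
  hrp := hrp
  he := he
  hc := hc
  vl := s16do_val_l_lt hB
  vl0 := s16do_val_l_ne hl
  vint := fun m => s16do_val_le_one_of_mem (lvP_int_mem B m)
  vr := s16do_val_nat_eq_one hl hB r hlr
  vzp := s16do_val_zeta p hp.pos
  vzr := s16do_val_zeta r hr.pos
  g0 := hG0
  gn := fun n hn => s16do_val_Zl hl hB (hGn n hn)
  y0 := s16do_Y_coeff_zero r hr.one_lt.ne'
  y1 := by
    rw [s16do_Y_coeff_pos r 1 le_rfl, s16a_sigmaP_one r hr, hKr]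
    simp
  yn := fun n hn => ⟨sigmaP r n, by rw [s16do_Y_coeff_pos r n hn, hKr]⟩
  hK := by
    obtain ⟨u, hu, hlu⟩ := hK
    exact ⟨u, hu, s16do_val_int_eq_one hl hB u hlu⟩
  hp1 := hp1
  hr1 := by
    obtain ⟨w, hw, hlw⟩ := hr1
    exact ⟨w, hw, s16do_val_int_eq_one hl hB w hlw⟩

/-- **(U1)** `r = 2`, `l ≥ 5`, `e = 1`, `c = 1`, `K = 24` -/
theorem s16do_data_U1 (hl : l.Prime) (hl5 : 5 ≤ l) (hB : ((l : ℕ) : ℂ) ∈ B.nonunits)
    (p : ℕ) (hp : p.Prime) (hp5 : 5 ≤ p)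
    (G : ModularForm (Gamma0 p) 2) (hG0 : (qExpansion 1 G).coeff 0 = 1)
    (hGn : ∀ n : ℕ, 1 ≤ n → s16ar_Zl l 1 ((qExpansion 1 G).coeff n)) :
    s16b_Data B.valuation p 2 l 1 1 24 (qExpansion 1 G) (qExpansion 1 (s16e_Y 2)) := by
  have hl2 : ¬ l ∣ 2 := fun h => by
    have := Nat.le_of_dvd (by norm_num) h; omega
  have hl24 : ¬ (l : ℤ) ∣ 24 := by
    rw [show (24 : ℤ) = ((24 : ℕ) : ℤ) by norm_num, Int.natCast_dvd_natCast]
    intro h
    have h1 : l ∣ 2 ^ 3 * 3 := by simpa using h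
    rcases (Nat.Prime.dvd_mul hl).mp h1 with h2 | h3
    · have := (Nat.prime_dvd_prime_iff_eq hl Nat.prime_two).mp (hl.dvd_of_dvd_pow h2); omega
    · have := (Nat.prime_dvd_prime_iff_eq hl Nat.prime_three).mp h3; omega
  have hl3 : ¬ (l : ℤ) ∣ 3 := by
    rw [show (3 : ℤ) = ((3 : ℕ) : ℤ) by norm_num, Int.natCast_dvd_natCast]
    intro h
    have := (Nat.prime_dvd_prime_iff_eq hl Nat.prime_three).mp h; omega
  refine s16do_data hl hB p 2 1 1 24 hp Nat.prime_two (by omega) hl2 le_rfl (by simp)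
    (by norm_num) ⟨24, by norm_num, hl24⟩ ⟨(p : ℤ) + 1, by push_cast; ring⟩
    ⟨3, by norm_num, hl3⟩ G hG0 hGn

/-- **(U2)** `r = 2`, `l = 3`, `e = 2`, `c = 3`, `K = 24`, `p ≡ 2 mod 3` -/
theorem s16do_data_U2 (hB : ((3 : ℕ) : ℂ) ∈ B.nonunits)
    (p : ℕ) (hp : p.Prime) (hp5 : 5 ≤ p) (hp3 : p % 3 = 2)
    (G : ModularForm (Gamma0 p) 2) (hG0 : (qExpansion 1 G).coeff 0 = 1)
    (hGn : ∀ n : ℕ, 1 ≤ n → s16ar_Zl 3 2 ((qExpansion 1 G).coeff n)) :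
    s16b_Data B.valuation p 2 3 2 3 24 (qExpansion 1 G) (qExpansion 1 (s16e_Y 2)) := by
  obtain ⟨t, ht⟩ : ∃ t : ℕ, p + 1 = 3 * t := ⟨(p + 1) / 3, by omega⟩
  refine s16do_data Nat.prime_three hB p 2 2 3 24 hp Nat.prime_two (by omega) (by norm_num)
    (by norm_num) (by norm_num) (by norm_num) ⟨8, by norm_num, by norm_num⟩
    ⟨(t : ℤ), by
      have : ((p + 1 : ℕ) : ℂ) = ((3 * t : ℕ) : ℂ) := by rw [ht]
      push_cast at this ⊢
      exact this⟩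
    ⟨1, by norm_num, by norm_num⟩ G hG0 hGn

/-- **(U4)** `r = 3`, `l = 2`, `e = 3`, `c = 4`, `K = 12`, `p ≡ 3 mod 4` -/
theorem s16do_data_U4 (hB : ((2 : ℕ) : ℂ) ∈ B.nonunits)
    (p : ℕ) (hp : p.Prime) (hp5 : 5 ≤ p) (hp4 : p % 4 = 3)
    (G : ModularForm (Gamma0 p) 2) (hG0 : (qExpansion 1 G).coeff 0 = 1)
    (hGn : ∀ n : ℕ, 1 ≤ n → s16ar_Zl 2 3 ((qExpansion 1 G).coeff n)) :
    s16b_Data B.valuation p 3 2 3 4 12 (qExpansion 1 G) (qExpansion 1 (s16e_Y 3)) := by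
  obtain ⟨t, ht⟩ : ∃ t : ℕ, p + 1 = 4 * t := ⟨(p + 1) / 4, by omega⟩
  refine s16do_data Nat.prime_two hB p 3 3 4 12 hp Nat.prime_three (by omega) (by norm_num)
    (by norm_num) (by norm_num) (by norm_num) ⟨3, by norm_num, by norm_num⟩
    ⟨(t : ℤ), by
      have : ((p + 1 : ℕ) : ℂ) = ((4 * t : ℕ) : ℂ) := by rw [ht]
      push_cast at this ⊢
      exact this⟩
    ⟨1, by norm_num, by norm_num⟩ G hG0 hGn

end Fermat.Agent.S16DO
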