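/-
S16, stream [B] (UP engine), chunk (B3-alg): the FORMAL NORM on power series (owner helper14,
prefix `s16n_`).  For `n ≠ 0`, `R⟦X⟧` is free of rank `n` over `R⟦X^n⟧` with basis `1, X, …, X^(n-1)`;
`s16n_norm n hn f` is the determinant of multiplication by `f` in this basis, viewed as a power
series in `Y = X^n`.  Main facts:
  `s16n_norm` is a monoid hom; `s16n_norm_expand : Nm (c(X^n)) = c^n`; `s16n_norm_C`;
  `s16n_norm_map` (commutes with coefficient ring homs, e.g. reduction mod `l`);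
  `s16n_norm_ne_zero` (domains); `s16n_constantCoeff_norm`; `s16n_X_pow_dvd_norm`;
  `s16n_le_order_norm`;
  BRIDGE `s16n_expand_norm_eq_prod(_range)` : over a domain with a primitive `n`-th root of unity
  `ζ`, `(Nm f)(X^n) = ∏_{j<n} f(ζ^j X)`.
-/
import Mathlib

set_option autoImplicit false

open PowerSeries

namespace Fermat.Agent.S16N

variable {R : Type*} [CommRing R]

/-- the `(i,j)` entry of the matrix of multiplication by `f` on the basis `1, X, …, X^(n-1)`
of `R⟦X⟧` over `R⟦X^n⟧` (as a power series in `Y = X^n`) -/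
noncomputable def s16n_entry (n : ℕ) (f : R⟦X⟧) (i j : ℕ) : R⟦X⟧ :=
  PowerSeries.mk fun m => if j ≤ m * n + i then coeff (m * n + i - j) f else 0

lemma s16n_coeff_entry (n : ℕ) (f : R⟦X⟧) (i j m : ℕ) :
    coeff m (s16n_entry n f i j) = if j ≤ m * n + i then coeff (m * n + i - j) f else 0 := by
  simp [s16n_entry]

/-- the matrix of multiplication by `f` -/
noncomputable def s16n_mat (n : ℕ) (f : R⟦X⟧) : Matrix (Fin n) (Fin n) R⟦X⟧ :=
  Matrix.of fun i j => s16n_entry n f i j

/-- assemble `∑ i < n, X^i * a_i(X^n)` -/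
noncomputable def s16n_asm (n : ℕ) (hn : n ≠ 0) (a : Fin n → R⟦X⟧) : R⟦X⟧ :=
  ∑ i : Fin n, X ^ (i : ℕ) * expand n hn (a i)

lemma s16n_coeff_asm (n : ℕ) (hn : n ≠ 0) (a : Fin n → R⟦X⟧) (m : ℕ) (i₀ : Fin n) :
    coeff (m * n + i₀) (s16n_asm n hn a) = coeff m (a i₀) := by
  unfold s16n_asm
  rw [map_sum, Finset.sum_eq_single i₀]
  · rw [coeff_X_pow_mul', if_pos (Nat.le_add_left _ _), Nat.add_sub_cancel, mul_comm,
      coeff_expand_mul]
  · intro b _ hb
    rw [coeff_X_pow_mul']
    split_ifs with h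
    · rw [coeff_expand, if_neg]
      intro hdvd
      apply hb
      have h1 : (b : ℕ) ≡ m * n + i₀ [MOD n] := (Nat.modEq_iff_dvd' h).mpr hdvd
      have h2 : (b : ℕ) % n = (m * n + i₀) % n := h1
      rw [Nat.mul_add_mod_of_lt i₀.isLt, Nat.mod_eq_of_lt b.isLt] at h2
      exact Fin.ext h2
    · rfl
  · intro h; exact absurd (Finset.mem_univ _) h

lemma s16n_asm_injective (n : ℕ) (hn : n ≠ 0) : Function.Injective (s16n_asm (R := R) n hn) := by
  intro a b hab
  funext i
  ext m
  rw [← s16n_coeff_asm n hn a m i, ← s16n_coeff_asm n hn b m i, hab]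

/-- (K) : `f * X^j = ∑ i, X^i * (M f)_{ij}(X^n)` -/
lemma s16n_mul_X_pow (n : ℕ) (hn : n ≠ 0) (f : R⟦X⟧) (j : ℕ) :
    f * X ^ j = s16n_asm n hn (fun i => s16n_entry n f i j) := by
  ext N
  have hN : N = (N / n) * n + (⟨N % n, Nat.mod_lt _ (Nat.pos_of_ne_zero hn)⟩ : Fin n) := by
    simp [Nat.div_add_mod']
  rw [coeff_mul_X_pow']
  conv_rhs => rw [hN, s16n_coeff_asm, s16n_coeff_entry]
  simp only
  rw [Nat.div_add_mod']


lemma s16n_asm_mul_expand (n : ℕ) (hn : n ≠ 0) (a : Fin n → R⟦X⟧) (c : R⟦X⟧) :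
    s16n_asm n hn a * expand n hn c = s16n_asm n hn (fun i => a i * c) := by
  unfold s16n_asm
  rw [Finset.sum_mul]
  refine Finset.sum_congr rfl fun i _ => ?_
  rw [map_mul, mul_assoc]

lemma s16n_asm_sum {ι : Type*} (n : ℕ) (hn : n ≠ 0) (s : Finset ι) (a : ι → Fin n → R⟦X⟧) :
    s16n_asm n hn (fun i => ∑ k ∈ s, a k i) = ∑ k ∈ s, s16n_asm n hn (a k) := by
  unfold s16n_asm
  rw [Finset.sum_comm]
  refine Finset.sum_congr rfl fun i _ => ?_
  rw [map_sum, Finset.mul_sum]

lemma s16n_asm_single (n : ℕ) (hn : n ≠ 0) (j : Fin n) (c : R⟦X⟧) :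
    s16n_asm n hn (fun i => if i = j then c else 0) = X ^ (j : ℕ) * expand n hn c := by
  unfold s16n_asm
  rw [Finset.sum_eq_single j]
  · simp
  · intro b _ hb; simp [hb]
  · intro h; exact absurd (Finset.mem_univ _) h

/-- multiplicativity of the matrix -/
theorem s16n_mat_mul (n : ℕ) (hn : n ≠ 0) (f g : R⟦X⟧) :
    s16n_mat n (f * g) = s16n_mat n f * s16n_mat n g := by
  refine Matrix.ext fun i k => ?_
  have key : s16n_asm n hn (fun i : Fin n => s16n_entry n (f * g) i k) =
      s16n_asm n hn (fun i : Fin n => ∑ j : Fin n, s16n_entry n f i j * s16n_entry n g j k) := by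
    rw [← s16n_mul_X_pow, s16n_asm_sum]
    calc f * g * X ^ (k : ℕ) = f * (g * X ^ (k : ℕ)) := by ring
      _ = f * s16n_asm n hn (fun j : Fin n => s16n_entry n g j k) := by rw [s16n_mul_X_pow n hn g]
      _ = ∑ j : Fin n, (f * X ^ (j : ℕ)) * expand n hn (s16n_entry n g j k) := by
          unfold s16n_asm
          rw [Finset.mul_sum]
          refine Finset.sum_congr rfl fun j _ => ?_
          ring
      _ = _ := by
          refine Finset.sum_congr rfl fun j _ => ?_
          rw [s16n_mul_X_pow n hn f, s16n_asm_mul_expand]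
  have := congrFun (s16n_asm_injective n hn key) i
  simpa [s16n_mat, Matrix.mul_apply] using this

theorem s16n_mat_expand (n : ℕ) (hn : n ≠ 0) (c : R⟦X⟧) :
    s16n_mat n (expand n hn c) = c • (1 : Matrix (Fin n) (Fin n) R⟦X⟧) := by
  refine Matrix.ext fun i k => ?_
  have key : s16n_asm n hn (fun i : Fin n => s16n_entry n (expand n hn c) i k) =
      s16n_asm n hn (fun i : Fin n => if i = k then c else 0) := by
    rw [← s16n_mul_X_pow, s16n_asm_single, mul_comm]
  have := congrFun (s16n_asm_injective n hn key) i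
  simp only [s16n_mat, Matrix.of_apply, Matrix.smul_apply, Matrix.one_apply, smul_eq_mul]
  rw [this]
  split_ifs <;> simp

theorem s16n_mat_one (n : ℕ) (hn : n ≠ 0) :
    s16n_mat n (1 : R⟦X⟧) = 1 := by
  have := s16n_mat_expand n hn (1 : R⟦X⟧)
  rwa [map_one, one_smul] at this

/-- the norm from `R⟦X⟧` to `R⟦X^n⟧ = R⟦Y⟧` -/
noncomputable def s16n_norm (n : ℕ) (hn : n ≠ 0) : R⟦X⟧ →* R⟦X⟧ where
  toFun f := (s16n_mat n f).det
  map_one' := by rw [s16n_mat_one n hn, Matrix.det_one]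
  map_mul' f g := by rw [s16n_mat_mul n hn, Matrix.det_mul]

lemma s16n_norm_apply (n : ℕ) (hn : n ≠ 0) (f : R⟦X⟧) :
    s16n_norm n hn f = (s16n_mat n f).det := rfl

theorem s16n_norm_expand (n : ℕ) (hn : n ≠ 0) (c : R⟦X⟧) :
    s16n_norm n hn (expand n hn c) = c ^ n := by
  rw [s16n_norm_apply, s16n_mat_expand, Matrix.det_smul, Matrix.det_one, mul_one,
    Fintype.card_fin]

theorem s16n_norm_C (n : ℕ) (hn : n ≠ 0) (a : R) :
    s16n_norm n hn (C a : R⟦X⟧) = C (a ^ n) := by
  have := s16n_norm_expand n hn (C a : R⟦X⟧)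
  rwa [expand_C, ← map_pow] at this

theorem s16n_norm_map {S : Type*} [CommRing S] (φ : R →+* S) (n : ℕ) (hn : n ≠ 0) (f : R⟦X⟧) :
    PowerSeries.map φ (s16n_norm n hn f) = s16n_norm n hn (PowerSeries.map φ f) := by
  rw [s16n_norm_apply, s16n_norm_apply, RingHom.map_det]
  congr 1
  ext i j m
  simp only [RingHom.mapMatrix_apply, Matrix.map_apply, s16n_mat, Matrix.of_apply, coeff_map,
    s16n_coeff_entry]
  split_ifs <;> simp


/-- the norm of a nonzero series over a domain is nonzero -/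
theorem s16n_norm_ne_zero [IsDomain R] (n : ℕ) (hn : n ≠ 0) {f : R⟦X⟧} (hf : f ≠ 0) :
    s16n_norm n hn f ≠ 0 := by
  intro h0
  rw [s16n_norm_apply] at h0
  obtain ⟨v, hv, hMv⟩ := Matrix.exists_mulVec_eq_zero_iff.mpr h0
  -- `f * asm v = asm (M f *ᵥ v) = 0`
  have h1 : f * s16n_asm n hn v = s16n_asm n hn ((s16n_mat n f).mulVec v) := by
    have : (s16n_mat n f).mulVec v = fun i : Fin n => ∑ j : Fin n, s16n_entry n f i j * v j := by
      funext i
      simp [Matrix.mulVec, dotProduct, s16n_mat]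
    rw [this, s16n_asm_sum]
    unfold s16n_asm
    rw [Finset.mul_sum]
    refine Finset.sum_congr rfl fun j _ => ?_
    have := s16n_asm_mul_expand n hn (fun i : Fin n => s16n_entry n f i j) (v j)
    rw [← s16n_mul_X_pow] at this
    unfold s16n_asm at this
    rw [← this]
    ring
  rw [hMv] at h1
  have h2 : s16n_asm n hn (0 : Fin n → R⟦X⟧) = 0 := by
    unfold s16n_asm; simp
  rw [h2] at h1
  rcases mul_eq_zero.mp h1 with h | h
  · exact hf h
  · apply hv
    apply s16n_asm_injective n hn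
    rw [h, h2]

/-! ### compatibility of `rescale` and `expand` -/

lemma s16n_rescale_expand (n : ℕ) (hn : n ≠ 0) (a : R) (c : R⟦X⟧) :
    rescale a (expand n hn c) = expand n hn (rescale (a ^ n) c) := by
  ext N
  rw [coeff_rescale, coeff_expand, coeff_expand]
  split_ifs with h
  · obtain ⟨k, rfl⟩ := h
    rw [coeff_rescale, Nat.mul_div_cancel_left _ (Nat.pos_of_ne_zero hn), pow_mul]
  · rw [mul_zero]

lemma s16n_rescale_expand_of_pow_eq_one (n : ℕ) (hn : n ≠ 0) {a : R} (ha : a ^ n = 1)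
    (c : R⟦X⟧) : rescale a (expand n hn c) = expand n hn c := by
  rw [s16n_rescale_expand, ha, rescale_one, RingHom.id_apply]

lemma s16n_rescale_X_pow (a : R) (i : ℕ) : rescale a (X ^ i : R⟦X⟧) = (C a * X) ^ i := by
  rw [map_pow, rescale_X]

/-- **Bridge**: over a domain containing a primitive `n`-th root of unity `ζ`,
`(Nm f)(X^n) = ∏_{j<n} f(ζ^j X)`. -/
theorem s16n_expand_norm_eq_prod [IsDomain R] (n : ℕ) (hn : n ≠ 0) {ζ : R}
    (hζ : IsPrimitiveRoot ζ n) (f : R⟦X⟧) :
    expand n hn (s16n_norm n hn f) = ∏ j : Fin n, rescale (ζ ^ (j : ℕ)) f := by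
  classical
  -- nodes of the Vandermonde matrix
  set v : Fin n → R⟦X⟧ := fun j => C (ζ ^ (j : ℕ)) * X with hv
  have hvinj : Function.Injective v := by
    intro j j' h
    have h1 : coeff 1 (v j) = coeff 1 (v j') := by rw [h]
    simp only [hv, coeff_C_mul, coeff_one_X, mul_one] at h1
    exact Fin.ext (hζ.pow_inj j.isLt j'.isLt h1)
  have hV : (Matrix.vandermonde v).det ≠ 0 := Matrix.det_vandermonde_ne_zero_iff.mpr hvinj
  set B : Matrix (Fin n) (Fin n) R⟦X⟧ := (expand n hn).toRingHom.mapMatrix (s16n_mat n f) with hB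
  set D : Matrix (Fin n) (Fin n) R⟦X⟧ := Matrix.diagonal fun j => rescale (ζ ^ (j : ℕ)) f with hD
  have hpow : ∀ j : Fin n, (ζ ^ (j : ℕ)) ^ n = 1 := fun j => by
    rw [← pow_mul, mul_comm, pow_mul, hζ.pow_eq_one, one_pow]
  have hVB : Matrix.vandermonde v * B = D * Matrix.vandermonde v := by
    refine Matrix.ext fun j k => ?_
    rw [Matrix.mul_apply, Matrix.diagonal_mul, Matrix.vandermonde_apply]
    have hK := congrArg (rescale (ζ ^ (j : ℕ))) (s16n_mul_X_pow n hn f (k : ℕ))
    unfold s16n_asm at hK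
    rw [map_mul, map_sum, s16n_rescale_X_pow] at hK
    rw [hK]
    refine Finset.sum_congr rfl fun i _ => ?_
    rw [map_mul, s16n_rescale_X_pow, s16n_rescale_expand_of_pow_eq_one n hn (hpow j),
      Matrix.vandermonde_apply]
    rfl
  have hdet := congrArg Matrix.det hVB
  rw [Matrix.det_mul, Matrix.det_mul, mul_comm] at hdet
  have h3 := mul_right_cancel₀ hV hdet
  rw [hB, ← RingHom.map_det, hD, Matrix.det_diagonal] at h3
  exact h3

theorem s16n_expand_norm_eq_prod_range [IsDomain R] (n : ℕ) (hn : n ≠ 0) {ζ : R}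
    (hζ : IsPrimitiveRoot ζ n) (f : R⟦X⟧) :
    expand n hn (s16n_norm n hn f) = ∏ j ∈ Finset.range n, rescale (ζ ^ j) f := by
  rw [s16n_expand_norm_eq_prod n hn hζ]
  exact Fin.prod_univ_eq_prod_range (fun j => rescale (ζ ^ j) f) n


theorem s16n_expand_injective (n : ℕ) (hn : n ≠ 0) :
    Function.Injective (expand (R := R) n hn) := by
  intro a b h
  ext m
  rw [← coeff_expand_mul n hn a m, ← coeff_expand_mul n hn b m, h]

/-- constant term of the norm -/
theorem s16n_constantCoeff_norm (n : ℕ) (hn : n ≠ 0) (f : R⟦X⟧) :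
    constantCoeff (s16n_norm n hn f) = constantCoeff f ^ n := by
  rw [s16n_norm_apply, RingHom.map_det]
  rw [Matrix.det_of_isLowerTriangular]
  · have : ∀ i : Fin n, (constantCoeff (R := R)).mapMatrix (s16n_mat n f) i i = constantCoeff f := by
      intro i
      simp only [RingHom.mapMatrix_apply, Matrix.map_apply, s16n_mat, Matrix.of_apply,
        ← coeff_zero_eq_constantCoeff_apply, s16n_coeff_entry]
      simp
    rw [Finset.prod_congr rfl fun i _ => this i, Finset.prod_const, Finset.card_univ,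
      Fintype.card_fin]
  · intro i j hij
    have hij' : i < j := hij
    simp only [RingHom.mapMatrix_apply, Matrix.map_apply, s16n_mat, Matrix.of_apply,
      ← coeff_zero_eq_constantCoeff_apply, s16n_coeff_entry]
    rw [if_neg]
    simp only [zero_mul, zero_add, not_le]
    exact hij'

theorem s16n_X_pow_dvd_norm (n : ℕ) (hn : n ≠ 0) {f : R⟦X⟧} {m : ℕ} (h : X ^ m ∣ f) :
    X ^ m ∣ s16n_norm n hn f := by
  obtain ⟨g, rfl⟩ := h
  rw [map_mul, map_pow]
  have hX : (X : R⟦X⟧) ∣ s16n_norm n hn X := by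
    rw [X_dvd_iff, s16n_constantCoeff_norm, constantCoeff_X, zero_pow hn]
  exact Dvd.dvd.mul_right (pow_dvd_pow_of_dvd hX m) _

theorem s16n_le_order_norm (n : ℕ) (hn : n ≠ 0) (f : R⟦X⟧) :
    f.order ≤ (s16n_norm n hn f).order := by
  apply le_order
  intro i hi
  have h1 : X ^ (i + 1) ∣ f := by
    rw [X_pow_dvd_iff]
    intro k hk
    apply coeff_of_lt_order
    have : ((k : ℕ∞)) ≤ i := by exact_mod_cast Nat.lt_succ_iff.mp hk
    exact lt_of_le_of_lt this hi
  have h2 := s16n_X_pow_dvd_norm n hn h1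
  rw [X_pow_dvd_iff] at h2
  exact h2 i (Nat.lt_succ_self i)

end Fermat.Agent.S16N
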