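import Mathlib
import Fermat.Agent.S16.Up.Phi
import Fermat.Agent.S16.Up.LeadCls
import Fermat.Agent.S16.Up.LeadClsPlace

/-!
# S16 (UP engine), chunk (L2): the classes `(some i, none)` and `(some i, some j)` of the generic
norm case, from the formal data `s16b_Data`

For `D : s16b_Data v p r l e c K g y` (see `Up/Phi.lean`):

* `s16lb_val_c_inv_mul` : `v (c⁻¹ x) ≤ v l < 1` for `v x ≤ (v l)^e`;
* `s16lb_y_eq` : `c⁻¹ y_n = u m` with `v u = 1`, `m : ℤ` (for `n ≥ 1`), `c⁻¹ y_1 = u`;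
* `s16lb_lowAt_some_none`  : `ldc_LowAt v (s16b_phi p r c g y (some i, none)) 0`;
* `s16lb_leadAt_some_some` / `s16lb_lowAt_some_some` : leading exponent `0` on `(some i, some j)`.
-/

set_option autoImplicit false

open PowerSeries

namespace Fermat.Agent.S16B

open Fermat.Agent.S16U

variable {Γ₀ : Type*} [LinearOrderedCommGroupWithZero Γ₀] {v : Valuation ℂ Γ₀}
  {p r l e : ℕ} {c K : ℂ} {g y : PowerSeries ℂ}

section Data

variable (D : s16b_Data v p r l e c K g y)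

include D

theorem s16lb_l_ne : (l : ℂ) ≠ 0 := fun h => D.vl0 (by rw [h, map_zero])

theorem s16lb_c_ne : c ≠ 0 := by
  rw [D.hc]; exact pow_ne_zero _ (s16lb_l_ne D)

theorem s16lb_r_ne : (r : ℂ) ≠ 0 := by
  exact_mod_cast D.hr.ne_zero

theorem s16lb_val_r_inv : v ((r : ℂ)⁻¹) = 1 := by rw [map_inv₀, D.vr, inv_one]

/-- `c⁻¹ x` lies in the maximal ideal as soon as `v x ≤ (v l)^e`. -/
theorem s16lb_val_c_inv_mul {x : ℂ} (hx : v x ≤ v (l : ℂ) ^ e) : v (c⁻¹ * x) < 1 := by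
  obtain ⟨e', rfl⟩ : ∃ e', e = e' + 1 := ⟨e - 1, by have := D.he; omega⟩
  have hvl : v (l : ℂ) ≠ 0 := D.vl0
  have hpow : v (l : ℂ) ^ e' ≠ 0 := pow_ne_zero _ hvl
  rw [map_mul, map_inv₀, D.hc, Nat.add_sub_cancel, map_pow]
  calc (v (l : ℂ) ^ e')⁻¹ * v x ≤ (v (l : ℂ) ^ e')⁻¹ * v (l : ℂ) ^ (e' + 1) :=
        mul_le_mul_right hx _
    _ = v (l : ℂ) := by rw [pow_succ, ← mul_assoc, inv_mul_cancel₀ hpow, one_mul]
    _ < 1 := D.vl

theorem s16lb_val_c_inv_g {n : ℕ} (hn : 1 ≤ n) : v (c⁻¹ * coeff n g) < 1 :=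
  s16lb_val_c_inv_mul D (D.gn n hn)

theorem s16lb_val_c_inv_h {n : ℕ} (hn : 1 ≤ n) : v (c⁻¹ * coeff n (s16b_U p g)) < 1 := by
  rw [s16b_coeff_U]
  exact s16lb_val_c_inv_g D (Nat.mul_pos hn D.hp.pos)

theorem s16lb_h_zero : coeff 0 (s16b_U p g) = 1 := by
  rw [s16b_coeff_U, Nat.zero_mul, D.g0]

/-- `c⁻¹ y_n` is `v`-integral for `n ≥ 1`. -/
theorem s16lb_val_c_inv_y {n : ℕ} (hn : 1 ≤ n) : v (c⁻¹ * coeff n y) ≤ 1 := by
  obtain ⟨u, hKu, hvu⟩ := D.hK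
  obtain ⟨m, hm⟩ := D.yn n hn
  have hc0 := s16lb_c_ne D
  have : c⁻¹ * coeff n y = (u : ℂ) * (m : ℂ) := by
    rw [hm, hKu]; field_simp
  rw [this, map_mul, hvu, one_mul]
  exact D.vint m

/-- `c⁻¹ y_1` is a `v`-unit. -/
theorem s16lb_val_c_inv_y_one : v (c⁻¹ * coeff 1 y) = 1 := by
  obtain ⟨u, hKu, hvu⟩ := D.hK
  have hc0 := s16lb_c_ne D
  have : c⁻¹ * coeff 1 y = (u : ℂ) := by
    rw [D.y1, hKu]; field_simp
  rw [this, hvu]

theorem s16lb_val_zeta_p_pow (j : ℕ) : v (s16b_zeta p ^ j) = 1 := by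
  rw [map_pow, D.vzp, one_pow]

theorem s16lb_val_zeta_r_pow (i : ℕ) : v (s16b_zeta r ^ i) = 1 := by
  rw [map_pow, D.vzr, one_pow]

theorem s16lb_val_p : v (p : ℂ) ≤ 1 := by
  have := D.vint (p : ℤ); simpa using this

/-- Class `(some i, none)`. -/
theorem s16lb_lowAt_some_none (i : ZMod r) :
    ldc_LowAt v (s16b_phi p r c g y (some i, none)) 0 := by
  have hc0 := s16lb_c_ne D
  have hr0 := s16lb_r_ne D
  have hpN : p < r * p := by
    have := D.hr.two_le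
    have := D.hp.pos
    nlinarith
  refine ldk_cls_sn c (r : ℂ) (p : ℂ) (r * p) p (s16b_zeta r ^ i.val) (fun n => coeff n g)
    (fun n => coeff n y) _ (fun m => ?_) D.hp.pos hpN (s16lb_val_zeta_r_pow D _) D.g0 D.y0
    (fun n hn => ?_) (fun n hn => ?_) ?_ ?_
  · simp only [s16b_phi, s16b_partG, s16b_partY, coeff_smul, map_add, map_neg, s16b_coeff_sub,
      smul_eq_mul, one_pow, one_mul]
    ring
  · have : c⁻¹ * (p : ℂ) * coeff n g = (p : ℂ) * (c⁻¹ * coeff n g) := by ring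
    rw [this, map_mul]
    calc v (p : ℂ) * v (c⁻¹ * coeff n g) ≤ 1 * v (c⁻¹ * coeff n g) :=
          mul_le_mul_left (s16lb_val_p D) _
      _ = v (c⁻¹ * coeff n g) := one_mul _
      _ ≤ 1 := (s16lb_val_c_inv_g D hn).le
  · have : c⁻¹ * (r : ℂ)⁻¹ * coeff n y = (r : ℂ)⁻¹ * (c⁻¹ * coeff n y) := by ring
    rw [this, map_mul, s16lb_val_r_inv D, one_mul]
    exact s16lb_val_c_inv_y D hn
  · have : c⁻¹ * (r : ℂ)⁻¹ * coeff 1 y = (r : ℂ)⁻¹ * (c⁻¹ * coeff 1 y) := by ring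
    rw [this, map_mul, s16lb_val_r_inv D, one_mul]
    exact s16lb_val_c_inv_y_one D
  · obtain ⟨t, ht⟩ := D.hp1
    obtain ⟨w, hw, _⟩ := D.hr1
    have : c⁻¹ * ((p : ℂ) - (r : ℂ)⁻¹) = (r : ℂ)⁻¹ * (((r : ℤ) * t - w : ℤ) : ℂ) := by
      have hp' : (p : ℂ) = c * t - 1 := by linear_combination ht
      push_cast
      field_simp
      rw [hp']
      linear_combination (-1 : ℂ) * hw
    rw [this, map_mul, s16lb_val_r_inv D, one_mul]
    exact D.vint _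

/-- Class `(some i, some j)`: leading exponent exactly `0`. -/
theorem s16lb_leadAt_some_some (i : ZMod r) (j : ZMod p) :
    ldc_LeadAt v (s16b_phi p r c g y (some i, some j)) 0 := by
  have hc0 := s16lb_c_ne D
  have hr0 := s16lb_r_ne D
  refine ldk_cls_ss c (r : ℂ) r p (s16b_zeta p ^ j.val) (s16b_zeta r ^ i.val)
    (fun n => coeff n (s16b_U p g)) (fun n => coeff n y) _ (fun m => ?_) D.hr.pos D.hp.pos
    (s16lb_val_zeta_p_pow D _) (s16lb_val_zeta_r_pow D _) (s16lb_h_zero D) D.y0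
    (fun n hn => (s16lb_val_c_inv_h D hn).le) (fun n hn => ?_) ?_
  · simp only [s16b_phi, s16b_partG, s16b_partY, coeff_smul, map_add, map_neg, s16b_coeff_sub,
      smul_eq_mul]
    ring
  · have : c⁻¹ * (r : ℂ)⁻¹ * coeff n y = (r : ℂ)⁻¹ * (c⁻¹ * coeff n y) := by ring
    rw [this, map_mul, s16lb_val_r_inv D, one_mul]
    exact s16lb_val_c_inv_y D hn
  · obtain ⟨w, hw, hvw⟩ := D.hr1
    have : c⁻¹ * (1 + (r : ℂ)⁻¹) = (r : ℂ)⁻¹ * (w : ℂ) := by
      field_simp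
      linear_combination hw
    rw [this, map_mul, s16lb_val_r_inv D, one_mul, hvw]

theorem s16lb_lowAt_some_some (i : ZMod r) (j : ZMod p) :
    ldc_LowAt v (s16b_phi p r c g y (some i, some j)) 0 :=
  (s16lb_leadAt_some_some D i j).lowAt

end Data

end Fermat.Agent.S16B
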