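import Mathlib
import Fermat.Agent.S16.Up.LowB

/-!
# S16 (UP engine), chunk (L1): the classes `(none, none)` and `(none, some j)` of the generic
norm case, from the formal data `s16b_Data`; and all four classes together

* `s16la_lowAt_none_none` : `ldc_LowAt v (s16b_phi p r c g y (none, none)) 0`;
* `s16la_leadAt_none_some` / `s16la_lowAt_none_some` : leading exponent exactly `r p` on the
  `p` classes `(none, some j)`;
* `s16la_lowAt` : `∀ x, ldc_LowAt v (s16b_phi p r c g y x) (s16b_e p r x)`.
-/

set_option autoImplicit false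

open PowerSeries

namespace Fermat.Agent.S16B

open Fermat.Agent.S16U

variable {Γ₀ : Type*} [LinearOrderedCommGroupWithZero Γ₀] {v : Valuation ℂ Γ₀}
  {p r l e : ℕ} {c K : ℂ} {g y : PowerSeries ℂ}

section Data

variable (D : s16b_Data v p r l e c K g y)

include D

/-- Class `(none, none)`. -/
theorem s16la_lowAt_none_none : ldc_LowAt v (s16b_phi p r c g y (none, none)) 0 := by
  have hc0 := s16lb_c_ne D
  have hN : 0 < r * p := Nat.mul_pos D.hr.pos D.hp.pos
  refine ldp_cls_nn c (p : ℂ) (r * p) (fun n => coeff n g) (fun n => coeff n y) _ (fun m => ?_)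
    hN D.g0 D.y0 (fun n hn => ?_) (fun n hn => s16lb_val_c_inv_y D hn)
    (s16lb_val_c_inv_y_one D) ?_
  · simp only [s16b_phi, s16b_partG, s16b_partY, coeff_smul, map_add, s16b_coeff_sub,
      smul_eq_mul, one_pow, one_mul]
    split_ifs <;> ring
  · have : c⁻¹ * (p : ℂ) * coeff n g = (p : ℂ) * (c⁻¹ * coeff n g) := by ring
    rw [this, map_mul]
    calc v (p : ℂ) * v (c⁻¹ * coeff n g) ≤ 1 * v (c⁻¹ * coeff n g) :=
          mul_le_mul_left (s16lb_val_p D) _
      _ = v (c⁻¹ * coeff n g) := one_mul _
      _ < 1 := s16lb_val_c_inv_g D hn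
  · obtain ⟨t, ht⟩ := D.hp1
    have : c⁻¹ * ((p : ℂ) + 1) = (t : ℂ) := by
      rw [ht]; field_simp
    rw [this]
    exact D.vint t

/-- Class `(none, some j)`: leading exponent exactly `r p`. -/
theorem s16la_leadAt_none_some (j : ZMod p) :
    ldc_LeadAt v (s16b_phi p r c g y (none, some j)) (r * p) := by
  refine ldp_cls_ns c r p (s16b_zeta p ^ j.val) (fun n => coeff n (s16b_U p g))
    (fun n => coeff n y) _ (fun m => ?_) D.hr.pos D.hp.pos (s16lb_val_zeta_p_pow D _)
    (s16lb_h_zero D) D.y0 (fun n hn => s16lb_val_c_inv_h D hn)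
    (fun n hn => s16lb_val_c_inv_y D hn) (s16lb_val_c_inv_y_one D)
  simp only [s16b_phi, s16b_partG, s16b_partY, coeff_smul, map_add, map_neg, s16b_coeff_sub,
    smul_eq_mul, one_pow, one_mul]
  ring

theorem s16la_lowAt_none_some (j : ZMod p) :
    ldc_LowAt v (s16b_phi p r c g y (none, some j)) (r * p) :=
  (s16la_leadAt_none_some D j).lowAt

/-- **All four classes**: the `q_N`-expansion of the conjugate of class `x` is `v`-integral, nonzero
modulo the maximal ideal, of `X`-order at least `s16b_e p r x` there. -/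
theorem s16la_lowAt (x : Option (ZMod r) × Option (ZMod p)) :
    ldc_LowAt v (s16b_phi p r c g y x) (s16b_e p r x) := by
  obtain ⟨x1, x2⟩ := x
  rcases x1 with _ | i <;> rcases x2 with _ | j
  · exact s16la_lowAt_none_none D
  · exact s16la_lowAt_none_some D j
  · exact s16lb_lowAt_some_none D i
  · exact s16lb_lowAt_some_some D i j

end Data

end Fermat.Agent.S16B
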