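import Mathlib
import Fermat.Agent.S16.Contracts
import Fermat.Agent.S16.Up.MainOf
import Fermat.Agent.S16.Up.NormTop

/-!
# S16, stream [B]: `ContractA p` for every prime `p`

`s16_up p : ContractA p`: a weight-2 form on `Γ₀(p)` with integral higher `q`-coefficients and
rational constant term `r` has `r ∈ (gcd (p - 1) 12 / 24) ℤ`.

* `p < 5`: `M₂(Γ₀(p)) = ℂ E` (`Up/SmallP.lean`);
* `p ≥ 5`: the five "no form `≡ 1 mod l^e`" cases (`Up/Arith.lean`): three by the norm to level one
  of `l^(1-e) (p G + Y_r)` on `Γ₀(r p)` and the level-one Sturm bound (`Up/NormTop.lean`), two by the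
  weight-4 trace identity (`Up/TraceW4.lean`).
-/

set_option autoImplicit false

namespace Fermat.Agent.S16x

/-- **ContractA** (stream [B]). -/
theorem s16_up (p : ℕ) [Fact p.Prime] : ContractA p :=
  Fermat.Agent.S16MO.s16mo_contractA_of_norm p
    (fun hp5 _ hl hl5 => Fermat.Agent.S16NT.s16nt_UP_U1 hl hl5 Fact.out hp5)
    (fun hp5 hp3 => Fermat.Agent.S16NT.s16nt_UP_U2 Fact.out hp5 hp3)
    (fun hp5 hp4 => Fermat.Agent.S16NT.s16nt_UP_U4 Fact.out hp5 hp4)

end Fermat.Agent.S16x
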