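import Mathlib
import Fermat.Prelude.Def_ModularForm_HeckeOperator
import Fermat.Prelude.Thm_UpperHalfPlane_qCoeff_heckeU
import Fermat.Prelude.Thm_ModularForm_periodic_heckeU_comp_ofComplex
import Fermat.Prelude.Thm_ModularForm_isBoundedAtImInfty_heckeU
import Fermat.Prelude.Thm_ModularForm_mdifferentiable_heckeU
import Fermat.Agent.S16.Up.QExpN
import Fermat.Agent.S16.Up.Phi
import Fermat.Agent.S16.Up.Conj
import Fermat.Agent.S16.Up.GForm

/-!
# S16, stream [B], chunk (Q1): the period-`r p` expansions of the conjugates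

For `G`, `Y` nice of period `1` (e.g. `G ∈ M₂(Γ₀(p))`, `Y ∈ M₂(Γ₀(r))`) with `q`-expansions
`g`, `y`, the class function
`x ↦ c⁻¹ • (p • Conj_p G x.2 + Conj_r Y x.1)` has, for every class `x`, the period-`r p` expansion
`s16b_phi p r c g y x` of `Up/Phi.lean`.
-/

set_option autoImplicit false

open Complex UpperHalfPlane
open scoped ModularForm MatrixGroups Manifold Real
open Fermat.Agent.S16 Fermat.Agent.S16B

namespace Fermat.Agent.S16QF

/-! ### Formal bridges between `expand`/`rescale` and `s16b_sub` -/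

theorem s16qf_sub_eq_expand_rescale (u : ℂ) {d : ℕ} (hd : d ≠ 0) (f : PowerSeries ℂ) :
    s16b_sub u d f = PowerSeries.expand d hd (PowerSeries.rescale u f) := by
  ext n
  rw [s16b_coeff_sub, PowerSeries.coeff_expand]
  split_ifs with h
  · rw [PowerSeries.coeff_rescale]
  · rfl

theorem s16qf_sub_one_eq_expand {d : ℕ} (hd : d ≠ 0) (f : PowerSeries ℂ) :
    s16b_sub 1 d f = PowerSeries.expand d hd f := by
  rw [s16qf_sub_eq_expand_rescale 1 hd, PowerSeries.rescale_one]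
  rfl

theorem s16qf_zeta_eq (m : ℕ) : s16b_zeta m = s16q_zeta m := rfl

/-! ### `U_p` on nice functions -/

theorem s16qf_nice_heckeU {f : ℍ → ℂ} (hf : s16q_Nice 1 f) (k : ℤ) (p : ℕ) :
    s16q_Nice 1 (ModularForm.heckeU k p f) :=
  ⟨by simpa using ModularForm.periodic_heckeU_comp_ofComplex (by simpa using hf.1) k p,
    ModularForm.mdifferentiable_heckeU hf.2.1 k p,
    ModularForm.isBoundedAtImInfty_heckeU hf.2.2 k p⟩

theorem s16qf_hasQ_heckeU {f : ℍ → ℂ} {φ : PowerSeries ℂ} (hf : s16q_HasQ 1 f φ) (k : ℤ)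
    {p : ℕ} (hp : p ≠ 0) : s16q_HasQ 1 (ModularForm.heckeU k p f) (s16b_U p φ) := by
  have h1 : s16q_Nice 1 f := by simpa using hf.1
  have h2 : qExpansion 1 f = φ := by simpa using hf.2
  refine ⟨by simpa using s16qf_nice_heckeU h1 k p, ?_⟩
  ext n
  have := UpperHalfPlane.qCoeff_heckeU (by simpa using h1.1) h1.2.1 h1.2.2 k hp n
  rw [ModularForm.coeffHeckeU_apply] at this
  unfold ModularFormClass.qCoeff at this
  rw [s16b_coeff_U, ← h2]
  simpa using this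

/-! ### Change of period and translates, in the `s16b_sub` vocabulary -/

theorem s16qf_hasQ_congr {N M : ℕ} (h : N = M) {f : ℍ → ℂ} {φ ψ : PowerSeries ℂ} (hφ : φ = ψ)
    (hf : s16q_HasQ N f φ) : s16q_HasQ M f ψ := by
  subst h; subst hφ; exact hf

/-- a period-`1` function at period `N`. -/
theorem s16qf_period {f : ℍ → ℂ} {φ : PowerSeries ℂ} (hf : s16q_HasQ 1 f φ) {N : ℕ}
    (hN : N ≠ 0) : s16q_HasQ N f (s16b_sub 1 N φ) :=
  s16qf_hasQ_congr (mul_one N) (s16qf_sub_one_eq_expand hN φ).symm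
    (hf.period_mul one_ne_zero N hN)

/-- the translate `H ∣[k] heckeMatrix q j` at period `d q`. -/
theorem s16qf_translate {H : ℍ → ℂ} {h : PowerSeries ℂ} (hH : s16q_HasQ 1 H h) (k : ℤ)
    {q : ℕ} (hq : q ≠ 0) {d : ℕ} (hd : d ≠ 0) (j : ℕ) :
    s16q_HasQ (d * q) (H ∣[k] ModularForm.heckeMatrix q j)
      ((q : ℂ)⁻¹ • s16b_sub (s16b_zeta q ^ j) d h) := by
  refine s16qf_hasQ_congr rfl ?_ ((hH.slash_heckeMat k hq j).period_mul hq d hd)
  rw [PowerSeries.expand_smul, s16qf_sub_eq_expand_rescale _ hd]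
  rfl

/-! ### The four building blocks -/

section blocks

variable {p r : ℕ} (hp : p ≠ 0) (hr : r ≠ 0)
include hp hr

theorem s16qf_blockG_none {G : ℍ → ℂ} {g : PowerSeries ℂ} (hG : s16q_HasQ 1 G g)
    (h : PowerSeries ℂ) :
    s16q_HasQ (r * p) ((p : ℂ) • G) (s16b_partG p r g h none) :=
  (s16qf_period hG (Nat.mul_ne_zero hr hp)).smul (Nat.mul_ne_zero hr hp) (p : ℂ)

theorem s16qf_blockG_some {H : ℍ → ℂ} {h : PowerSeries ℂ} (hH : s16q_HasQ 1 H h)
    (g : PowerSeries ℂ) (j : ZMod p) :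
    s16q_HasQ (r * p) ((p : ℂ) • -(H ∣[(2 : ℤ)] ModularForm.heckeMatrix p j.val))
      (s16b_partG p r g h (some j)) := by
  have hp' : (p : ℂ) ≠ 0 := by exact_mod_cast hp
  have hN := Nat.mul_ne_zero hr hp
  refine s16qf_hasQ_congr rfl ?_ (((s16qf_translate hH 2 hp hr j.val).neg hN).smul hN (p : ℂ))
  show _ = -s16b_sub (s16b_zeta p ^ j.val) r h
  rw [smul_neg, smul_smul, mul_inv_cancel₀ hp', one_smul]

theorem s16qf_blockY_none {Y : ℍ → ℂ} {y : PowerSeries ℂ} (hY : s16q_HasQ 1 Y y) :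
    s16q_HasQ (r * p) Y (s16b_partY p r y none) :=
  s16qf_period hY (Nat.mul_ne_zero hr hp)

theorem s16qf_blockY_some {Y : ℍ → ℂ} {y : PowerSeries ℂ} (hY : s16q_HasQ 1 Y y) (i : ZMod r) :
    s16q_HasQ (r * p) (-(Y ∣[(2 : ℤ)] ModularForm.heckeMatrix r i.val))
      (s16b_partY p r y (some i)) :=
  s16qf_hasQ_congr (Nat.mul_comm p r) rfl
    ((s16qf_translate hY 2 hr hp i.val).neg (Nat.mul_ne_zero hp hr))

end blocks

/-! ### (Q1): all classes -/

/-- **(Q1), bare-function form.** `G`, `Y` nice of period one with expansions `g`, `y`; `H` nice of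
period one with expansion `s16b_U p g` (in the application `H = U_p G`). -/
theorem s16qf_hasQ_core {p r : ℕ} (hp : p ≠ 0) (hr : r ≠ 0) (c : ℂ) {G Y : ℍ → ℂ}
    {g y : PowerSeries ℂ} (hG : s16q_HasQ 1 G g) (hY : s16q_HasQ 1 Y y)
    (x : Option (ZMod r) × Option (ZMod p)) :
    s16q_HasQ (r * p)
      (c⁻¹ • ((p : ℂ) • (x.2.elim G fun j =>
            -(ModularForm.heckeU 2 p G ∣[(2 : ℤ)] ModularForm.heckeMatrix p j.val)) +
          (x.1.elim Y fun i => -(Y ∣[(2 : ℤ)] ModularForm.heckeMatrix r i.val))))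
      (s16b_phi p r c g y x) := by
  have hN := Nat.mul_ne_zero hr hp
  have hH := s16qf_hasQ_heckeU hG 2 hp
  obtain ⟨x1, x2⟩ := x
  unfold s16b_phi
  refine s16q_HasQ.smul hN (s16q_HasQ.add hN ?_ ?_) c⁻¹
  · rcases x2 with _ | j
    · exact s16qf_blockG_none hp hr hG _
    · exact s16qf_blockG_some hp hr hH g j
  · rcases x1 with _ | i
    · exact s16qf_blockY_none hp hr hY
    · exact s16qf_blockY_some hp hr hY i

/-! ### (Q1) for modular forms, in the two shapes used by the assembly -/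

open CongruenceSubgroup Matrix.SpecialLinearGroup Fermat.Agent.S16G

/-- the conjugate functions `P_G j = -(U_p G ∣ [[1,j],[0,p]])` of `Up/Conj.lean` (`s16c_slash_ST`). -/
noncomputable def s16qf_PG (p : ℕ) (G : ℍ → ℂ) (j : ℕ) : ℍ → ℂ :=
  -(ModularForm.heckeU 2 p G ∣[(2 : ℤ)] ModularForm.heckeMatrix p j)

/-- the conjugate functions of a `U_r`-fixed form `Y`: `P_Y i = -(Y ∣ [[1,i],[0,r]])`. -/
noncomputable def s16qf_PY (r : ℕ) (Y : ℍ → ℂ) (i : ℕ) : ℍ → ℂ :=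
  -(Y ∣[(2 : ℤ)] ModularForm.heckeMatrix r i)

/-- **(Q1)** in the shape of `s16g_F` (`Up/GForm.lean`). -/
theorem s16qf_hasQ_F {p r : ℕ} (hp : p ≠ 0) (hr : r ≠ 0) (c : ℂ)
    (G : ModularForm (Gamma0 p) 2) (Y : ModularForm (Gamma0 r) 2)
    (x : Option (ZMod r) × Option (ZMod p)) :
    s16q_HasQ (r * p) (s16g_F r p G Y (s16qf_PG p G) (s16qf_PY r Y) c x)
      (s16b_phi p r c (qExpansion 1 G) (qExpansion 1 Y) x) :=
  s16qf_hasQ_core hp hr c (s16q_HasQ.of_Gamma0 G) (s16q_HasQ.of_Gamma0 Y) x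

/-- the class function in the `s16c_Conj` vocabulary. -/
noncomputable def s16qf_Fcls (p r : ℕ) (c : ℂ) (G Y : ℍ → ℂ) (x : Option (ZMod r) × Option (ZMod p)) : ℍ → ℂ :=
  c⁻¹ • ((p : ℂ) • s16c_Conj p G x.2 + s16c_Conj r Y x.1)

/-- **(Q1)** in the shape of `s16c_Conj` (`Up/Conj.lean`), for a `U_r`-fixed `Y`. -/
theorem s16qf_hasQ_Fcls {p r : ℕ} (hp : p ≠ 0) (hr : r ≠ 0) (c : ℂ)
    (G : ModularForm (Gamma0 p) 2) (Y : ModularForm (Gamma0 r) 2)
    (hY : ModularForm.heckeU 2 r (Y : ℍ → ℂ) = Y)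
    (x : Option (ZMod r) × Option (ZMod p)) :
    s16q_HasQ (r * p) (s16qf_Fcls p r c G Y x)
      (s16b_phi p r c (qExpansion 1 G) (qExpansion 1 Y) x) := by
  have h := s16qf_hasQ_core hp hr c (s16q_HasQ.of_Gamma0 G) (s16q_HasQ.of_Gamma0 Y) x
  convert h using 1
  obtain ⟨x1, x2⟩ := x
  unfold s16qf_Fcls
  rcases x1 with _ | i <;> rcases x2 with _ | j <;> simp [s16c_Conj, hY]

/-! ### The three analytic inputs of `Up/NormCase.lean` -/

/-- `hφ` of `s16nc_contradiction`. -/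
theorem s16qf_qExpansion_F {p r : ℕ} (hp : p ≠ 0) (hr : r ≠ 0) (c : ℂ)
    (G : ModularForm (Gamma0 p) 2) (Y : ModularForm (Gamma0 r) 2)
    (x : Option (ZMod r) × Option (ZMod p)) :
    qExpansion ((r * p : ℕ) : ℝ) (s16g_F r p G Y (s16qf_PG p G) (s16qf_PY r Y) c x) =
      s16b_phi p r c (qExpansion 1 G) (qExpansion 1 Y) x :=
  (s16qf_hasQ_F hp hr c G Y x).2

/-- `hmul` of `s16nc_contradiction`, for any finite family of nice functions. -/
theorem s16qf_qExpansion_prod {N : ℕ} (hN : N ≠ 0) {ι : Type*} [Fintype ι] (F : ι → ℍ → ℂ)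
    (Φ : ι → PowerSeries ℂ) (hF : ∀ x, s16q_HasQ N (F x) (Φ x)) :
    qExpansion (N : ℝ) (∏ x, F x) = ∏ x, qExpansion (N : ℝ) (F x) :=
  s16q_qExpansion_prod (by exact_mod_cast Nat.pos_of_ne_zero hN) Finset.univ F
    fun x _ => (hF x).1

/-- `hexp` of `s16nc_contradiction`: the period-`N` expansion of a level-one form. -/
theorem s16qf_coeff_levelOne {k : ℤ} (Φ : ModularForm 𝒮ℒ k) {N : ℕ} (hN : N ≠ 0) (m : ℕ) :
    (qExpansion (N : ℝ) Φ).coeff m = if N ∣ m then (qExpansion 1 Φ).coeff (m / N) else 0 := by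
  have h := s16qf_hasQ_congr (mul_one N) rfl
    ((s16q_HasQ.of_levelOne Φ).period_mul one_ne_zero N hN)
  rw [h.2, PowerSeries.coeff_expand]

/-- **(Q2)**: if the level-one form `Φ` is the product of the `F x`, with period-`N` expansions
`Φs x`, then `∏ x, Φs x` is the `X ↦ X^N` expansion of `qExpansion 1 Φ`. -/
theorem s16qf_coeff_prod {k : ℤ} (Φ : ModularForm 𝒮ℒ k) {N : ℕ} (hN : N ≠ 0) {ι : Type*}
    [Fintype ι] (F : ι → ℍ → ℂ) (Φs : ι → PowerSeries ℂ) (hF : ∀ x, s16q_HasQ N (F x) (Φs x))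
    (hnorm : (Φ : ℍ → ℂ) = ∏ x, F x) (m : ℕ) :
    (∏ x, Φs x).coeff m = if N ∣ m then (qExpansion 1 Φ).coeff (m / N) else 0 := by
  rw [← s16qf_coeff_levelOne Φ hN m, hnorm]
  have := (s16q_HasQ.prod hN Finset.univ F Φs fun x _ => hF x).2
  rw [this]

/-! ### The hypotheses `hG`, `hY` of `s16g_coe_norm'` for `s16qf_PG`, `s16qf_PY` -/

theorem s16qf_slash_ST_G (p : ℕ) [Fact p.Prime] (G : ModularForm (Gamma0 p) 2) (j : ℕ) :
    (G : ℍ → ℂ) ∣[(2 : ℤ)] (ModularGroup.S * ModularGroup.T ^ (j : ℤ)) = s16qf_PG p G j :=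
  s16c_slash_ST p G j

theorem s16qf_slash_ST_Y (r : ℕ) [Fact r.Prime] (Y : ModularForm (Gamma0 r) 2)
    (hY : ModularForm.heckeU 2 r (Y : ℍ → ℂ) = Y) (i : ℕ) :
    (Y : ℍ → ℂ) ∣[(2 : ℤ)] (ModularGroup.S * ModularGroup.T ^ (i : ℤ)) = s16qf_PY r Y i := by
  rw [s16c_slash_ST r Y i, hY]
  rfl

/-- the norm of `g = c⁻¹ (p G + Y)` to level one is the product of the class functions. -/
theorem s16qf_coe_norm {r p : ℕ} [Fact r.Prime] [Fact p.Prime] (hrp : r ≠ p)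
    [((Gamma0 (r * p)).map (mapGL ℝ)).IsFiniteRelIndex 𝒮ℒ]
    (G : ModularForm (Gamma0 p) 2) (Y : ModularForm (Gamma0 r) 2)
    (hY : ModularForm.heckeU 2 r (Y : ℍ → ℂ) = Y) (c : ℂ) :
    (ModularForm.norm 𝒮ℒ (s16g_g r p G Y c) : ℍ → ℂ) =
      ∏ x : Option (ZMod r) × Option (ZMod p),
        s16g_F r p G Y (s16qf_PG p G) (s16qf_PY r Y) c x :=
  s16g_coe_norm' hrp G Y c (s16qf_PG p G) (s16qf_PY r Y) (s16qf_slash_ST_G p G)
    (s16qf_slash_ST_Y r Y hY)

end Fermat.Agent.S16QF
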