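import Mathlib
import Fermat.Agent.S16.Up.QFinal
import Fermat.Agent.S16.Up.NormCase
import Fermat.Agent.S16.Up.LowA
import Fermat.Agent.S16.Up.DataOf
import Fermat.Agent.S16.Eis.UFix
import Fermat.Agent.S16.Up.MainOf

/-!
# S16, stream [B]: the three NORM cases of UP

`s16nf_UP_U1`, `s16nf_UP_U2`, `s16nf_UP_U4` : the hypotheses `h5`, `h3`, `h2` of
`s16mo_contractA_of_norm` (`Up/MainOf.lean`).
-/

set_option autoImplicit false

open UpperHalfPlane CongruenceSubgroup Matrix.SpecialLinearGroup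
open scoped ModularForm MatrixGroups
open Fermat.Agent.S16 Fermat.Agent.S16B Fermat.Agent.S16G Fermat.Agent.S16U Fermat.Agent.S16C
open Fermat.Agent.S16QF Fermat.Agent.S16NC Fermat.Agent.S16DO Fermat.Agent.S16AR
open Fermat.Agent.S16K Fermat.Agent.S16.Eis

namespace Fermat.Agent.S16NF

/-- **The generic norm case**: formal data for `(G, Y)` at a place `B` give a contradiction. -/
theorem s16nf_false_of_data {r p l e : ℕ} [Fact r.Prime] [Fact p.Prime] (hrp : r ≠ p)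
    (hr3 : r ≤ 3) (hp5 : 5 ≤ p) (B : ValuationSubring ℂ) (c K : ℂ)
    (G : ModularForm (Gamma0 p) 2) (Y : ModularForm (Gamma0 r) 2)
    (hY : ModularForm.heckeU 2 r (Y : ℍ → ℂ) = Y)
    (D : s16b_Data B.valuation p r l e c K (qExpansion 1 G) (qExpansion 1 Y)) : False := by
  have hp0 : p ≠ 0 := (Fact.out : p.Prime).ne_zero
  have hr0 : r ≠ 0 := (Fact.out : r.Prime).ne_zero
  have hN : r * p ≠ 0 := Nat.mul_ne_zero hr0 hp0
  have : ((Gamma0 (r * p)).map (mapGL ℝ)).IsFiniteRelIndex 𝒮ℒ :=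
    s16k_isFiniteRelIndex (s16k_cls2_isCls r p hrp)
  refine s16nc_contradiction_types hrp hr3 hp5 B (s16g_g r p G Y c)
    (s16g_F r p G Y (s16qf_PG p G) (s16qf_PY r Y) c) (s16qf_coe_norm hrp G Y hY c)
    (s16b_phi p r c (qExpansion 1 G) (qExpansion 1 Y))
    (fun x => s16qf_qExpansion_F hp0 hr0 c G Y x)
    (s16qf_qExpansion_prod hN _ _ fun x => s16qf_hasQ_F hp0 hr0 c G Y x)
    (fun m => s16qf_coeff_levelOne (s16g_normForm hrp (s16g_g r p G Y c)) hN m)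
    (s16la_lowAt_none_none D) (fun j => s16la_lowAt_none_some D j)
    (fun i => s16lb_lowAt_some_none D i) (fun i j => s16lb_lowAt_some_some D i j)

/-- **(U1)** `ℓ ≥ 5`, `e = 1`. -/
theorem s16nf_UP_U1 (p : ℕ) [Fact p.Prime] (hp5 : 5 ≤ p) (l : ℕ) (hl : l.Prime) (hl5 : 5 ≤ l) :
    s16ar_UP p l 1 := by
  intro G hG0 hGn
  obtain ⟨B, hB⟩ := lvP_exists l hl
  have : Fact (Nat.Prime 2) := ⟨Nat.prime_two⟩
  exact s16nf_false_of_data (r := 2) (by omega) (by norm_num) hp5 B 1 24 G (s16e_Y 2)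
    (s16e_heckeU_Y 2 Nat.prime_two)
    (s16do_data_U1 hl hl5 hB p Fact.out hp5 G hG0 hGn)

/-- **(U2)** `ℓ = 3`, `e = 2`, `p ≡ 2 mod 3`. -/
theorem s16nf_UP_U2 (p : ℕ) [Fact p.Prime] (hp5 : 5 ≤ p) (hp3 : p % 3 = 2) : s16ar_UP p 3 2 := by
  intro G hG0 hGn
  obtain ⟨B, hB⟩ := lvP_exists 3 Nat.prime_three
  have : Fact (Nat.Prime 2) := ⟨Nat.prime_two⟩
  exact s16nf_false_of_data (r := 2) (by omega) (by norm_num) hp5 B 3 24 G (s16e_Y 2)
    (s16e_heckeU_Y 2 Nat.prime_two)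
    (s16do_data_U2 hB p Fact.out hp5 hp3 G hG0 hGn)

/-- **(U4)** `ℓ = 2`, `e = 3`, `p ≡ 3 mod 4`. -/
theorem s16nf_UP_U4 (p : ℕ) [Fact p.Prime] (hp5 : 5 ≤ p) (hp4 : p % 4 = 3) : s16ar_UP p 2 3 := by
  intro G hG0 hGn
  obtain ⟨B, hB⟩ := lvP_exists 2 Nat.prime_two
  have : Fact (Nat.Prime 3) := ⟨Nat.prime_three⟩
  exact s16nf_false_of_data (r := 3) (by omega) (by norm_num) hp5 B 4 12 G (s16e_Y 3)
    (s16e_heckeU_Y 3 Nat.prime_three)
    (s16do_data_U4 hB p Fact.out hp5 hp4 G hG0 hGn)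

/-- **ContractA for every prime `p`** (all five UP cases and `p < 5`). -/
theorem s16nf_contractA (p : ℕ) [Fact p.Prime] : Fermat.Agent.S16x.ContractA p :=
  Fermat.Agent.S16MO.s16mo_contractA_of_norm p
    (fun hp5 l hl hl5 => s16nf_UP_U1 p hp5 l hl hl5)
    (fun hp5 hp3 => s16nf_UP_U2 p hp5 hp3)
    (fun hp5 hp4 => s16nf_UP_U4 p hp5 hp4)

end Fermat.Agent.S16NF
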