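import Mathlib

/-!
# S16 (UP engine): the norm of `R⟦X⟧` over `R⟦X^r⟧`

`R⟦X⟧` is free of rank `r` over its subring `R⟦X^r⟧` (image of `PowerSeries.expand r`), with basis
`1, X, …, X^(r-1)`.  We define the sections `psn_sec r i f` (`f = ∑_{i<r} expand (sec_i f) * X^i`),
the matrix `psn_matrix r f` of multiplication by `f` in this basis and its determinant
`psn_norm r f : R⟦X⟧` (a power series in the variable `X^r`).

Main facts: `psn_norm_mul`, `psn_norm_one`, `psn_norm_map` (naturality in `R`),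
`psn_constantCoeff_norm`, `psn_norm_expand`, `psn_norm_X`, `psn_order_norm` and the link with
roots of unity `psn_prod_rescale`: `∏_{j<r} f(ζ^j X) = (psn_norm r f)(X^r)`.
-/

set_option autoImplicit false

open PowerSeries

namespace Fermat.Agent.S16N

variable {R : Type*} [CommRing R]

/-- The `i`-th section of `f` modulo `r`: the coefficients of `X^(r n + i)`. -/
noncomputable def psn_sec (r i : ℕ) (f : R⟦X⟧) : R⟦X⟧ :=
  PowerSeries.mk fun n => coeff (r * n + i) f

@[simp] lemma psn_coeff_sec (r i n : ℕ) (f : R⟦X⟧) :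
    coeff n (psn_sec r i f) = coeff (r * n + i) f := coeff_mk _ _

lemma psn_sec_add (r i : ℕ) (f g : R⟦X⟧) :
    psn_sec r i (f + g) = psn_sec r i f + psn_sec r i g := by
  ext n; simp

lemma psn_sec_zero (r i : ℕ) : psn_sec r i (0 : R⟦X⟧) = 0 := by
  ext n; simp

lemma psn_sec_sum {ι : Type*} (s : Finset ι) (r i : ℕ) (f : ι → R⟦X⟧) :
    psn_sec r i (∑ k ∈ s, f k) = ∑ k ∈ s, psn_sec r i (f k) := by
  classical
  induction s using Finset.induction_on with
  | empty => simp [psn_sec_zero]
  | insert a s ha ih => rw [Finset.sum_insert ha, Finset.sum_insert ha, psn_sec_add, ih]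

/-- A power series is determined by its sections. -/
lemma psn_ext_sec {r : ℕ} (hr : r ≠ 0) {f g : R⟦X⟧}
    (h : ∀ i < r, psn_sec r i f = psn_sec r i g) : f = g := by
  ext m
  have hm : r * (m / r) + m % r = m := Nat.div_add_mod m r
  have := congrArg (coeff (m / r)) (h (m % r) (Nat.mod_lt _ (Nat.pos_of_ne_zero hr)))
  rwa [psn_coeff_sec, psn_coeff_sec, hm] at this

/-- Section of a single term `expand a * X^k`. -/
lemma psn_sec_expand_mul_X_pow {r : ℕ} (hr : r ≠ 0) (a : R⟦X⟧) {i k : ℕ} (hi : i < r)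
    (hk : k < r) :
    psn_sec r i (expand r hr a * X ^ k) = if k = i then a else 0 := by
  ext n
  rw [psn_coeff_sec, coeff_mul_X_pow']
  by_cases hki : k = i
  · subst hki
    rw [if_pos rfl, if_pos (Nat.le_add_left _ _), Nat.add_sub_cancel, coeff_expand_mul]
  · rw [if_neg hki, map_zero]
    split_ifs with hle
    · apply coeff_expand_of_not_dvd
      intro hdvd
      apply hki
      -- `r ∣ r n + i - k` with `i, k < r` forces `i = k`
      obtain ⟨c, hc⟩ := hdvd
      have h1 : r * n + i = r * c + k := by omega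
      have h2 : (r * n + i) % r = (r * c + k) % r := by rw [h1]
      rw [Nat.mul_add_mod, Nat.mul_add_mod, Nat.mod_eq_of_lt hi, Nat.mod_eq_of_lt hk] at h2
      exact h2.symm
    · rfl

/-- Sections of a combination `∑ expand (a k) * X^k`. -/
lemma psn_sec_sum_expand {r : ℕ} (hr : r ≠ 0) (a : Fin r → R⟦X⟧) (i : Fin r) :
    psn_sec r i (∑ k : Fin r, expand r hr (a k) * X ^ (k : ℕ)) = a i := by
  rw [psn_sec_sum]
  rw [Finset.sum_eq_single i]
  · rw [psn_sec_expand_mul_X_pow hr _ i.2 i.2, if_pos rfl]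
  · intro k _ hki
    rw [psn_sec_expand_mul_X_pow hr _ i.2 k.2, if_neg]
    exact fun h => hki (Fin.ext h)
  · intro h; exact absurd (Finset.mem_univ i) h

/-- The decomposition of `f` along the basis `1, X, …, X^(r-1)`. -/
theorem psn_decomp {r : ℕ} (hr : r ≠ 0) (f : R⟦X⟧) :
    f = ∑ k : Fin r, expand r hr (psn_sec r k f) * X ^ (k : ℕ) := by
  apply psn_ext_sec hr
  intro i hi
  have := psn_sec_sum_expand hr (fun k : Fin r => psn_sec r k f) ⟨i, hi⟩
  exact this.symm

/-- The matrix of multiplication by `f` in the basis `1, X, …, X^(r-1)` over `R⟦X^r⟧`. -/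
noncomputable def psn_matrix (r : ℕ) (f : R⟦X⟧) : Matrix (Fin r) (Fin r) R⟦X⟧ :=
  fun i j => psn_sec r i (f * X ^ (j : ℕ))

lemma psn_mul_X_pow {r : ℕ} (hr : r ≠ 0) (f : R⟦X⟧) (j : Fin r) :
    f * X ^ (j : ℕ) = ∑ i : Fin r, expand r hr (psn_matrix r f i j) * X ^ (i : ℕ) :=
  psn_decomp hr (f * X ^ (j : ℕ))

/-- Multiplicativity of the matrix. -/
theorem psn_matrix_mul {r : ℕ} (hr : r ≠ 0) (f g : R⟦X⟧) :
    psn_matrix r (f * g) = psn_matrix r f * psn_matrix r g := by
  refine Matrix.ext fun i j => ?_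
  have h1 : f * g * X ^ (j : ℕ) =
      ∑ i : Fin r, expand r hr ((psn_matrix r f * psn_matrix r g) i j) * X ^ (i : ℕ) := by
    calc f * g * X ^ (j : ℕ) = f * (g * X ^ (j : ℕ)) := by ring
      _ = f * ∑ k : Fin r, expand r hr (psn_matrix r g k j) * X ^ (k : ℕ) := by
          rw [← psn_mul_X_pow hr g j]
      _ = ∑ k : Fin r, expand r hr (psn_matrix r g k j) * (f * X ^ (k : ℕ)) := by
          rw [Finset.mul_sum]; exact Finset.sum_congr rfl fun k _ => by ring
      _ = ∑ k : Fin r, expand r hr (psn_matrix r g k j) *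
            ∑ i : Fin r, expand r hr (psn_matrix r f i k) * X ^ (i : ℕ) := by
          refine Finset.sum_congr rfl fun k _ => ?_
          rw [← psn_mul_X_pow hr f k]
      _ = ∑ i : Fin r, expand r hr ((psn_matrix r f * psn_matrix r g) i j) * X ^ (i : ℕ) := by
          simp_rw [Finset.mul_sum]
          rw [Finset.sum_comm]
          refine Finset.sum_congr rfl fun i _ => ?_
          rw [Matrix.mul_apply, map_sum, Finset.sum_mul]
          refine Finset.sum_congr rfl fun k _ => ?_
          rw [map_mul]; ring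
  show psn_sec r i (f * g * X ^ (j : ℕ)) = _
  rw [h1, psn_sec_sum_expand hr]

theorem psn_matrix_one {r : ℕ} (hr : r ≠ 0) : psn_matrix r (1 : R⟦X⟧) = 1 := by
  refine Matrix.ext fun i j => ?_
  show psn_sec r i ((1 : R⟦X⟧) * X ^ (j : ℕ)) = _
  have : (1 : R⟦X⟧) * X ^ (j : ℕ) = expand r hr 1 * X ^ (j : ℕ) := by rw [map_one]
  rw [this, psn_sec_expand_mul_X_pow hr _ i.2 j.2, Matrix.one_apply]
  by_cases h : i = j
  · subst h; simp
  · rw [if_neg h, if_neg]; exact fun h' => h (Fin.ext h'.symm)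

/-- The matrix of an element of the base ring `R⟦X^r⟧` is scalar. -/
theorem psn_matrix_expand {r : ℕ} (hr : r ≠ 0) (c : R⟦X⟧) :
    psn_matrix r (expand r hr c) = Matrix.diagonal fun _ => c := by
  refine Matrix.ext fun i j => ?_
  show psn_sec r i (expand r hr c * X ^ (j : ℕ)) = _
  rw [psn_sec_expand_mul_X_pow hr _ i.2 j.2, Matrix.diagonal_apply]
  by_cases h : i = j
  · subst h; simp
  · rw [if_neg h, if_neg]; exact fun h' => h (Fin.ext h'.symm)

/-- **The norm** of `f ∈ R⟦X⟧` over `R⟦X^r⟧`, as a power series in the variable `X^r`. -/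
noncomputable def psn_norm (r : ℕ) (f : R⟦X⟧) : R⟦X⟧ := (psn_matrix r f).det

theorem psn_norm_mul {r : ℕ} (hr : r ≠ 0) (f g : R⟦X⟧) :
    psn_norm r (f * g) = psn_norm r f * psn_norm r g := by
  rw [psn_norm, psn_matrix_mul hr, Matrix.det_mul]; rfl

theorem psn_norm_one {r : ℕ} (hr : r ≠ 0) : psn_norm r (1 : R⟦X⟧) = 1 := by
  rw [psn_norm, psn_matrix_one hr, Matrix.det_one]

theorem psn_norm_pow {r : ℕ} (hr : r ≠ 0) (f : R⟦X⟧) (k : ℕ) :
    psn_norm r (f ^ k) = psn_norm r f ^ k := by
  induction k with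
  | zero => rw [pow_zero, pow_zero, psn_norm_one hr]
  | succ k ih => rw [pow_succ, pow_succ, psn_norm_mul hr, ih]

theorem psn_norm_prod {r : ℕ} (hr : r ≠ 0) {ι : Type*} (s : Finset ι) (f : ι → R⟦X⟧) :
    psn_norm r (∏ k ∈ s, f k) = ∏ k ∈ s, psn_norm r (f k) := by
  classical
  induction s using Finset.induction_on with
  | empty => simp [psn_norm_one hr]
  | insert a s ha ih => rw [Finset.prod_insert ha, Finset.prod_insert ha, psn_norm_mul hr, ih]

/-- The norm of an element of the base ring is its `r`-th power. -/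
theorem psn_norm_expand {r : ℕ} (hr : r ≠ 0) (c : R⟦X⟧) :
    psn_norm r (expand r hr c) = c ^ r := by
  rw [psn_norm, psn_matrix_expand hr, Matrix.det_diagonal, Finset.prod_const, Finset.card_univ,
    Fintype.card_fin]

theorem psn_norm_C {r : ℕ} (hr : r ≠ 0) (a : R) : psn_norm r (C a : R⟦X⟧) = C (a ^ r) := by
  rw [← expand_C r hr a, psn_norm_expand hr, map_pow]

/-- Naturality in the coefficient ring. -/
theorem psn_sec_map {S : Type*} [CommRing S] (φ : R →+* S) (r i : ℕ) (f : R⟦X⟧) :
    psn_sec r i (map φ f) = map φ (psn_sec r i f) := by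
  ext n; simp

theorem psn_matrix_map {S : Type*} [CommRing S] (φ : R →+* S) (r : ℕ) (f : R⟦X⟧) :
    psn_matrix r (map φ f) = (psn_matrix r f).map (map φ) := by
  refine Matrix.ext fun i j => ?_
  show psn_sec r i (map φ f * X ^ (j : ℕ)) = map φ (psn_sec r i (f * X ^ (j : ℕ)))
  rw [← psn_sec_map, map_mul, map_pow, map_X]

theorem psn_norm_map {S : Type*} [CommRing S] (φ : R →+* S) (r : ℕ) (f : R⟦X⟧) :
    psn_norm r (map φ f) = map φ (psn_norm r f) := by
  rw [psn_norm, psn_matrix_map, psn_norm, RingHom.map_det]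
  rfl

/-- The constant coefficient of the norm. -/
theorem psn_constantCoeff_norm (r : ℕ) (f : R⟦X⟧) :
    constantCoeff (psn_norm r f) = constantCoeff f ^ r := by
  rw [psn_norm, RingHom.map_det]
  have htri : ((constantCoeff (R := R)).mapMatrix (psn_matrix r f)).BlockTriangular
      (OrderDual.toDual : Fin r → (Fin r)ᵒᵈ) := by
    intro i j hij
    have hij' : (i : ℕ) < j := by exact_mod_cast hij
    show constantCoeff (psn_sec r i (f * X ^ (j : ℕ))) = 0
    rw [← coeff_zero_eq_constantCoeff_apply, psn_coeff_sec, coeff_mul_X_pow', if_neg]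
    omega
  rw [Matrix.det_of_isLowerTriangular _ htri]
  have hdiag : ∀ i : Fin r,
      (constantCoeff (R := R)).mapMatrix (psn_matrix r f) i i = constantCoeff f := by
    intro i
    show constantCoeff (psn_sec r i (f * X ^ (i : ℕ))) = _
    rw [← coeff_zero_eq_constantCoeff_apply, psn_coeff_sec, coeff_mul_X_pow', if_pos (by omega)]
    simp
  rw [Finset.prod_congr rfl fun i _ => hdiag i, Finset.prod_const, Finset.card_univ,
    Fintype.card_fin]

/-! ### Zero, orders -/

theorem psn_norm_zero {r : ℕ} (hr : r ≠ 0) : psn_norm r (0 : R⟦X⟧) = 0 := by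
  have h0 : psn_matrix r (0 : R⟦X⟧) = 0 := by
    refine Matrix.ext fun i j => ?_
    show psn_sec r i ((0 : R⟦X⟧) * X ^ (j : ℕ)) = 0
    rw [zero_mul, psn_sec_zero]
  have : Nonempty (Fin r) := ⟨⟨0, Nat.pos_of_ne_zero hr⟩⟩
  rw [psn_norm, h0, Matrix.det_zero]

theorem psn_norm_X_pow_self {r : ℕ} (hr : r ≠ 0) : psn_norm r (X : R⟦X⟧) ^ r = X ^ r := by
  rw [← psn_norm_pow hr]
  conv_lhs => rw [← expand_X r hr, psn_norm_expand hr]

theorem psn_order_norm_X [IsDomain R] {r : ℕ} (hr : r ≠ 0) :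
    (psn_norm r (X : R⟦X⟧)).order = 1 := by
  have h := congrArg order (psn_norm_X_pow_self (R := R) hr)
  rw [order_pow, order_X_pow] at h
  generalize (psn_norm r (X : R⟦X⟧)).order = o at h
  induction o using ENat.recTopCoe with
  | top =>
    exfalso
    rw [nsmul_eq_mul, ENat.mul_top (by exact_mod_cast hr)] at h
    exact ENat.top_ne_natCast _ h
  | coe n =>
    have h' : r * n = r := by
      have : ((r * n : ℕ) : ℕ∞) = (r : ℕ∞) := by rw [← h]; simp [nsmul_eq_mul]
      exact_mod_cast this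
    have : n = 1 := by
      have := Nat.eq_of_mul_eq_mul_left (Nat.pos_of_ne_zero hr) (h'.trans (mul_one r).symm)
      exact this
    subst this; rfl

/-- Over a domain the norm preserves the order (in the variable `X^r`). -/
theorem psn_order_norm [IsDomain R] {r : ℕ} (hr : r ≠ 0) (f : R⟦X⟧) :
    (psn_norm r f).order = f.order := by
  by_cases hf : f = 0
  · subst hf; rw [psn_norm_zero hr]
  · have h1 := X_pow_order_mul_divXPowOrder (f := f)
    have hu : (psn_norm r (divXPowOrder f)).order = 0 := by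
      by_contra hne
      have hne' := order_ne_zero_iff_constCoeff_eq_zero.mp hne
      rw [psn_constantCoeff_norm, constantCoeff_divXPowOrder] at hne'
      exact coeff_order hf (pow_eq_zero_iff hr |>.mp hne')
    conv_lhs => rw [← h1]
    rw [psn_norm_mul hr, psn_norm_pow hr, order_mul, order_pow, psn_order_norm_X hr, hu, add_zero,
      nsmul_eq_mul, mul_one, coe_toNat_order hf]

/-! ### The link with roots of unity -/

lemma psn_rescale_expand {r : ℕ} (hr : r ≠ 0) {a : R} (ha : a ^ r = 1) (g : R⟦X⟧) :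
    rescale a (expand r hr g) = expand r hr g := by
  ext n
  rw [coeff_rescale, coeff_expand]
  split_ifs with h
  · obtain ⟨m, rfl⟩ := h
    rw [pow_mul, ha, one_pow, one_mul]
  · rw [mul_zero]

/-- **Product over the conjugates.**  If `ζ` is a primitive `r`-th root of unity in the domain `R`,
then `∏_{j<r} f(ζ^j X) = (psn_norm r f)(X^r)`. -/
theorem psn_prod_rescale [IsDomain R] {r : ℕ} (hr : r ≠ 0) {ζ : R} (hζ : IsPrimitiveRoot ζ r)
    (f : R⟦X⟧) :
    ∏ j : Fin r, rescale (ζ ^ (j : ℕ)) f = expand r hr (psn_norm r f) := by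
  classical
  set v : Fin r → R⟦X⟧ := fun j => C (ζ ^ (j : ℕ)) * X with hv
  set W : Matrix (Fin r) (Fin r) R⟦X⟧ := Matrix.vandermonde v with hW
  set E : Matrix (Fin r) (Fin r) R⟦X⟧ := (expand r hr).toRingHom.mapMatrix (psn_matrix r f) with hE
  set D : Matrix (Fin r) (Fin r) R⟦X⟧ :=
    Matrix.diagonal fun j : Fin r => rescale (ζ ^ (j : ℕ)) f with hD
  have hpow : ∀ j : Fin r, (ζ ^ (j : ℕ)) ^ r = 1 := fun j => by
    rw [← pow_mul, mul_comm, pow_mul, hζ.pow_eq_one, one_pow]
  -- eigenvector identity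
  have key : W * E = D * W := by
    refine Matrix.ext fun i k => ?_
    rw [Matrix.mul_apply, hD, Matrix.diagonal_mul]
    have h1 := congrArg (rescale (ζ ^ (i : ℕ))) (psn_mul_X_pow hr f k)
    rw [map_mul, map_pow, rescale_X, map_sum] at h1
    show ∑ m : Fin r, v i ^ (m : ℕ) * expand r hr (psn_matrix r f m k) = _ * v i ^ (k : ℕ)
    rw [h1]
    refine Finset.sum_congr rfl fun m _ => ?_
    rw [map_mul, map_pow, rescale_X, psn_rescale_expand hr (hpow i), mul_comm]
  have hinj : Function.Injective v := by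
    intro i j hij
    have h1 := congrArg (coeff 1) hij
    simp only [hv, coeff_C_mul, coeff_one_X, mul_one] at h1
    exact Fin.ext (hζ.pow_inj i.2 j.2 h1)
  have hdet : W.det ≠ 0 := Matrix.det_vandermonde_ne_zero_iff.mpr hinj
  have h2 := congrArg Matrix.det key
  rw [Matrix.det_mul, Matrix.det_mul, hD, Matrix.det_diagonal, mul_comm] at h2
  have h3 := mul_right_cancel₀ hdet h2
  rw [← h3, hE, ← RingHom.map_det]
  rfl

/-- `Finset.range` form of `psn_prod_rescale`. -/
theorem psn_prod_range_rescale [IsDomain R] {r : ℕ} (hr : r ≠ 0) {ζ : R}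
    (hζ : IsPrimitiveRoot ζ r) (f : R⟦X⟧) :
    ∏ j ∈ Finset.range r, rescale (ζ ^ j) f = expand r hr (psn_norm r f) := by
  rw [← psn_prod_rescale hr hζ f, Fin.prod_univ_eq_prod_range (fun j => rescale (ζ ^ j) f) r]

/-- The coefficients of the norm stay in any subring containing the coefficients of `f`. -/
theorem psn_coeff_norm_mem (A : Subring R) (r : ℕ) (f : R⟦X⟧) (hf : ∀ n, coeff n f ∈ A) (n : ℕ) :
    coeff n (psn_norm r f) ∈ A := by
  set f0 : (A : Type _)⟦X⟧ := PowerSeries.mk fun n => (⟨coeff n f, hf n⟩ : A) with hf0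
  have h : f = map A.subtype f0 := by
    ext m; simp [hf0]
  rw [h, psn_norm_map, coeff_map]
  exact (coeff n (psn_norm r f0)).2

end Fermat.Agent.S16N
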