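import Mathlib
import Fermat.Agent.S16.Up.Phi
import Fermat.Agent.S16.Up.LeadCls

/-!
# S16 (UP engine), the four conjugate types of the generic norm case: `ldc_LowAt`

From the formal hypotheses `s16b_Data` (file `Phi.lean`): for every class `x`,
`ldc_LowAt v (s16b_phi p r c g y x) (s16b_e p r x)`.
-/

set_option autoImplicit false

open PowerSeries Fermat.Agent.S16U

namespace Fermat.Agent.S16B

variable {Γ₀ : Type*} [LinearOrderedCommGroupWithZero Γ₀] {v : Valuation ℂ Γ₀}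
  {p r l e : ℕ} {c K : ℂ} {g y : PowerSeries ℂ}

namespace s16b_Data

theorem c_ne (D : s16b_Data v p r l e c K g y) : c ≠ 0 := by
  rw [D.hc]
  exact pow_ne_zero _ (fun h => D.vl0 (by rw [h, map_zero]))

theorem vc (D : s16b_Data v p r l e c K g y) : v c = v (l : ℂ) ^ (e - 1) := by
  rw [D.hc, map_pow]

theorem p_pos (D : s16b_Data v p r l e c K g y) : 0 < p := D.hp.pos

theorem r_pos (D : s16b_Data v p r l e c K g y) : 0 < r := D.hr.pos

/-- `c⁻¹ g_n ∈ 𝔪` for `n ≥ 1`. -/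
theorem vg (D : s16b_Data v p r l e c K g y) (n : ℕ) (hn : 1 ≤ n) :
    v (c⁻¹ * coeff n g) < 1 := by
  have h1 := D.gn n hn
  have hl0 : v (l : ℂ) ^ (e - 1) ≠ 0 := pow_ne_zero _ D.vl0
  have hpow : v (l : ℂ) ^ e = v (l : ℂ) ^ (e - 1) * v (l : ℂ) := by
    rw [← pow_succ]
    congr 1
    have := D.he
    omega
  rw [map_mul, map_inv₀, D.vc]
  calc (v (l : ℂ) ^ (e - 1))⁻¹ * v (coeff n g)
      ≤ (v (l : ℂ) ^ (e - 1))⁻¹ * v (l : ℂ) ^ e := mul_le_mul' le_rfl h1
    _ = v (l : ℂ) := by rw [hpow, ← mul_assoc, inv_mul_cancel₀ hl0, one_mul]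
    _ < 1 := D.vl

theorem vnat (D : s16b_Data v p r l e c K g y) (n : ℕ) : v (n : ℂ) ≤ 1 := by
  have := D.vint n
  simpa using this

/-- `c⁻¹ y_n` is integral for `n ≥ 1`. -/
theorem vy (D : s16b_Data v p r l e c K g y) (n : ℕ) (hn : 1 ≤ n) :
    v (c⁻¹ * coeff n y) ≤ 1 := by
  obtain ⟨m, hm⟩ := D.yn n hn
  obtain ⟨u, hu, hvu⟩ := D.hK
  rw [hm, hu, ← mul_assoc, ← mul_assoc, inv_mul_cancel₀ D.c_ne, one_mul, map_mul, hvu, one_mul]
  exact D.vint m

/-- `c⁻¹ y_1` is a unit. -/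
theorem vy1 (D : s16b_Data v p r l e c K g y) : v (c⁻¹ * coeff 1 y) = 1 := by
  obtain ⟨u, hu, hvu⟩ := D.hK
  rw [D.y1, hu, ← mul_assoc, inv_mul_cancel₀ D.c_ne, one_mul, hvu]

theorem vzp_pow (D : s16b_Data v p r l e c K g y) (n : ℕ) : v (s16b_zeta p ^ n) = 1 := by
  rw [map_pow, D.vzp, one_pow]

theorem vzr_pow (D : s16b_Data v p r l e c K g y) (n : ℕ) : v (s16b_zeta r ^ n) = 1 := by
  rw [map_pow, D.vzr, one_pow]

/-- `c⁻¹ h_n ∈ 𝔪` for `n ≥ 1`, `h = U_p g`. -/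
theorem vh (D : s16b_Data v p r l e c K g y) (n : ℕ) (hn : 1 ≤ n) :
    v (c⁻¹ * coeff n (s16b_U p g)) < 1 := by
  rw [s16b_coeff_U]
  exact D.vg _ (Nat.mul_pos hn D.p_pos)

theorem h0 (D : s16b_Data v p r l e c K g y) : coeff 0 (s16b_U p g) = 1 := by
  rw [s16b_coeff_U, zero_mul, D.g0]

theorem vr_inv (D : s16b_Data v p r l e c K g y) : v ((r : ℂ)⁻¹) = 1 := by
  rw [map_inv₀, D.vr, inv_one]

theorem r_ne (D : s16b_Data v p r l e c K g y) : (r : ℂ) ≠ 0 := by
  exact_mod_cast D.hr.ne_zero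

/-- class `(some i, some j)` -/
theorem lowAt_ss (D : s16b_Data v p r l e c K g y) (i : ZMod r) (j : ZMod p) :
    ldc_LowAt v (s16b_phi p r c g y (some i, some j)) 0 := by
  refine (ldk_cls_ss (v := v) c (r : ℂ) r p (s16b_zeta p ^ j.val) (s16b_zeta r ^ i.val)
    (fun n => coeff n (s16b_U p g)) (fun n => coeff n y) _ ?_ D.r_pos D.p_pos (D.vzp_pow _)
    (D.vzr_pow _) D.h0 D.y0 (fun n hn => (D.vh n hn).le) ?_ ?_).lowAt
  · intro m
    simp only [s16b_phi, s16b_partG, s16b_partY, map_smul, map_add, map_neg, smul_eq_mul,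
      s16b_coeff_sub]
    ring
  · intro n hn
    rw [mul_comm c⁻¹, mul_assoc, map_mul, D.vr_inv, one_mul]
    exact D.vy n hn
  · obtain ⟨w, hw, hvw⟩ := D.hr1
    have h : c⁻¹ * (1 + (r : ℂ)⁻¹) = (w : ℂ) * (r : ℂ)⁻¹ := by
      have hr := D.r_ne
      have hc := D.c_ne
      field_simp
      rw [hw]
    rw [h, map_mul, hvw, D.vr_inv, one_mul]

/-- class `(some i, none)` -/
theorem lowAt_sn (D : s16b_Data v p r l e c K g y) (i : ZMod r) :
    ldc_LowAt v (s16b_phi p r c g y (some i, none)) 0 := by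
  have hr2 : 2 ≤ r := D.hr.two_le
  refine ldk_cls_sn (v := v) c (r : ℂ) (p : ℂ) (r * p) p (s16b_zeta r ^ i.val)
    (fun n => coeff n g) (fun n => coeff n y) _ ?_ D.p_pos ?_ (D.vzr_pow _) D.g0 D.y0 ?_ ?_ ?_ ?_
  · intro m
    simp only [s16b_phi, s16b_partG, s16b_partY, map_smul, map_add, map_neg, smul_eq_mul,
      s16b_coeff_sub, one_pow, one_mul]
    ring
  · have := D.p_pos
    nlinarith
  · intro n hn
    rw [mul_comm c⁻¹, mul_assoc, map_mul]
    exact mul_le_one' (D.vnat p) (D.vg n hn).le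
  · intro n hn
    rw [mul_comm c⁻¹, mul_assoc, map_mul, D.vr_inv, one_mul]
    exact D.vy n hn
  · rw [mul_comm c⁻¹, mul_assoc, map_mul, D.vr_inv, one_mul]
    exact D.vy1
  · obtain ⟨w, hw, hvw⟩ := D.hr1
    obtain ⟨t, ht⟩ := D.hp1
    have hr := D.r_ne
    have hc := D.c_ne
    have key : (p : ℂ) * r - 1 = c * ((r : ℂ) * t - w) := by
      linear_combination (r : ℂ) * ht - hw
    have h : c⁻¹ * ((p : ℂ) - (r : ℂ)⁻¹) = (((r : ℤ) * t - w : ℤ) : ℂ) * (r : ℂ)⁻¹ := by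
      push_cast
      have h1 : (p : ℂ) - (r : ℂ)⁻¹ = ((p : ℂ) * r - 1) * (r : ℂ)⁻¹ := by field_simp
      rw [h1, key, ← mul_assoc, ← mul_assoc, inv_mul_cancel₀ hc, one_mul]
    rw [h, map_mul, D.vr_inv, mul_one]
    exact D.vint _

theorem N_pos (D : s16b_Data v p r l e c K g y) : 0 < r * p := Nat.mul_pos D.r_pos D.p_pos

theorem coeff_nn_mul (D : s16b_Data v p r l e c K g y) (n : ℕ) :
    coeff (r * p * n) (s16b_phi p r c g y (none, none)) =
      c⁻¹ * ((p : ℂ) * coeff n g + coeff n y) := by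
  simp only [s16b_phi, s16b_partG, s16b_partY, map_smul, map_add, smul_eq_mul,
    s16b_coeff_sub_mul _ D.N_pos, one_pow, one_mul]

theorem coeff_nn_not (_D : s16b_Data v p r l e c K g y) {m : ℕ} (h : ¬ r * p ∣ m) :
    coeff m (s16b_phi p r c g y (none, none)) = 0 := by
  simp only [s16b_phi, s16b_partG, s16b_partY, map_smul, map_add, smul_eq_mul,
    s16b_coeff_sub_of_not_dvd _ h, mul_zero, add_zero]

/-- `c⁻¹ (p g_n + y_n)` for `n ≥ 1`: integral, and a unit for `n = 1`. -/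
theorem v_nn (D : s16b_Data v p r l e c K g y) (n : ℕ) (hn : 1 ≤ n) :
    v (c⁻¹ * ((p : ℂ) * coeff n g + coeff n y)) ≤ 1 := by
  rw [mul_add]
  refine v.map_add_le ?_ (D.vy n hn)
  rw [mul_left_comm, map_mul]
  exact mul_le_one' (D.vnat p) (D.vg n hn).le

theorem v_nn_one (D : s16b_Data v p r l e c K g y) :
    v (c⁻¹ * ((p : ℂ) * coeff 1 g + coeff 1 y)) = 1 := by
  rw [mul_add]
  have h1 : v (c⁻¹ * ((p : ℂ) * coeff 1 g)) < 1 := by
    rw [mul_left_comm, map_mul]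
    exact lt_of_le_of_lt (mul_le_of_le_one_left' (D.vnat p)) (D.vg 1 le_rfl)
  rw [← D.vy1] at h1
  rw [v.map_add_eq_of_lt_right h1, D.vy1]

/-- class `(none, none)` -/
theorem lowAt_nn (D : s16b_Data v p r l e c K g y) :
    ldc_LowAt v (s16b_phi p r c g y (none, none)) 0 := by
  refine ldk_lowAt_of_coeff (fun m => ?_) (fun n hn => absurd hn (Nat.not_lt_zero n)) (r * p * 1) ?_
  · by_cases hm : r * p ∣ m
    · obtain ⟨n, rfl⟩ := hm
      rw [D.coeff_nn_mul]
      rcases Nat.eq_zero_or_pos n with rfl | hn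
      · obtain ⟨t, ht⟩ := D.hp1
        rw [D.g0, D.y0, mul_one, ht, ← mul_assoc, inv_mul_cancel₀ D.c_ne, one_mul]
        exact D.vint t
      · exact D.v_nn n hn
    · rw [D.coeff_nn_not hm, map_zero]
      exact zero_le
  · rw [D.coeff_nn_mul]
    exact D.v_nn_one

theorem coeff_ns_not (_D : s16b_Data v p r l e c K g y) (j : ZMod p) {m : ℕ} (h : ¬ r ∣ m) :
    coeff m (s16b_phi p r c g y (none, some j)) = 0 := by
  have h' : ¬ r * p ∣ m := fun hd => h (dvd_trans (dvd_mul_right r p) hd)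
  simp only [s16b_phi, s16b_partG, s16b_partY, map_smul, map_add, map_neg, smul_eq_mul,
    s16b_coeff_sub_of_not_dvd _ h, s16b_coeff_sub_of_not_dvd _ h', neg_zero, add_zero, mul_zero]

theorem coeff_ns_mul (D : s16b_Data v p r l e c K g y) (j : ZMod p) (n : ℕ) :
    coeff (r * n) (s16b_phi p r c g y (none, some j)) =
      c⁻¹ * (-(s16b_zeta p ^ j.val) ^ n * coeff n (s16b_U p g) +
        (if p ∣ n then coeff (n / p) y else 0)) := by
  have h1 : (r * p ∣ r * n) ↔ p ∣ n := Nat.mul_dvd_mul_iff_left D.r_pos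
  have h2 : r * n / (r * p) = n / p := Nat.mul_div_mul_left n p D.r_pos
  simp only [s16b_phi, s16b_partG, s16b_partY, map_smul, map_add, map_neg, smul_eq_mul,
    s16b_coeff_sub_mul _ D.r_pos, s16b_coeff_sub, h1, h2, one_pow, one_mul]
  ring

/-- class `(none, some j)` -/
theorem lowAt_ns (D : s16b_Data v p r l e c K g y) (j : ZMod p) :
    ldc_LowAt v (s16b_phi p r c g y (none, some j)) (r * p) := by
  have hz : ∀ n, v ((s16b_zeta p ^ j.val) ^ n) = 1 := fun n => by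
    rw [map_pow, D.vzp_pow, one_pow]
  have hterm : ∀ n, 1 ≤ n → v (c⁻¹ * (-(s16b_zeta p ^ j.val) ^ n * coeff n (s16b_U p g))) < 1 := by
    intro n hn
    rw [mul_left_comm, map_mul, v.map_neg, hz, one_mul]
    exact D.vh n hn
  have hzero : c⁻¹ * (-(s16b_zeta p ^ j.val) ^ 0 * coeff 0 (s16b_U p g) +
      (if p ∣ 0 then coeff (0 / p) y else 0)) = 0 := by
    rw [if_pos (dvd_zero p), Nat.zero_div, D.h0, D.y0]
    ring
  refine ldk_lowAt_of_coeff (fun m => ?_) (fun m hm => ?_) (r * p) ?_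
  · by_cases hr : r ∣ m
    · obtain ⟨n, rfl⟩ := hr
      rw [D.coeff_ns_mul]
      rcases Nat.eq_zero_or_pos n with rfl | hn
      · rw [hzero, map_zero]
        exact zero_le
      · rw [mul_add]
        refine v.map_add_le (hterm n hn).le ?_
        split_ifs with hd
        · exact D.vy _ (Nat.div_pos (Nat.le_of_dvd hn hd) D.p_pos)
        · rw [mul_zero, map_zero]
          exact zero_le
    · rw [D.coeff_ns_not j hr, map_zero]
      exact zero_le
  · by_cases hr : r ∣ m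
    · obtain ⟨n, rfl⟩ := hr
      have hnp : n < p := Nat.lt_of_mul_lt_mul_left hm
      rw [D.coeff_ns_mul]
      rcases Nat.eq_zero_or_pos n with rfl | hn
      · rw [hzero, map_zero]
        exact zero_lt_one
      · rw [if_neg (Nat.not_dvd_of_pos_of_lt hn hnp), add_zero]
        exact hterm n hn
    · rw [D.coeff_ns_not j hr, map_zero]
      exact zero_lt_one
  · rw [D.coeff_ns_mul, if_pos (dvd_refl p), Nat.div_self D.p_pos, mul_add]
    have h1 := hterm p D.p_pos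
    rw [← D.vy1] at h1
    rw [v.map_add_eq_of_lt_right h1, D.vy1]

/-- **all four classes**: `ldc_LowAt v (s16b_phi … x) (s16b_e p r x)`. -/
theorem lowAt (D : s16b_Data v p r l e c K g y) (x : Option (ZMod r) × Option (ZMod p)) :
    ldc_LowAt v (s16b_phi p r c g y x) (s16b_e p r x) := by
  rcases x with ⟨_ | i, _ | j⟩
  · exact D.lowAt_nn
  · exact D.lowAt_ns j
  · exact D.lowAt_sn i
  · exact D.lowAt_ss i j

end s16b_Data

end Fermat.Agent.S16B
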