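import Fermat.Agent.S16.Up.TraceId
import Fermat.Agent.S16.Up.Conj

set_option autoImplicit false

/-!
# S16 (T-id), unconditional: (B2) is `s16c_slash_ST`, so the trace identities hold for every
`G ∈ M₂(Γ₀(p))`.
-/

namespace Fermat.Agent.S16TI

open Matrix MatrixGroups CongruenceSubgroup UpperHalfPlane ModularForm ModularFormClass
open Matrix.SpecialLinearGroup (mapGL)

variable (p : ℕ) [Fact p.Prime]

theorem s16ti_B2_holds : s16ti_B2 p := fun F j => Fermat.Agent.S16.s16c_slash_ST p F j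

/-- For every `G ∈ M₂(Γ₀(p))` there is `H ∈ M₂(Γ₀(p))` with `H = U_p G`, `G = U_p H`,
`a_n(H) = a_{np}(G)`, `a_n(G) = a_{np}(H)` and the weight-4 trace identities (I1), (I2):
`a_n(G²) + p⁻¹ a_{np}(H²) = (a_0(G²) + p⁻¹ a_0(H²)) · 240 σ₃(n)` (`n ≥ 1`) and the same with `G`, `H`
swapped. -/
theorem s16ti_main' (G : ModularForm ((Gamma0 p).map (mapGL ℝ)) 2) :
    ∃ H : ModularForm ((Gamma0 p).map (mapGL ℝ)) 2,
      (H : ℍ → ℂ) = heckeU 2 p G ∧ (G : ℍ → ℂ) = heckeU 2 p H ∧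
      (∀ n, (qExpansion 1 H).coeff n = (qExpansion 1 G).coeff (n * p)) ∧
      (∀ n, (qExpansion 1 G).coeff n = (qExpansion 1 H).coeff (n * p)) ∧
      (∀ n, 0 < n →
        (qExpansion 1 G ^ 2).coeff n + (p : ℂ)⁻¹ * (qExpansion 1 H ^ 2).coeff (n * p)
          = ((qExpansion 1 G ^ 2).coeff 0 + (p : ℂ)⁻¹ * (qExpansion 1 H ^ 2).coeff 0)
              * (240 * (ArithmeticFunction.sigma 3 n : ℂ))) ∧
      (∀ n, 0 < n →
        (qExpansion 1 H ^ 2).coeff n + (p : ℂ)⁻¹ * (qExpansion 1 G ^ 2).coeff (n * p)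
          = ((qExpansion 1 H ^ 2).coeff 0 + (p : ℂ)⁻¹ * (qExpansion 1 G ^ 2).coeff 0)
              * (240 * (ArithmeticFunction.sigma 3 n : ℂ))) :=
  s16ti_main p (s16ti_B2_holds p) G

theorem s16ti_sq_coeff (f : PowerSeries ℂ) (n : ℕ) :
    (f ^ 2).coeff n = ∑ x ∈ Finset.HasAntidiagonal.antidiagonal n, f.coeff x.1 * f.coeff x.2 := by
  rw [pow_two, PowerSeries.coeff_mul]

theorem s16ti_sq_coeff_zero (f : PowerSeries ℂ) : (f ^ 2).coeff 0 = f.coeff 0 ^ 2 := by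
  rw [s16ti_sq_coeff]
  simp [pow_two]

/-- Sequence form (the input shape of the formal cores of Claims A and B): with `a n := a_n(G)`,
`b n := a_n(U_p G)`: `b n = a (p n)`, `a n = b (p n)`, and for `n ≥ 1`
`∑_{i+j=n} a i a j + p⁻¹ ∑_{i+j=pn} b i b j = (a 0 ^ 2 + p⁻¹ b 0 ^ 2) · 240 σ₃(n)`, and the same with
`a`, `b` swapped. -/
theorem s16ti_seq (G : ModularForm ((Gamma0 p).map (mapGL ℝ)) 2) :
    ∃ b : ℕ → ℂ,
      (∀ n, b n = (qExpansion 1 G).coeff (p * n)) ∧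
      (∀ n, (qExpansion 1 G).coeff n = b (p * n)) ∧
      (∀ n, 0 < n →
        (∑ x ∈ Finset.HasAntidiagonal.antidiagonal n, (qExpansion 1 G).coeff x.1 * (qExpansion 1 G).coeff x.2)
          + (p : ℂ)⁻¹ * (∑ x ∈ Finset.HasAntidiagonal.antidiagonal (p * n), b x.1 * b x.2)
          = ((qExpansion 1 G).coeff 0 ^ 2 + (p : ℂ)⁻¹ * b 0 ^ 2)
              * (240 * (ArithmeticFunction.sigma 3 n : ℂ))) ∧
      (∀ n, 0 < n →
        (∑ x ∈ Finset.HasAntidiagonal.antidiagonal n, b x.1 * b x.2)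
          + (p : ℂ)⁻¹ * (∑ x ∈ Finset.HasAntidiagonal.antidiagonal (p * n),
              (qExpansion 1 G).coeff x.1 * (qExpansion 1 G).coeff x.2)
          = (b 0 ^ 2 + (p : ℂ)⁻¹ * (qExpansion 1 G).coeff 0 ^ 2)
              * (240 * (ArithmeticFunction.sigma 3 n : ℂ))) := by
  obtain ⟨H, -, -, h1, h2, h3, h4⟩ := s16ti_main' p G
  refine ⟨fun n => (qExpansion 1 H).coeff n, fun n => ?_, fun n => ?_, fun n hn => ?_,
    fun n hn => ?_⟩
  · show (qExpansion 1 H).coeff n = _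
    rw [h1, mul_comm]
  · show _ = (qExpansion 1 H).coeff (p * n)
    rw [h2, mul_comm]
  · have := h3 n hn
    rw [s16ti_sq_coeff_zero, s16ti_sq_coeff_zero, s16ti_sq_coeff, s16ti_sq_coeff] at this
    rw [mul_comm p n]
    exact this
  · have := h4 n hn
    rw [s16ti_sq_coeff_zero, s16ti_sq_coeff_zero, s16ti_sq_coeff, s16ti_sq_coeff] at this
    rw [mul_comm p n]
    exact this

end Fermat.Agent.S16TI
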